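import Fermat.Agent.S27x.Spec.HenselMulti

/-!
# P-S27 block D7 (FACT route, note 1054): the factorisation system (helper27)

Abstract form of the lifting system `u * u' = (R_fix(z) * R_var(z)) ^ n` in a commutative
`A`-algebra `B` (think `B = B_A = ⊕ A[x] f_i`), `A` a henselian local ring.

* `mapLin φ` : apply an `A`-linear functional `φ : B → A` coefficientwise,
  `MvPolynomial I B →ₗ[A] MvPolynomial I A`; `eval_mapLin`, `pderiv_mapLin`, `eval₂_mapLin`
  (evaluation at a residue point through a reduction `red : B → Bbar`).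
* `dirD y v P = ∑ i, v i * (∂ᵢ P)(y)` with Leibniz rules.
* `rvarPoly r = T^g + ∑_{l<g} r_l T^l` (monic of degree `g`).
* `Core B I1 I2` = ring-level data (`b1`, `b2`, `z`, `rfix`, `n`); unknowns
  `Idx I1 I2 g = I1 ⊕ (I2 ⊕ Fin g)`; `Core.uOf`, `vOf`, `rdot`, `rvar`, `value`, `dval`,
  `Core.master`, `eval_master`, `map_master`, `dirD_master`.
* `Data A B I1 I2 I3` = `Core` + coordinate functionals `φ : I3 → (B →ₗ[A] A)` + normalisation
  (`t0`, `α0`); equations `Data.G : I3 ⊕ Unit → MvPolynomial (Idx I1 I2 g) A`; `Data.IsSol`.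
* `exists_isSol_lift_of_surjective` (any surjection `π : A → k` onto a field) and its special
  case `exists_isSol_lift` (`π = residue A`), plus the `_of_card` variants: a residue solution
  at which the differential `dval` of the reduced system has trivial kernel (on directions with
  vanishing normalised coordinate) lifts to a solution over `A`.
-/

set_option autoImplicit false

noncomputable section

namespace Fermat.Agent.S27x.Lift.FactorSystem

open MvPolynomial

section MapLin

variable {A B : Type*} [CommRing A] [CommRing B] [Algebra A B] {I : Type*}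

/-- Apply an `A`-linear functional `φ : B → A` to every coefficient of a polynomial over `B`. -/
def mapLin (φ : B →ₗ[A] A) : MvPolynomial I B →ₗ[A] MvPolynomial I A where
  toFun P := AddMonoidAlgebra.ofCoeff (Finsupp.mapRange φ (map_zero φ) (AddMonoidAlgebra.coeff P))
  map_add' P Q := by
    refine MvPolynomial.ext _ _ fun m => ?_
    rw [coeff_add]
    show φ (coeff m (P + Q)) = φ (coeff m P) + φ (coeff m Q)
    rw [coeff_add, map_add]
  map_smul' a P := by
    refine MvPolynomial.ext _ _ fun m => ?_
    rw [RingHom.id_apply, coeff_smul]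
    show φ (coeff m (a • P)) = a • φ (coeff m P)
    rw [coeff_smul, map_smul]

@[simp]
theorem coeff_mapLin (φ : B →ₗ[A] A) (P : MvPolynomial I B) (m : I →₀ ℕ) :
    coeff m (mapLin φ P) = φ (coeff m P) := rfl

@[simp]
theorem mapLin_monomial (φ : B →ₗ[A] A) (s : I →₀ ℕ) (b : B) :
    mapLin φ (monomial s b) = monomial s (φ b) := by
  classical
  refine MvPolynomial.ext _ _ fun m => ?_
  rw [coeff_mapLin, coeff_monomial, coeff_monomial]
  split_ifs <;> simp

theorem prod_algebraMap (x : I → A) (s : I →₀ ℕ) :
    (s.prod fun i e => (algebraMap A B (x i)) ^ e) = algebraMap A B (s.prod fun i e => x i ^ e) := by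
  simp [Finsupp.prod, map_prod]

/-- Evaluating the coefficientwise image = applying the functional to the value. -/
theorem eval_mapLin (φ : B →ₗ[A] A) (x : I → A) (P : MvPolynomial I B) :
    eval x (mapLin φ P) = φ (eval (fun i => algebraMap A B (x i)) P) := by
  induction P using MvPolynomial.induction_on' with
  | monomial s b =>
    rw [mapLin_monomial, eval_monomial, eval_monomial, prod_algebraMap, mul_comm b,
      ← Algebra.smul_def, map_smul, smul_eq_mul, mul_comm]
  | add P Q hP hQ => simp only [map_add, hP, hQ]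

theorem pderiv_mapLin (φ : B →ₗ[A] A) (i : I) (P : MvPolynomial I B) :
    pderiv i (mapLin φ P) = mapLin φ (pderiv i P) := by
  induction P using MvPolynomial.induction_on' with
  | monomial s b =>
    rw [mapLin_monomial, pderiv_monomial, pderiv_monomial, mapLin_monomial]
    congr 1
    rw [mul_comm b, ← nsmul_eq_mul, map_nsmul, nsmul_eq_mul, mul_comm]
  | add P Q hP hQ => simp only [map_add, hP, hQ]

/-- Reduction: evaluating the coefficientwise image at a point of a quotient `k` of `A`. -/
theorem eval₂_mapLin {k Bbar : Type*} [CommRing k] [CommRing Bbar] [Algebra k Bbar]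
    (ρ : A →+* k) (red : B →+* Bbar)
    (φ : B →ₗ[A] A) (φbar : Bbar →ₗ[k] k) (hφ : ∀ b, φbar (red b) = ρ (φ b))
    (xbar : I → k) (P : MvPolynomial I B) :
    eval₂ ρ xbar (mapLin φ P)
      = φbar (eval (fun i => algebraMap k Bbar (xbar i)) (map red P)) := by
  induction P using MvPolynomial.induction_on' with
  | monomial s b =>
    rw [mapLin_monomial, eval₂_monomial, map_monomial, eval_monomial, prod_algebraMap,
      mul_comm (red b), ← Algebra.smul_def, map_smul, smul_eq_mul, hφ, mul_comm]
  | add P Q hP hQ => simp only [map_add, eval₂_add, hP, hQ]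

end MapLin

/-! ### Directional derivative of a polynomial at a point -/

section DirD

variable {B : Type*} [CommRing B] {I : Type*} [Fintype I]

/-- `dirD y v P = ∑ i, v i * (∂ᵢ P)(y)`: the derivative of `P` at `y` in the direction `v`. -/
def dirD (y v : I → B) (P : MvPolynomial I B) : B :=
  ∑ i, v i * eval y (pderiv i P)

theorem dirD_add (y v : I → B) (P Q : MvPolynomial I B) :
    dirD y v (P + Q) = dirD y v P + dirD y v Q := by
  simp only [dirD, map_add, mul_add, Finset.sum_add_distrib]

theorem dirD_sub (y v : I → B) (P Q : MvPolynomial I B) :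
    dirD y v (P - Q) = dirD y v P - dirD y v Q := by
  simp only [dirD, map_sub, mul_sub, Finset.sum_sub_distrib]

theorem dirD_sum {J : Type*} (s : Finset J) (y v : I → B) (P : J → MvPolynomial I B) :
    dirD y v (∑ j ∈ s, P j) = ∑ j ∈ s, dirD y v (P j) := by
  classical
  induction s using Finset.induction_on with
  | empty => simp [dirD]
  | insert a s ha ih => rw [Finset.sum_insert ha, Finset.sum_insert ha, dirD_add, ih]

theorem dirD_C (y v : I → B) (b : B) : dirD y v (C b) = 0 := by
  simp [dirD]

theorem dirD_X [DecidableEq I] (y v : I → B) (i : I) : dirD y v (X i) = v i := by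
  simp [dirD, pderiv_X, Pi.single_apply]

theorem dirD_mul (y v : I → B) (P Q : MvPolynomial I B) :
    dirD y v (P * Q) = eval y P * dirD y v Q + eval y Q * dirD y v P := by
  simp only [dirD, Derivation.leibniz, map_add, smul_eq_mul, map_mul, mul_add,
    Finset.sum_add_distrib, Finset.mul_sum]
  congr 1 <;> exact Finset.sum_congr rfl fun i _ => by ring

theorem dirD_pow (y v : I → B) (P : MvPolynomial I B) (n : ℕ) :
    dirD y v (P ^ n) = n * eval y P ^ (n - 1) * dirD y v P := by
  simp only [dirD, Derivation.leibniz_pow, smul_eq_mul, map_mul, map_pow, nsmul_eq_mul,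
    Finset.mul_sum, map_natCast]
  exact Finset.sum_congr rfl fun i _ => by ring

theorem dirD_C_mul (y v : I → B) (b : B) (P : MvPolynomial I B) :
    dirD y v (C b * P) = b * dirD y v P := by
  rw [dirD_mul, dirD_C, mul_zero, add_zero, eval_C]

end DirD


/-! ### The polynomial `R_var` -/

section RvarPoly

open Polynomial

variable {R S : Type*} [CommRing R] [CommRing S] {g : ℕ}

/-- The monic polynomial `T^g + ∑_{l<g} r_l T^l`. -/
def rvarPoly (r : Fin g → R) : R[X] :=
  Polynomial.X ^ g + ∑ l : Fin g, Polynomial.C (r l) * Polynomial.X ^ (l : ℕ)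

theorem rvarPoly_map (f : R →+* S) (r : Fin g → R) :
    (rvarPoly r).map f = rvarPoly fun l => f (r l) := by
  simp only [rvarPoly, Polynomial.map_add, Polynomial.map_pow, Polynomial.map_X,
    Polynomial.map_sum, Polynomial.map_mul, Polynomial.map_C]

theorem degree_rvarPoly_tail_lt [Nontrivial R] (r : Fin g → R) :
    (∑ l : Fin g, Polynomial.C (r l) * Polynomial.X ^ (l : ℕ)).degree
      < (Polynomial.X ^ g : R[X]).degree := by
  rw [Polynomial.degree_X_pow]
  exact Polynomial.degree_sum_fin_lt r

theorem rvarPoly_monic (r : Fin g → R) : (rvarPoly r).Monic := by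
  nontriviality R
  exact (Polynomial.monic_X_pow g).add_of_left (degree_rvarPoly_tail_lt r)

theorem natDegree_rvarPoly [Nontrivial R] (r : Fin g → R) : (rvarPoly r).natDegree = g := by
  rw [rvarPoly, Polynomial.natDegree_add_eq_left_of_degree_lt (degree_rvarPoly_tail_lt r),
    Polynomial.natDegree_X_pow]

theorem coeff_rvarPoly (r : Fin g → R) (l : Fin g) : (rvarPoly r).coeff l = r l := by
  classical
  rw [rvarPoly, Polynomial.coeff_add, Polynomial.coeff_X_pow, if_neg (ne_of_lt l.2),
    zero_add, Polynomial.finsetSum_coeff]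
  simp only [Polynomial.coeff_C_mul_X_pow]
  rw [Finset.sum_eq_single l]
  · simp
  · intro b _ hb
    rw [if_neg]
    intro h
    exact hb (Fin.ext h.symm)
  · intro h
    exact absurd (Finset.mem_univ l) h

/-- A monic polynomial of degree `g` is `rvarPoly` of its lower coefficients. -/
theorem rvarPoly_coeff_eq {P : R[X]} (hP : P.Monic) (hdeg : P.natDegree = g) :
    rvarPoly (fun l : Fin g => P.coeff l) = P := by
  nontriviality R
  ext m
  rcases lt_trichotomy m g with h | h | h
  · have := coeff_rvarPoly (fun l : Fin g => P.coeff l) ⟨m, h⟩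
    simpa using this
  · subst h
    have h1 := (rvarPoly_monic (fun l : Fin m => P.coeff l)).coeff_natDegree
    rw [natDegree_rvarPoly] at h1
    have h2 := hP.coeff_natDegree
    rw [hdeg] at h2
    rw [h1, h2]
  · rw [Polynomial.coeff_eq_zero_of_natDegree_lt (by rw [natDegree_rvarPoly]; exact h),
      Polynomial.coeff_eq_zero_of_natDegree_lt (by rw [hdeg]; exact h)]

end RvarPoly

/-! ### The factorisation system `u * u' = (R_fix(z) * R_var(z)) ^ n` -/

/-- Index type of the unknowns: the coordinates of `u`, those of `u'`, and the `g` lower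
coefficients of the monic polynomial `R_var`. -/
abbrev Idx (I1 I2 : Type*) (g : ℕ) := I1 ⊕ (I2 ⊕ Fin g)

section Core

variable {I1 I2 : Type*} {g : ℕ}

/-- Index of a coordinate of `u`. -/
def uIdx (s : I1) : Idx I1 I2 g := Sum.inl s
/-- Index of a coordinate of `u'`. -/
def vIdx (t : I2) : Idx I1 I2 g := Sum.inr (Sum.inl t)
/-- Index of a lower coefficient of `R_var`. -/
def rIdx (l : Fin g) : Idx I1 I2 g := Sum.inr (Sum.inr l)

/-- Ring-level data of the factorisation system: spanning families `b1`, `b2` of the two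
lattices, the function `z`, the value `rfix = R_fix(z)` and the exponent `n`. -/
structure Core (B : Type*) [CommRing B] (I1 I2 : Type*) where
  /-- spanning family of the lattice of `u` -/
  b1 : I1 → B
  /-- spanning family of the lattice of `u'` -/
  b2 : I2 → B
  /-- the coordinate function `z` -/
  z : B
  /-- the value `R_fix(z)` -/
  rfix : B
  /-- the exponent -/
  n : ℕ

namespace Core

variable {B B' : Type*} [CommRing B] [CommRing B'] (K : Core B I1 I2)

/-- Base change of the ring-level data. -/
def map (f : B →+* B') : Core B' I1 I2 :=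
  ⟨fun s => f (K.b1 s), fun t => f (K.b2 t), f K.z, f K.rfix, K.n⟩

variable [Fintype I1] [Fintype I2]

/-- `u(y) = ∑ y_s b1_s`. -/
def uOf (y : Idx I1 I2 g → B) : B := ∑ s, y (uIdx s) * K.b1 s
/-- `u'(y) = ∑ y_t b2_t`. -/
def vOf (y : Idx I1 I2 g → B) : B := ∑ t, y (vIdx t) * K.b2 t
/-- The non-leading part `∑_{l<g} r_l z^l` of `R_var(z)`. -/
def rdot (y : Idx I1 I2 g → B) : B := ∑ l : Fin g, y (rIdx l) * K.z ^ (l : ℕ)
/-- `R_var(z) = z^g + ∑_{l<g} r_l z^l`. -/
def rvar (y : Idx I1 I2 g → B) : B := K.z ^ g + K.rdot y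
/-- The value `u u' - (R_fix(z) R_var(z))^n` of the system at `y`. -/
def value (y : Idx I1 I2 g → B) : B := K.uOf y * K.vOf y - (K.rfix * K.rvar y) ^ K.n
/-- The derivative of `value` at `y` in the direction `v`. -/
def dval (y v : Idx I1 I2 g → B) : B :=
  K.uOf v * K.vOf y + K.uOf y * K.vOf v
    - K.n * (K.rfix * K.rvar y) ^ (K.n - 1) * (K.rfix * K.rdot v)

/-- The master polynomial over the ring `B`. -/
def master (g : ℕ) : MvPolynomial (Idx I1 I2 g) B :=
  (∑ s, X (uIdx s) * C (K.b1 s)) * (∑ t, X (vIdx t) * C (K.b2 t))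
    - (C K.rfix * (C (K.z ^ g) + ∑ l : Fin g, X (rIdx l) * C (K.z ^ (l : ℕ)))) ^ K.n

theorem eval_master (y : Idx I1 I2 g → B) : eval y (K.master g) = K.value y := by
  simp only [master, value, uOf, vOf, rvar, rdot, map_sub, map_mul, map_sum, map_pow, map_add,
    eval_X, eval_C]

theorem map_master (f : B →+* B') : MvPolynomial.map f (K.master g) = (K.map f).master g := by
  simp only [master, Core.map, map_sub, map_mul, map_sum, map_pow, map_add, map_X, map_C]

theorem dirD_master [DecidableEq I1] [DecidableEq I2] (y v : Idx I1 I2 g → B) :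
    dirD y v (K.master g) = K.dval y v := by
  have h1 : dirD y v (∑ s, X (uIdx s) * C (K.b1 s)) = K.uOf v := by
    rw [dirD_sum]
    refine Finset.sum_congr rfl fun s _ => ?_
    rw [mul_comm, dirD_C_mul, dirD_X, mul_comm]
  have h2 : dirD y v (∑ t, X (vIdx t) * C (K.b2 t)) = K.vOf v := by
    rw [dirD_sum]
    refine Finset.sum_congr rfl fun s _ => ?_
    rw [mul_comm, dirD_C_mul, dirD_X, mul_comm]
  have h3 : dirD y v (C (K.z ^ g) + ∑ l : Fin g, X (rIdx l) * C (K.z ^ (l : ℕ))) = K.rdot v := by
    rw [dirD_add, dirD_C, zero_add, dirD_sum]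
    refine Finset.sum_congr rfl fun s _ => ?_
    rw [mul_comm, dirD_C_mul, dirD_X, mul_comm]
  have e1 : eval y (∑ s, X (uIdx s) * C (K.b1 s)) = K.uOf y := by
    simp only [uOf, map_sum, map_mul, eval_X, eval_C]
  have e2 : eval y (∑ t, X (vIdx t) * C (K.b2 t)) = K.vOf y := by
    simp only [vOf, map_sum, map_mul, eval_X, eval_C]
  have e3 : eval y (C K.rfix * (C (K.z ^ g) + ∑ l : Fin g, X (rIdx l) * C (K.z ^ (l : ℕ))))
      = K.rfix * K.rvar y := by
    simp only [rvar, rdot, map_sum, map_mul, map_add, eval_X, eval_C]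
  rw [master, dirD_sub, dirD_mul, dirD_pow, dirD_C_mul, h1, h2, h3, e1, e2, e3, dval]
  ring

omit [Fintype I1] [Fintype I2] in
theorem rvar_eq_eval (y : Idx I1 I2 g → B) :
    K.rvar y = Polynomial.eval K.z (rvarPoly fun l => y (rIdx l)) := by
  simp only [rvar, rdot, rvarPoly, Polynomial.eval_add, Polynomial.eval_pow, Polynomial.eval_X,
    Polynomial.eval_finsetSum, Polynomial.eval_mul, Polynomial.eval_C]

omit [Fintype I1] [Fintype I2] in
theorem rdot_eq_eval (y : Idx I1 I2 g → B) :
    K.rdot y = Polynomial.eval K.z (∑ l : Fin g, Polynomial.C (y (rIdx l)) * Polynomial.X ^ (l : ℕ)) := by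
  simp only [rdot, Polynomial.eval_pow, Polynomial.eval_X,
    Polynomial.eval_finsetSum, Polynomial.eval_mul, Polynomial.eval_C]

end Core

end Core

/-! ### The system over `A` and its solution by Hensel's lemma -/

section Data

variable {I1 I2 I3 : Type*} {g : ℕ}

/-- The full data of the factorisation system over `A`: the ring-level data in the `A`-algebra
`B`, coordinate functionals `φ w : B → A` (one for each equation), and the normalisation
`coordinate t0 of u = α0`. -/
structure Data (A B : Type*) [CommRing A] [CommRing B] [Algebra A B] (I1 I2 I3 : Type*)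
    extends Core B I1 I2 where
  /-- the coordinate functionals -/
  φ : I3 → (B →ₗ[A] A)
  /-- the normalised coordinate of `u` -/
  t0 : I1
  /-- the prescribed value of that coordinate -/
  α0 : A

namespace Data

variable {A B : Type*} [CommRing A] [CommRing B] [Algebra A B] [Fintype I1] [Fintype I2]
  (D : Data A B I1 I2 I3)

/-- The point of `B` attached to a point of `A`. -/
def pt (x : Idx I1 I2 g → A) : Idx I1 I2 g → B := fun i => algebraMap A B (x i)

/-- The equations: the coordinates of the master polynomial, and the normalisation. -/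
def G (g : ℕ) : I3 ⊕ Unit → MvPolynomial (Idx I1 I2 g) A
  | Sum.inl w => mapLin (D.φ w) (D.toCore.master g)
  | Sum.inr _ => X (uIdx D.t0) - C D.α0

theorem eval_G_inl (x : Idx I1 I2 g → A) (w : I3) :
    eval x (D.G g (Sum.inl w)) = D.φ w (D.toCore.value (pt x)) := by
  rw [G, eval_mapLin, ← Core.eval_master]
  rfl

theorem eval_G_inr (x : Idx I1 I2 g → A) (u : Unit) :
    eval x (D.G g (Sum.inr u)) = x (uIdx D.t0) - D.α0 := by
  simp [G]

/-- `x` solves the system: `u u' = (R_fix(z) R_var(z))^n` in `B` and the normalisation holds. -/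
def IsSol (x : Idx I1 I2 g → A) : Prop :=
  D.toCore.uOf (pt x) * D.toCore.vOf (pt x) = (D.rfix * D.toCore.rvar (pt x)) ^ D.n ∧
    x (uIdx D.t0) = D.α0

theorem isSol_iff (x : Idx I1 I2 g → A) :
    D.IsSol x ↔ D.toCore.value (pt x) = 0 ∧ x (uIdx D.t0) = D.α0 := by
  rw [IsSol, Core.value, sub_eq_zero]

/-- If the coordinate functionals separate the values of the system, then the polynomial
equations `G = 0` are equivalent to `IsSol`. -/
theorem forall_eval_G_eq_zero_iff (x : Idx I1 I2 g → A)
    (hsep : (∀ w, D.φ w (D.toCore.value (pt x)) = 0) → D.toCore.value (pt x) = 0) :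
    (∀ j, eval x (D.G g j) = 0) ↔ D.IsSol x := by
  rw [isSol_iff]
  constructor
  · intro h
    refine ⟨hsep fun w => ?_, ?_⟩
    · rw [← eval_G_inl]; exact h _
    · have := h (Sum.inr ())
      rwa [eval_G_inr, sub_eq_zero] at this
  · rintro ⟨h1, h2⟩ (w | u)
    · rw [eval_G_inl, h1, map_zero]
    · rw [eval_G_inr, h2, sub_self]

end Data

end Data

section Hensel

open IsLocalRing Fermat.Agent.S27x.Spec.HenselMulti

variable {I1 I2 I3 : Type*} {g : ℕ} [Fintype I1] [Fintype I2]
  [DecidableEq I1] [DecidableEq I2]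
variable {A B : Type*} [CommRing A] [HenselianLocalRing A] [CommRing B] [Algebra A B]
variable {k : Type*} [Field k] {Bbar : Type*} [CommRing Bbar] [Algebra k Bbar]

/-- The point of `Bbar` attached to a point of the residue field. -/
def ptbar (xbar : Idx I1 I2 g → k) : Idx I1 I2 g → Bbar :=
  fun i => algebraMap k Bbar (xbar i)

/-- **Hensel lifting for the factorisation system**, for a residue map `π : A → k`.
`red : B → Bbar` is a reduction map, `φbar` the reductions of the coordinate functionals.  A
residue solution `xbar` at which the derivative of the reduced system is injective on directions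
with vanishing normalised coordinate lifts to a solution over `A`. -/
theorem exists_isSol_lift_of_surjective (π : A →+* k) (hπ : Function.Surjective π)
    (D : Data A B I1 I2 I3) (e : I3 ⊕ Unit ≃ Idx I1 I2 g)
    (red : B →+* Bbar) (φbar : I3 → (Bbar →ₗ[k] k))
    (hφ : ∀ w b, φbar w (red b) = π (D.φ w b))
    (hsep : ∀ x : Idx I1 I2 g → A, (∀ w, D.φ w (D.toCore.value (Data.pt x)) = 0) →
      D.toCore.value (Data.pt x) = 0)
    (xbar : Idx I1 I2 g → k)
    (hsol : (D.toCore.map red).value (ptbar xbar) = 0)
    (hnorm : xbar (uIdx D.t0) = π D.α0)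
    (hker : ∀ v : Idx I1 I2 g → k,
      (∀ w, φbar w ((D.toCore.map red).dval (ptbar xbar) (ptbar v)) = 0) →
      v (uIdx D.t0) = 0 → v = 0) :
    ∃ x : Idx I1 I2 g → A, D.IsSol x ∧ ∀ i, π (x i) = xbar i := by
  classical
  have hkerπ : RingHom.ker π = maximalIdeal A := ker_eq_maximalIdeal π hπ
  -- the square system
  let G' : Idx I1 I2 g → MvPolynomial (Idx I1 I2 g) A := fun j => D.G g (e.symm j)
  choose z0 hz0 using fun i => hπ (xbar i)
  have key : ∀ p : MvPolynomial (Idx I1 I2 g) A, π (eval z0 p) = eval₂ π xbar p := by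
    intro p
    have hz : xbar = fun i => π (z0 i) := funext fun i => (hz0 i).symm
    rw [hz, MvPolynomial.eval, MvPolynomial.coe_eval₂Hom, MvPolynomial.eval₂_comp_left π]
    rfl
  have hval : ∀ (w : I3) (P : MvPolynomial (Idx I1 I2 g) B),
      eval₂ π xbar (mapLin (D.φ w) P)
        = φbar w (eval (ptbar xbar) (MvPolynomial.map red P)) := fun w P =>
    eval₂_mapLin π red (D.φ w) (φbar w) (hφ w) xbar P
  have h0 : ∀ j, eval₂ π xbar (G' j) = 0 := by
    intro j
    show eval₂ π xbar (D.G g (e.symm j)) = 0
    rcases e.symm j with w | u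
    · rw [Data.G, hval, Core.map_master, Core.eval_master, hsol, map_zero]
    · rw [Data.G, eval₂_sub, eval₂_X, eval₂_C, hnorm]
      exact sub_self _
  have hJ : Matrix.det (Matrix.of fun i j => eval₂ π xbar (pderiv i (G' j))) ≠ 0 := by
    intro hdet
    obtain ⟨v, hv0, hv⟩ := Matrix.exists_vecMul_eq_zero_iff.mpr hdet
    apply hv0
    apply hker v
    · intro w
      have := congrFun hv (e (Sum.inl w))
      simp only [Matrix.vecMul, dotProduct, Matrix.of_apply, Pi.zero_apply] at this
      rw [← this, ← Core.dirD_master, dirD, map_sum]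
      refine Finset.sum_congr rfl fun i _ => ?_
      show _ = v i * eval₂ π xbar (pderiv i (D.G g (e.symm (e (Sum.inl w)))))
      rw [Equiv.symm_apply_apply, Data.G, pderiv_mapLin, hval, ← MvPolynomial.pderiv_map,
        Core.map_master, ptbar, ← Algebra.smul_def, map_smul, smul_eq_mul]
    · have := congrFun hv (e (Sum.inr ()))
      simp only [Matrix.vecMul, dotProduct, Matrix.of_apply, Pi.zero_apply] at this
      rw [← this]
      symm
      have h1 : ∀ i, eval₂ π xbar (pderiv i (G' (e (Sum.inr ()))))
          = if i = uIdx D.t0 then 1 else 0 := by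
        intro i
        show eval₂ π xbar (pderiv i (D.G g (e.symm (e (Sum.inr ()))))) = _
        rw [Equiv.symm_apply_apply, Data.G, map_sub, pderiv_X, pderiv_C, sub_zero,
          Pi.single_apply]
        by_cases h : i = uIdx D.t0
        · simp [h]
        · simp [h, Ne.symm h]
      simp only [h1, mul_ite, mul_one, mul_zero, Finset.sum_ite_eq', Finset.mem_univ, if_true]
  have h0' : ∀ j, MvPolynomial.eval z0 (G' j) ∈ maximalIdeal A := fun j => by
    rw [← hkerπ, RingHom.mem_ker, key]
    exact h0 j
  have hJ' : IsUnit (Matrix.det (Matrix.of fun i j =>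
      MvPolynomial.eval z0 (pderiv i (G' j)))) := by
    by_contra hnu
    have hm : Matrix.det (Matrix.of fun i j => MvPolynomial.eval z0 (pderiv i (G' j)))
        ∈ maximalIdeal A := by rwa [mem_maximalIdeal, mem_nonunits_iff]
    rw [← hkerπ, RingHom.mem_ker, RingHom.map_det] at hm
    apply hJ
    rw [← hm]
    congr 1
    ext i j
    simp [key]
  obtain ⟨x, hx, hxz⟩ := exists_lift_of_isUnit_jacobian G' z0 h0' hJ'
  refine ⟨x, (D.forall_eval_G_eq_zero_iff x (hsep x)).mp fun j => ?_, fun i => ?_⟩
  · have := hx (e j)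
    simpa only [G', Equiv.symm_apply_apply] using this
  · have := hxz i
    rw [← hkerπ, RingHom.mem_ker, map_sub, sub_eq_zero] at this
    rw [this, hz0]

/-- `exists_isSol_lift_of_surjective` with the square-ness of the system given as an equality of
cardinals: `#equations = #I3 + 1 = #I1 + #I2 + g = #unknowns`. -/
theorem exists_isSol_lift_of_surjective_of_card [Fintype I3] (π : A →+* k)
    (hπ : Function.Surjective π) (D : Data A B I1 I2 I3)
    (hcard : Fintype.card I3 + 1 = Fintype.card I1 + Fintype.card I2 + g)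
    (red : B →+* Bbar) (φbar : I3 → (Bbar →ₗ[k] k))
    (hφ : ∀ w b, φbar w (red b) = π (D.φ w b))
    (hsep : ∀ x : Idx I1 I2 g → A, (∀ w, D.φ w (D.toCore.value (Data.pt x)) = 0) →
      D.toCore.value (Data.pt x) = 0)
    (xbar : Idx I1 I2 g → k)
    (hsol : (D.toCore.map red).value (ptbar xbar) = 0)
    (hnorm : xbar (uIdx D.t0) = π D.α0)
    (hker : ∀ v : Idx I1 I2 g → k,
      (∀ w, φbar w ((D.toCore.map red).dval (ptbar xbar) (ptbar v)) = 0) →
      v (uIdx D.t0) = 0 → v = 0) :
    ∃ x : Idx I1 I2 g → A, D.IsSol x ∧ ∀ i, π (x i) = xbar i := by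
  have hc : Fintype.card (I3 ⊕ Unit) = Fintype.card (Idx I1 I2 g) := by
    simp only [Fintype.card_sum, Fintype.card_unit, Fintype.card_fin]
    omega
  exact exists_isSol_lift_of_surjective π hπ D (Fintype.equivOfCardEq hc) red φbar hφ hsep xbar
    hsol hnorm hker

/-- The special case `k = ResidueField A`, `π = residue A`. -/
theorem exists_isSol_lift {Bbar : Type*} [CommRing Bbar] [Algebra (ResidueField A) Bbar]
    (D : Data A B I1 I2 I3) (e : I3 ⊕ Unit ≃ Idx I1 I2 g)
    (red : B →+* Bbar)
    (φbar : I3 → (Bbar →ₗ[ResidueField A] ResidueField A))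
    (hφ : ∀ w b, φbar w (red b) = residue A (D.φ w b))
    (hsep : ∀ x : Idx I1 I2 g → A, (∀ w, D.φ w (D.toCore.value (Data.pt x)) = 0) →
      D.toCore.value (Data.pt x) = 0)
    (xbar : Idx I1 I2 g → ResidueField A)
    (hsol : (D.toCore.map red).value (ptbar xbar) = 0)
    (hnorm : xbar (uIdx D.t0) = residue A D.α0)
    (hker : ∀ v : Idx I1 I2 g → ResidueField A,
      (∀ w, φbar w ((D.toCore.map red).dval (ptbar xbar) (ptbar v)) = 0) →
      v (uIdx D.t0) = 0 → v = 0) :
    ∃ x : Idx I1 I2 g → A, D.IsSol x ∧ ∀ i, residue A (x i) = xbar i :=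
  exists_isSol_lift_of_surjective (residue A) residue_surjective D e red φbar hφ hsep xbar hsol
    hnorm hker

/-- `exists_isSol_lift` with a cardinality hypothesis. -/
theorem exists_isSol_lift_of_card [Fintype I3] {Bbar : Type*} [CommRing Bbar]
    [Algebra (ResidueField A) Bbar] (D : Data A B I1 I2 I3)
    (hcard : Fintype.card I3 + 1 = Fintype.card I1 + Fintype.card I2 + g)
    (red : B →+* Bbar)
    (φbar : I3 → (Bbar →ₗ[ResidueField A] ResidueField A))
    (hφ : ∀ w b, φbar w (red b) = residue A (D.φ w b))
    (hsep : ∀ x : Idx I1 I2 g → A, (∀ w, D.φ w (D.toCore.value (Data.pt x)) = 0) →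
      D.toCore.value (Data.pt x) = 0)
    (xbar : Idx I1 I2 g → ResidueField A)
    (hsol : (D.toCore.map red).value (ptbar xbar) = 0)
    (hnorm : xbar (uIdx D.t0) = residue A D.α0)
    (hker : ∀ v : Idx I1 I2 g → ResidueField A,
      (∀ w, φbar w ((D.toCore.map red).dval (ptbar xbar) (ptbar v)) = 0) →
      v (uIdx D.t0) = 0 → v = 0) :
    ∃ x : Idx I1 I2 g → A, D.IsSol x ∧ ∀ i, residue A (x i) = xbar i :=
  exists_isSol_lift_of_surjective_of_card (residue A) residue_surjective D hcard red φbar hφ hsep
    xbar hsol hnorm hker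

end Hensel

end Fermat.Agent.S27x.Lift.FactorSystem
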