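import Fermat.Agent.S27x.Lift.Frame

/-!
# P-S27 block D7: the ring `B_A = ⊕ A[x] f_i` and its coordinate functionals

Generic part (`R` a commutative ring, `L` an `R`-algebra, `f i * f j = ∑ P i j l (x) f l`,
`f i₀ = 1`, `ev x f` injective on tuples over `R`):
`ringB … : Subalgebra R L` is the range of `ev x f`, `evEquiv : (ι → R[X]) ≃ₗ[R] ringB`,
`coordFun … s : ringB →ₗ[R] R` the coefficient functional of the monomial `s = (i, a)`
(`coordFun_ev`), separating points (`eq_zero_of_coordFun`), equal to the `frameBasis` coordinates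
on `Λ_N` (`coordFun_eq_repr`).

For `D : AperyData A F ι` with reduction `(k, κ)`: `BA D`, `Bk D hc hπ`, the reduction
`redB : BA D →+* Bk D hc hπ` (surjective) and `coordFun_redB` (coordinates reduce).
-/

set_option autoImplicit false
set_option linter.unusedSectionVars false

namespace Fermat.Agent.S27x.Lift.Frame

open Polynomial Fermat.Agent.S27x.Spec.GaussNorm

variable {ι : Type*} [Fintype ι] [DecidableEq ι]

section generic

variable {R L : Type*} [CommRing R] [CommRing L] [Algebra R L] (x : L) (f : ι → L)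

/-- `ev x f` as an `R`-linear map. -/
noncomputable def evLin : (ι → R[X]) →ₗ[R] L where
  toFun := ev x f
  map_add' := ev_add x f
  map_smul' c u := by
    simp only [ev, Pi.smul_apply, map_smul, smul_mul_assoc, Finset.smul_sum, RingHom.id_apply]

@[simp] theorem evLin_apply (u : ι → R[X]) : evLin x f u = ev x f u := rfl

/-- The hypotheses making `B = range (ev x f)` a subalgebra with unique coordinates. -/
structure IsFrame (x : L) (f : ι → L) (i₀ : ι) (P : ι → ι → ι → R[X]) : Prop where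
  one : f i₀ = 1
  mul : ∀ i j, f i * f j = ∑ l, aeval x (P i j l) * f l
  indep : ∀ u : ι → R[X], ev x f u = 0 → u = 0

variable {x f} {i₀ : ι} {P : ι → ι → ι → R[X]} (H : IsFrame x f i₀ P)

/-- The ring `B = ⊕ R[x] f_i`. -/
noncomputable def ringB (H : IsFrame x f i₀ P) : Subalgebra R L where
  carrier := Set.range (ev x f : (ι → R[X]) → L)
  mul_mem' := by
    rintro _ _ ⟨u, rfl⟩ ⟨w, rfl⟩
    exact ⟨star P u w, (ev_mul_ev x f H.mul u w).symm⟩
  add_mem' := by
    rintro _ _ ⟨u, rfl⟩ ⟨w, rfl⟩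
    exact ⟨u + w, ev_add x f u w⟩
  algebraMap_mem' r := by
    refine ⟨Pi.single i₀ (C r), ?_⟩
    rw [ev_single, aeval_C, H.one, mul_one]

theorem mem_ringB {y : L} : y ∈ ringB H ↔ ∃ u : ι → R[X], y = ev x f u :=
  ⟨fun ⟨u, hu⟩ => ⟨u, hu.symm⟩, fun ⟨u, hu⟩ => ⟨u, hu.symm⟩⟩

theorem ev_mem_ringB (u : ι → R[X]) : ev x f u ∈ ringB H := ⟨u, rfl⟩

theorem lam_le_ringB (W : Weights ι) {N : ℕ} {y : L} (hy : y ∈ lam R W x f N) : y ∈ ringB H := by
  obtain ⟨u, _, rfl⟩ := (mem_lam_iff W x f).mp hy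
  exact ev_mem_ringB H u

include H in
theorem ev_injective : Function.Injective (ev x f : (ι → R[X]) → L) := by
  intro u w h
  have := H.indep (u - w) (by rw [ev_sub, h, sub_self])
  exact sub_eq_zero.mp this

/-- The coordinate isomorphism `(ι → R[X]) ≃ B`. -/
noncomputable def evEquiv : (ι → R[X]) ≃ₗ[R] ringB H :=
  LinearEquiv.ofBijective ((evLin x f).codRestrict (Subalgebra.toSubmodule (ringB H))
    (fun u => ev_mem_ringB H u))
    ⟨fun _ _ h => ev_injective H (congrArg Subtype.val h),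
     fun ⟨_, u, hu⟩ => ⟨u, Subtype.ext hu⟩⟩

theorem coe_evEquiv (u : ι → R[X]) : ((evEquiv H u : ringB H) : L) = ev x f u := rfl

theorem evEquiv_symm_ev (u : ι → R[X]) :
    (evEquiv H).symm ⟨ev x f u, ev_mem_ringB H u⟩ = u := by
  apply (evEquiv H).injective
  rw [LinearEquiv.apply_symm_apply]
  exact Subtype.ext (coe_evEquiv H u).symm

/-- The coordinate functional of the monomial `s = (i, a)`. -/
noncomputable def coordFun (s : ι × ℕ) : ringB H →ₗ[R] R :=
  (lcoeff R s.2).comp ((LinearMap.proj s.1).comp (evEquiv H).symm.toLinearMap)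

theorem coordFun_ev (s : ι × ℕ) (u : ι → R[X]) :
    coordFun H s ⟨ev x f u, ev_mem_ringB H u⟩ = (u s.1).coeff s.2 := by
  unfold coordFun
  simp only [LinearMap.comp_apply, LinearEquiv.coe_coe, evEquiv_symm_ev, LinearMap.proj_apply,
    lcoeff_apply]

/-- The coordinate functionals separate the points of `B`. -/
theorem eq_zero_of_coordFun {y : ringB H} (h : ∀ s, coordFun H s y = 0) : y = 0 := by
  obtain ⟨y, u, rfl⟩ := y
  have hu : u = 0 := by
    funext i
    ext n
    have := h (i, n)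
    rw [coordFun_ev] at this
    simpa using this
  apply Subtype.ext
  show ev x f u = 0
  rw [hu, ev_zero]

/-- On `Λ_N` the coordinate functionals of `idx W N` suffice. -/
theorem eq_zero_of_coordFun_idx (W : Weights ι) {N : ℕ} {y : ringB H}
    (hy : (y : L) ∈ lam R W x f N) (h : ∀ s ∈ idx W N, coordFun H s y = 0) : y = 0 := by
  obtain ⟨u, hu, hyu⟩ := (mem_lam_iff W x f).mp hy
  have hy' : y = ⟨ev x f u, ev_mem_ringB H u⟩ := Subtype.ext hyu
  apply eq_zero_of_coordFun H
  intro s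
  by_cases hs : s ∈ idx W N
  · exact h s hs
  · rw [hy', coordFun_ev]
    by_contra hne
    exact hs ((wdeg_le_iff_coeff W).mp hu s.1 s.2 hne)

/-- The coordinate functionals restrict to the `frameBasis` coordinates on `Λ_N`. -/
theorem coordFun_eq_repr (W : Weights ι) {N : ℕ} {y : ringB H}
    (hy : (y : L) ∈ lam R W x f N) (s : idx W N) :
    coordFun H s.1 y = (frameBasis W H.indep N).repr ⟨(y : L), hy⟩ s := by
  obtain ⟨u, hu, hyu⟩ := (mem_lam_iff W x f).mp hy
  have hy' : y = ⟨ev x f u, ev_mem_ringB H u⟩ := Subtype.ext hyu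
  have h2 : (⟨(y : L), hy⟩ : lam R W x f N) = ⟨ev x f u, ev_mem_lam W x f hu⟩ :=
    Subtype.ext hyu
  rw [h2, frameBasis_repr_ev W H.indep hu s, hy', coordFun_ev]

/-- Coordinates outside `idx W N` vanish on `Λ_N`. -/
theorem coordFun_eq_zero_of_notMem (W : Weights ι) {N : ℕ} {y : ringB H}
    (hy : (y : L) ∈ lam R W x f N) {s : ι × ℕ} (hs : s ∉ idx W N) : coordFun H s y = 0 := by
  obtain ⟨u, hu, hyu⟩ := (mem_lam_iff W x f).mp hy
  have hy' : y = ⟨ev x f u, ev_mem_ringB H u⟩ := Subtype.ext hyu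
  rw [hy', coordFun_ev]
  by_contra hne
  exact hs ((wdeg_le_iff_coeff W).mp hu s.1 s.2 hne)

end generic

/-! ### The integral model and its reduction -/

section apery

variable {K : Type*} [Field K] {A : ValuationSubring K} {F : Type*} [Field F] [Algebra K F]
  (D : AperyData A F ι)

theorem isFrameA : IsFrame D.x D.f D.i₀ D.P where
  one := D.model.f_one
  mul := D.mul
  indep := indepA D

/-- `B_A = ⊕ A[x] f_i` as an `A`-subalgebra of `F`. -/
noncomputable abbrev BA : Subalgebra A F := ringB (isFrameA D)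

theorem BA_le_O {y : F} (hy : y ∈ BA D) : y ∈ D.O := by
  obtain ⟨u, rfl⟩ := (mem_ringB (isFrameA D)).mp hy
  exact D.evA_mem u

variable {k : Type*} [Field k] [Algebra k D.κ] {π : A →+* k} (hc : D.Compat π)
  (hπ : Function.Surjective π)

include hc hπ in
theorem isFramek : IsFrame D.xb D.fb D.i₀ (fun i j l => (D.P i j l).map π) where
  one := D.fb_one hc
  mul := D.mulb hc
  indep := D.indepb hc hπ

/-- `B̄₀ = ⊕ k[x̄] f̄_i` as a `k`-subalgebra of `κ`. -/
noncomputable abbrev Bk : Subalgebra k D.κ := ringB (isFramek D hc hπ)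

/-- The reduction `B_A → B̄₀`. -/
noncomputable def redB : BA D →+* Bk D hc hπ where
  toFun b := ⟨D.res ⟨(b : F), BA_le_O D b.2⟩, by
    obtain ⟨b, u, rfl⟩ := b
    exact ⟨fun i => (u i).map π, (D.res_ev hc u).symm⟩⟩
  map_one' := by
    apply Subtype.ext
    show D.res ⟨((1 : BA D) : F), _⟩ = 1
    have : (⟨((1 : BA D) : F), BA_le_O D (1 : BA D).2⟩ : D.O) = 1 := Subtype.ext rfl
    rw [this, map_one]
  map_mul' a b := by
    apply Subtype.ext
    show D.res ⟨((a * b : BA D) : F), _⟩ = D.res ⟨(a : F), _⟩ * D.res ⟨(b : F), _⟩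
    rw [← map_mul]
    rfl
  map_zero' := by
    apply Subtype.ext
    show D.res ⟨((0 : BA D) : F), _⟩ = 0
    have : (⟨((0 : BA D) : F), BA_le_O D (0 : BA D).2⟩ : D.O) = 0 := Subtype.ext rfl
    rw [this, map_zero]
  map_add' a b := by
    apply Subtype.ext
    show D.res ⟨((a + b : BA D) : F), _⟩ = D.res ⟨(a : F), _⟩ + D.res ⟨(b : F), _⟩
    rw [← map_add]
    rfl

theorem coe_redB (b : BA D) : ((redB D hc hπ b : Bk D hc hπ) : D.κ) = D.res ⟨(b : F), BA_le_O D b.2⟩ :=
  rfl

theorem redB_ev (u : ι → A[X]) :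
    redB D hc hπ ⟨ev D.x D.f u, ev_mem_ringB (isFrameA D) u⟩ =
      ⟨ev D.xb D.fb (fun i => (u i).map π), ev_mem_ringB (isFramek D hc hπ) _⟩ := by
  apply Subtype.ext
  rw [coe_redB]
  exact D.res_ev hc u

theorem redB_surjective : Function.Surjective (redB D hc hπ) := by
  rintro ⟨_, ub, rfl⟩
  obtain ⟨u, hmap, -⟩ := D.exists_lift hπ ub
  refine ⟨⟨ev D.x D.f u, ev_mem_ringB (isFrameA D) u⟩, ?_⟩
  rw [redB_ev]
  apply Subtype.ext
  show ev D.xb D.fb (fun i => (u i).map π) = ev D.xb D.fb ub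
  rw [hmap]

theorem redB_algebraMap (a : A) :
    redB D hc hπ (algebraMap A (BA D) a) = algebraMap k (Bk D hc hπ) (π a) := by
  apply Subtype.ext
  rw [coe_redB]
  show D.res ⟨algebraMap K F a, _⟩ = algebraMap k D.κ (π a)
  rw [hc a]
  rfl

/-- **Coordinates reduce.** -/
theorem coordFun_redB (s : ι × ℕ) (b : BA D) :
    coordFun (isFramek D hc hπ) s (redB D hc hπ b) = π (coordFun (isFrameA D) s b) := by
  obtain ⟨_, u, rfl⟩ := b
  have h1 : (⟨ev D.x D.f u, ⟨u, rfl⟩⟩ : BA D) = ⟨ev D.x D.f u, ev_mem_ringB (isFrameA D) u⟩ := rfl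
  rw [h1, redB_ev, coordFun_ev, coordFun_ev, coeff_map]

end apery

end Fermat.Agent.S27x.Lift.Frame
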