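import Fermat.Agent.S27x.Lift.FactorSystem
import Fermat.Agent.S27x.Lift.FrameAlg

/-!
# P-S27 block D7 (FACT route), slice (S1): the frame-level Hensel statement (helper27)

`FactorSystem` (abstract Hensel lifting of `u * u' = (R_fix(z) * R_var(z)) ^ n`) instantiated with
helper2's frame `B_A = ⊕ A[x] f_i ⊇ Λ_N` (`Lift/Frame`, `Lift/FrameAlg`), index-free:

`exists_lift_frame` : for `D : AperyData A F ι` with reduction `(k, κ, π)`, `A` henselian,
`z ∈ Λ_e`, `Rfix : A[X]`, residue data `ub ∈ Λ̄_{N1}`, `ub' ∈ Λ̄_{N2}`, `Rvarb : k[X]` monic of degree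
`g` with `ub * ub' = (R̄fix(z̄) * Rvarb(z̄)) ^ n`, the square-ness
`#idx (N1+N2) + 1 = #idx N1 + #idx N2 + g`, the degree bound `n * (e * (deg Rfix + g)) ≤ N1 + N2`
and the kernel condition in the shape of `JacInj.ResSol.jac_kernel`, there are `u ∈ Λ_{N1}`,
`u' ∈ Λ_{N2}` and `Rvar : A[X]` monic of degree `g` lifting `ub`, `ub'`, `Rvarb` with
`u * u' = (Rfix(z) * Rvar(z)) ^ n` in `F`.

Auxiliary: `one_mem_lam`, `pow_mem_lam`, `aeval_mem_lam` (generic frames), `monoB`, `ofCoordB`
(elements of `ringB` from coordinates) with `coordFun_ofCoordB`, `ofCoordB_coordFun`,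
`ofCoordB_eq_zero_iff`; `redB_monoB`, `redB_ofCoordB`, `redB_aeval`.
-/

set_option autoImplicit false
set_option linter.unusedSectionVars false

noncomputable section

namespace Fermat.Agent.S27x.Lift.FrameSolve

open Polynomial Fermat.Agent.S27x.Spec.GaussNorm Fermat.Agent.S27x.Lift.Frame
open Fermat.Agent.S27x.Lift.FactorSystem

variable {ι : Type*} [Fintype ι] [DecidableEq ι]

/-! ### Generic frame lemmas -/

section generic

variable {R L : Type*} [CommRing R] [CommRing L] [Algebra R L] {W : Weights ι} {x : L}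
  {f : ι → L} {i₀ : ι} {P : ι → ι → ι → R[X]}

theorem one_mem_lam (hm : W.m i₀ = 0) (h1 : f i₀ = 1) : (1 : L) ∈ lam R W x f 0 := by
  have : mono x f (i₀, 0) = 1 := by simp [mono, h1]
  rw [← this]
  exact mono_mem_lam W x f (mem_idx.mpr (by simp [hm]))

theorem pow_mem_lam (hm : W.m i₀ = 0) (h1 : f i₀ = 1) (hP : IsStructConst W P)
    (hmul : ∀ i j, f i * f j = ∑ l, aeval x (P i j l) * f l) {z : L} {e : ℕ}
    (hz : z ∈ lam R W x f e) (j : ℕ) : z ^ j ∈ lam R W x f (e * j) := by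
  induction j with
  | zero => simpa using one_mem_lam hm h1
  | succ j ih =>
    rw [pow_succ, Nat.mul_succ]
    exact mul_mem_lam W x f hP hmul ih hz

theorem aeval_mem_lam (hm : W.m i₀ = 0) (h1 : f i₀ = 1) (hP : IsStructConst W P)
    (hmul : ∀ i j, f i * f j = ∑ l, aeval x (P i j l) * f l) {z : L} {e : ℕ}
    (hz : z ∈ lam R W x f e) (p : R[X]) {N : ℕ} (hN : e * p.natDegree ≤ N) :
    aeval z p ∈ lam R W x f N := by
  rw [aeval_eq_sum_range]
  refine Submodule.sum_mem _ fun j hj => Submodule.smul_mem _ _ ?_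
  refine lam_mono W x f ?_ (pow_mem_lam hm h1 hP hmul hz j)
  refine le_trans (Nat.mul_le_mul_left e ?_) hN
  exact Nat.lt_succ_iff.mp (Finset.mem_range.mp hj)

variable (H : IsFrame x f i₀ P)

/-- The monomial `x ^ a * f i` as an element of the ring `B`. -/
def monoB (s : ι × ℕ) : ringB H :=
  ⟨mono x f s, ⟨Pi.single s.1 (X ^ s.2), by rw [ev_single, map_pow, aeval_X]; rfl⟩⟩

@[simp] theorem coe_monoB (s : ι × ℕ) : ((monoB H s : ringB H) : L) = mono x f s := rfl

/-- The element of `B` with prescribed coordinates on the monomials of `idx W N`. -/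
def ofCoordB (W : Weights ι) {N : ℕ} (c : idx W N → R) : ringB H :=
  ∑ s : idx W N, algebraMap R (ringB H) (c s) * monoB H s.1

theorem coe_ofCoordB (W : Weights ι) {N : ℕ} (c : idx W N → R) :
    ((ofCoordB H W c : ringB H) : L) = ev x f (ofCoord W c) := by
  rw [ev_ofCoord, ofCoordB]
  have : ∀ y : ringB H, (y : L) = (ringB H).val y := fun _ => rfl
  rw [this, map_sum]
  refine Finset.sum_congr rfl fun s _ => ?_
  rw [map_mul, AlgHom.commutes, Algebra.smul_def]
  rfl

theorem ofCoordB_eq (W : Weights ι) {N : ℕ} (c : idx W N → R) :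
    ofCoordB H W c = ⟨ev x f (ofCoord W c), ev_mem_ringB H _⟩ :=
  Subtype.ext (coe_ofCoordB H W c)

theorem coe_ofCoordB_mem (W : Weights ι) {N : ℕ} (c : idx W N → R) :
    ((ofCoordB H W c : ringB H) : L) ∈ lam R W x f N := by
  rw [coe_ofCoordB]
  exact ev_mem_lam W x f (wdeg_ofCoord_le W c)

theorem coordFun_ofCoordB (W : Weights ι) {N : ℕ} (c : idx W N → R) (s : idx W N) :
    coordFun H s.1 (ofCoordB H W c) = c s := by
  rw [ofCoordB_eq, coordFun_ev, coeff_ofCoord, dif_pos s.2]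

/-- An element of `Λ_N` is recovered from its coordinates. -/
theorem ofCoordB_coordFun (W : Weights ι) {N : ℕ} {y : ringB H} (hy : (y : L) ∈ lam R W x f N) :
    ofCoordB H W (fun s : idx W N => coordFun H s.1 y) = y := by
  obtain ⟨u, hu, hyu⟩ := (mem_lam_iff W x f).mp hy
  have hy' : y = ⟨ev x f u, ev_mem_ringB H u⟩ := Subtype.ext hyu
  rw [ofCoordB_eq]
  apply Subtype.ext
  show ev x f (ofCoord W fun s : idx W N => coordFun H s.1 y) = (y : L)
  have : (fun s : idx W N => coordFun H s.1 y) = coordOf W u := by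
    funext s
    rw [hy', coordFun_ev]
    rfl
  rw [this, ofCoord_coordOf W hu, hyu]

theorem ofCoordB_eq_zero_iff (W : Weights ι) {N : ℕ} (c : idx W N → R) :
    ofCoordB H W c = 0 ↔ c = 0 := by
  constructor
  · intro h
    funext s
    rw [← coordFun_ofCoordB H W c s, h, map_zero]
    rfl
  · rintro rfl
    simp [ofCoordB]

end generic

/-! ### Base change of the ring-level data -/

section CoreMap

variable {B B' : Type*} [CommRing B] [CommRing B'] {I1 I2 : Type*} [Fintype I1] [Fintype I2]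
  {g : ℕ} (K : Core B I1 I2) (φ : B →+* B')

theorem map_uOf (y : Idx I1 I2 g → B) : φ (K.uOf y) = (K.map φ).uOf fun i => φ (y i) := by
  simp only [Core.uOf, Core.map, map_sum, map_mul]

theorem map_vOf (y : Idx I1 I2 g → B) : φ (K.vOf y) = (K.map φ).vOf fun i => φ (y i) := by
  simp only [Core.vOf, Core.map, map_sum, map_mul]

end CoreMap

/-! ### The frame-level Hensel statement -/

section apery

variable {K : Type*} [Field K] {A : ValuationSubring K} {F : Type*} [Field F] [Algebra K F]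
  (D : AperyData A F ι) {k : Type*} [Field k] [Algebra k D.κ] {π : A →+* k} (hc : D.Compat π)
  (hπ : Function.Surjective π)

theorem redB_monoB (s : ι × ℕ) :
    redB D hc hπ (monoB (isFrameA D) s) = monoB (isFramek D hc hπ) s := by
  apply Subtype.ext
  rw [coe_redB]
  exact res_mono D s

theorem redB_ofCoordB {N : ℕ} (c : idx D.W N → A) :
    redB D hc hπ (ofCoordB (isFrameA D) D.W c)
      = ofCoordB (isFramek D hc hπ) D.W fun s => π (c s) := by
  simp only [ofCoordB, map_sum, map_mul, redB_algebraMap, redB_monoB]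

theorem redB_aeval (b : BA D) (p : A[X]) :
    redB D hc hπ (aeval b p) = aeval (redB D hc hπ b) (p.map π) := by
  rw [aeval_def, aeval_def, hom_eval₂, eval₂_map]
  congr 1
  exact RingHom.ext fun a => redB_algebraMap D hc hπ a

/-- membership of `aeval z p` in `Λ_N` on the `A`-side -/
theorem aeval_mem_lamA {z : F} {e : ℕ} (hz : z ∈ lam A D.W D.x D.f e) (p : A[X]) {N : ℕ}
    (hN : e * p.natDegree ≤ N) : aeval z p ∈ lam A D.W D.x D.f N :=
  aeval_mem_lam D.model.m_zero D.model.f_one D.sc D.mul hz p hN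

include hc hπ in
/-- membership of `aeval z̄ p` in `Λ̄_N` -/
theorem aeval_mem_lamk {zb : D.κ} {e : ℕ} (hz : zb ∈ lam k D.W D.xb D.fb e) (p : k[X]) {N : ℕ}
    (hN : e * p.natDegree ≤ N) : aeval zb p ∈ lam k D.W D.xb D.fb N :=
  aeval_mem_lam (D.modelb hc hπ).m_zero (D.modelb hc hπ).f_one (D.modelb hc hπ).sc
    (D.modelb hc hπ).mul hz p hN

include hc hπ in
theorem mul_mem_lamk {N₁ N₂ : ℕ} {y y' : D.κ} (hy : y ∈ lam k D.W D.xb D.fb N₁)
    (hy' : y' ∈ lam k D.W D.xb D.fb N₂) : y * y' ∈ lam k D.W D.xb D.fb (N₁ + N₂) :=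
  mul_mem_lam D.W D.xb D.fb (D.modelb hc hπ).sc (D.modelb hc hπ).mul hy hy'

end apery

section main

variable {K : Type*} [Field K] {A : ValuationSubring K} {F : Type*} [Field F] [Algebra K F]
  (D : AperyData A F ι) {k : Type*} [Field k] [Algebra k D.κ] {π : A →+* k} (hc : D.Compat π)
  (hπ : Function.Surjective π)

/-- The factorisation system attached to the frame. -/
def sysData (N1 N2 n : ℕ) (zB : BA D) (Rfix : A[X]) (t0 : idx D.W N1) (α0 : A) :
    Data A (BA D) (idx D.W N1) (idx D.W N2) (idx D.W (N1 + N2)) where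
  b1 s := monoB (isFrameA D) s.1
  b2 t := monoB (isFrameA D) t.1
  z := zB
  rfix := aeval zB Rfix
  n := n
  φ w := coordFun (isFrameA D) w.1
  t0 := t0
  α0 := α0

variable {N1 N2 n g : ℕ} (zB : BA D) (Rfix : A[X]) (t0 : idx D.W N1) (α0 : A)

theorem sys_uOf (x : Idx (idx D.W N1) (idx D.W N2) g → A) :
    (sysData D N1 N2 n zB Rfix t0 α0).toCore.uOf (Data.pt x)
      = ofCoordB (isFrameA D) D.W fun s => x (uIdx s) := rfl

theorem sys_vOf (x : Idx (idx D.W N1) (idx D.W N2) g → A) :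
    (sysData D N1 N2 n zB Rfix t0 α0).toCore.vOf (Data.pt x)
      = ofCoordB (isFrameA D) D.W fun t => x (vIdx t) := rfl

theorem sys_rvar (x : Idx (idx D.W N1) (idx D.W N2) g → A) :
    (sysData D N1 N2 n zB Rfix t0 α0).toCore.rvar (Data.pt x)
      = aeval zB (rvarPoly fun l => x (rIdx l)) := by
  rw [Core.rvar_eq_eval]
  show Polynomial.eval zB (rvarPoly fun l => algebraMap A (BA D) (x (rIdx l))) = _
  rw [← rvarPoly_map (algebraMap A (BA D)), eval_map_algebraMap]

theorem sysbar_uOf (c : Idx (idx D.W N1) (idx D.W N2) g → k) :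
    ((sysData D N1 N2 n zB Rfix t0 α0).toCore.map (redB D hc hπ)).uOf (ptbar c)
      = ofCoordB (isFramek D hc hπ) D.W fun s => c (uIdx s) := by
  show ∑ s : idx D.W N1, algebraMap k (Bk D hc hπ) (c (uIdx s)) *
      redB D hc hπ (monoB (isFrameA D) s.1) = _
  simp only [redB_monoB]
  rfl

theorem sysbar_vOf (c : Idx (idx D.W N1) (idx D.W N2) g → k) :
    ((sysData D N1 N2 n zB Rfix t0 α0).toCore.map (redB D hc hπ)).vOf (ptbar c)
      = ofCoordB (isFramek D hc hπ) D.W fun t => c (vIdx t) := by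
  show ∑ t : idx D.W N2, algebraMap k (Bk D hc hπ) (c (vIdx t)) *
      redB D hc hπ (monoB (isFrameA D) t.1) = _
  simp only [redB_monoB]
  rfl

theorem sysbar_rvar (c : Idx (idx D.W N1) (idx D.W N2) g → k) :
    ((sysData D N1 N2 n zB Rfix t0 α0).toCore.map (redB D hc hπ)).rvar (ptbar c)
      = aeval (redB D hc hπ zB) (rvarPoly fun l => c (rIdx l)) := by
  rw [Core.rvar_eq_eval]
  show Polynomial.eval (redB D hc hπ zB)
    (rvarPoly fun l => algebraMap k (Bk D hc hπ) (c (rIdx l))) = _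
  rw [← rvarPoly_map (algebraMap k (Bk D hc hπ)), eval_map_algebraMap]

theorem sysbar_rdot (c : Idx (idx D.W N1) (idx D.W N2) g → k) :
    ((sysData D N1 N2 n zB Rfix t0 α0).toCore.map (redB D hc hπ)).rdot (ptbar c)
      = aeval (redB D hc hπ zB) (∑ l : Fin g, C (c (rIdx l)) * X ^ (l : ℕ)) := by
  rw [Core.rdot_eq_eval]
  show Polynomial.eval (redB D hc hπ zB)
    (∑ l : Fin g, C (algebraMap k (Bk D hc hπ) (c (rIdx l))) * X ^ (l : ℕ)) = _
  rw [← eval_map_algebraMap, Polynomial.map_sum]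
  simp only [Polynomial.map_mul, Polynomial.map_C, Polynomial.map_pow, Polynomial.map_X]

theorem sysbar_rfix :
    ((sysData D N1 N2 n zB Rfix t0 α0).toCore.map (redB D hc hπ)).rfix
      = aeval (redB D hc hπ zB) (Rfix.map π) :=
  redB_aeval D hc hπ zB Rfix

end main

section final

variable {K : Type*} [Field K] {A : ValuationSubring K} {F : Type*} [Field F] [Algebra K F]
  (D : AperyData A F ι) {k : Type*} [Field k] [Algebra k D.κ] {π : A →+* k} (hc : D.Compat π)
  (hπ : Function.Surjective π)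

include hc hπ in
/-- **Frame-level Hensel lifting of the factorisation system** (normalised kernel condition:
the only kernel vector `(v, v', dR)` with `v` "transversal to `ub`" is zero). -/
theorem exists_lift_frame_of_normalised [HenselianLocalRing A] {N1 N2 g n e : ℕ}
    (hcard : (idx D.W (N1 + N2)).card + 1 = (idx D.W N1).card + (idx D.W N2).card + g)
    {z : F} (hz : z ∈ lam A D.W D.x D.f e) (Rfix : A[X])
    (hdeg : n * (e * (Rfix.natDegree + g)) ≤ N1 + N2)
    {zb ub ub' : D.κ} (hzb : D.res ⟨z, lam_le_O D hz⟩ = zb)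
    (hub : ub ∈ lam k D.W D.xb D.fb N1) (hub' : ub' ∈ lam k D.W D.xb D.fb N2) (hub0 : ub ≠ 0)
    (Rvarb : k[X]) (hRm : Rvarb.Monic) (hRd : Rvarb.natDegree = g)
    (hsol : ub * ub' = (aeval zb (Rfix.map π) * aeval zb Rvarb) ^ n)
    (hker : ∀ (v v' : D.κ) (dR : k[X]), v ∈ lam k D.W D.xb D.fb N1 →
      v' ∈ lam k D.W D.xb D.fb N2 → dR.degree < (g : WithBot ℕ) →
      (∀ c : k, v = c • ub → c = 0) →
      v * ub' + ub * v' = (n : D.κ) * (aeval zb (Rfix.map π) * aeval zb Rvarb) ^ (n - 1) *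
        (aeval zb (Rfix.map π) * aeval zb dR) →
      v = 0 ∧ v' = 0 ∧ dR = 0) :
    ∃ (u u' : F) (hu : u ∈ lam A D.W D.x D.f N1) (hu' : u' ∈ lam A D.W D.x D.f N2)
      (Rvar : A[X]), Rvar.Monic ∧ Rvar.natDegree = g ∧ Rvar.map π = Rvarb ∧
      D.res ⟨u, lam_le_O D hu⟩ = ub ∧ D.res ⟨u', lam_le_O D hu'⟩ = ub' ∧
      u * u' = (aeval z Rfix * aeval z Rvar) ^ n := by
  classical
  -- elements of the rings `B_A`, `B̄`
  set zB : BA D := ⟨z, lam_le_ringB (isFrameA D) D.W hz⟩ with hzB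
  set ubB : Bk D hc hπ := ⟨ub, lam_le_ringB (isFramek D hc hπ) D.W hub⟩ with hubB
  set ub'B : Bk D hc hπ := ⟨ub', lam_le_ringB (isFramek D hc hπ) D.W hub'⟩ with hub'B
  have hzbB : ((redB D hc hπ zB : Bk D hc hπ) : D.κ) = zb := by
    rw [coe_redB]; exact hzb
  have hzbmem : zb ∈ lam k D.W D.xb D.fb e := by
    rw [← hzb]; exact res_mem_lam D hc hz
  -- the normalisation
  obtain ⟨t0, ht0⟩ : ∃ t0 : idx D.W N1, coordFun (isFramek D hc hπ) t0.1 ubB ≠ 0 := by
    by_contra hcon
    push Not at hcon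
    apply hub0
    have := eq_zero_of_coordFun_idx (isFramek D hc hπ) D.W (y := ubB) hub
      (fun s hs => hcon ⟨s, hs⟩)
    exact congrArg Subtype.val this
  obtain ⟨α0, hα0⟩ := hπ (coordFun (isFramek D hc hπ) t0.1 ubB)
  set Dat := sysData D N1 N2 n zB Rfix t0 α0 with hDat
  -- the residue solution
  let xbar : Idx (idx D.W N1) (idx D.W N2) g → k :=
    Sum.elim (fun s => coordFun (isFramek D hc hπ) s.1 ubB)
      (Sum.elim (fun t => coordFun (isFramek D hc hπ) t.1 ub'B) (fun l => Rvarb.coeff l))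
  have hxu : (ofCoordB (isFramek D hc hπ) D.W fun s : idx D.W N1 => xbar (uIdx s)) = ubB :=
    ofCoordB_coordFun (isFramek D hc hπ) D.W (y := ubB) hub
  have hxv : (ofCoordB (isFramek D hc hπ) D.W fun t : idx D.W N2 => xbar (vIdx t)) = ub'B :=
    ofCoordB_coordFun (isFramek D hc hπ) D.W (y := ub'B) hub'
  have hxr : (rvarPoly fun l : Fin g => xbar (rIdx l)) = Rvarb := rvarPoly_coeff_eq hRm hRd
  have hcard' : Fintype.card (idx D.W (N1 + N2)) + 1
      = Fintype.card (idx D.W N1) + Fintype.card (idx D.W N2) + g := by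
    simpa only [Fintype.card_coe] using hcard
  -- coercions of `aeval`
  have hcoe_aeval : ∀ p : k[X], ((aeval (redB D hc hπ zB) p : Bk D hc hπ) : D.κ) = aeval zb p := by
    intro p
    rw [← Subalgebra.aeval_coe, hzbB]
  have hcoe_aevalA : ∀ p : A[X], ((aeval zB p : BA D) : F) = aeval z p := by
    intro p
    rw [← Subalgebra.aeval_coe]
  -- separation on the `A`-side
  have hmemA : ∀ x : Idx (idx D.W N1) (idx D.W N2) g → A,
      ((Dat.toCore.value (Data.pt x) : BA D) : F) ∈ lam A D.W D.x D.f (N1 + N2) := by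
    intro x
    rw [Core.value, sys_uOf, sys_vOf, sys_rvar]
    show ((ofCoordB (isFrameA D) D.W fun s => x (uIdx s) : BA D) : F) *
        ((ofCoordB (isFrameA D) D.W fun t => x (vIdx t) : BA D) : F)
        - (((aeval zB Rfix : BA D) : F) *
          ((aeval zB (rvarPoly fun l => x (rIdx l)) : BA D) : F)) ^ n ∈ _
    rw [hcoe_aevalA, hcoe_aevalA]
    refine Submodule.sub_mem _ (mul_mem_lamA D (coe_ofCoordB_mem _ _ _) (coe_ofCoordB_mem _ _ _)) ?_
    have h1 : aeval z Rfix * aeval z (rvarPoly fun l => x (rIdx l)) ∈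
        lam A D.W D.x D.f (e * Rfix.natDegree + e * g) :=
      mul_mem_lamA D (aeval_mem_lamA D hz Rfix le_rfl)
        (aeval_mem_lamA D hz _ (by rw [natDegree_rvarPoly]))
    refine lam_mono D.W D.x D.f ?_
      (pow_mem_lam D.model.m_zero D.model.f_one D.sc D.mul h1 n)
    calc (e * Rfix.natDegree + e * g) * n = n * (e * (Rfix.natDegree + g)) := by ring
      _ ≤ N1 + N2 := hdeg
  have hsep : ∀ x : Idx (idx D.W N1) (idx D.W N2) g → A,
      (∀ w, Dat.φ w (Dat.toCore.value (Data.pt x)) = 0) →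
      Dat.toCore.value (Data.pt x) = 0 := fun x h =>
    eq_zero_of_coordFun_idx (isFrameA D) D.W (hmemA x) fun s hs => h ⟨s, hs⟩
  -- the residue solution solves the reduced system
  have hsol' : (Dat.toCore.map (redB D hc hπ)).value (ptbar xbar) = 0 := by
    rw [Core.value, sysbar_uOf, sysbar_vOf, sysbar_rvar, sysbar_rfix, hxu, hxv, hxr, sub_eq_zero]
    apply Subtype.ext
    show ub * ub' = (((aeval (redB D hc hπ zB) (Rfix.map π) : Bk D hc hπ) : D.κ) *
      ((aeval (redB D hc hπ zB) Rvarb : Bk D hc hπ) : D.κ)) ^ n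
    rw [hcoe_aeval, hcoe_aeval, hsol]
  have hnorm : xbar (uIdx Dat.t0) = π Dat.α0 := hα0.symm
  -- the kernel condition
  have hker' : ∀ v : Idx (idx D.W N1) (idx D.W N2) g → k,
      (∀ w : idx D.W (N1 + N2), coordFun (isFramek D hc hπ) w.1
        ((Dat.toCore.map (redB D hc hπ)).dval (ptbar xbar) (ptbar v)) = 0) →
      v (uIdx Dat.t0) = 0 → v = 0 := by
    intro v hv hvt
    set VB := ofCoordB (isFramek D hc hπ) D.W fun s : idx D.W N1 => v (uIdx s) with hVB
    set V'B := ofCoordB (isFramek D hc hπ) D.W fun t : idx D.W N2 => v (vIdx t) with hV'B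
    set dR : k[X] := ∑ l : Fin g, C (v (rIdx l)) * X ^ (l : ℕ) with hdR
    have hdv : (Dat.toCore.map (redB D hc hπ)).dval (ptbar xbar) (ptbar v)
        = VB * ub'B + ubB * V'B - (n : Bk D hc hπ) *
          (aeval (redB D hc hπ zB) (Rfix.map π) * aeval (redB D hc hπ zB) Rvarb) ^ (n - 1) *
          (aeval (redB D hc hπ zB) (Rfix.map π) * aeval (redB D hc hπ zB) dR) := by
      rw [Core.dval, sysbar_uOf, sysbar_vOf, sysbar_uOf, sysbar_vOf, sysbar_rvar, sysbar_rfix,
        sysbar_rdot, hxu, hxv, hxr]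
      rfl
    have hVmem : ((VB : Bk D hc hπ) : D.κ) ∈ lam k D.W D.xb D.fb N1 := coe_ofCoordB_mem _ _ _
    have hV'mem : ((V'B : Bk D hc hπ) : D.κ) ∈ lam k D.W D.xb D.fb N2 := coe_ofCoordB_mem _ _ _
    have hdRdeg : dR.degree < (g : WithBot ℕ) := degree_sum_fin_lt _
    have hdRnat : dR.natDegree ≤ g := by
      by_cases h0 : dR = 0
      · rw [h0]; simp
      · exact (natDegree_lt_iff_degree_lt h0).mpr hdRdeg |>.le
    -- the value of `dval` in `κ`
    have hcoe : (((Dat.toCore.map (redB D hc hπ)).dval (ptbar xbar) (ptbar v) : Bk D hc hπ) : D.κ)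
        = (VB : D.κ) * ub' + ub * (V'B : D.κ) - (n : D.κ) *
          (aeval zb (Rfix.map π) * aeval zb Rvarb) ^ (n - 1) *
          (aeval zb (Rfix.map π) * aeval zb dR) := by
      rw [hdv]
      show ((VB : Bk D hc hπ) : D.κ) * ub' + ub * ((V'B : Bk D hc hπ) : D.κ)
        - (((n : Bk D hc hπ) : Bk D hc hπ) : D.κ) *
          (((aeval (redB D hc hπ zB) (Rfix.map π) : Bk D hc hπ) : D.κ) *
            ((aeval (redB D hc hπ zB) Rvarb : Bk D hc hπ) : D.κ)) ^ (n - 1) *
          (((aeval (redB D hc hπ zB) (Rfix.map π) : Bk D hc hπ) : D.κ) *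
            ((aeval (redB D hc hπ zB) dR : Bk D hc hπ) : D.κ)) = _
      rw [hcoe_aeval, hcoe_aeval, hcoe_aeval]
      congr 3
    -- it lies in `Λ̄_{N1+N2}`
    have hmemk : (((Dat.toCore.map (redB D hc hπ)).dval (ptbar xbar) (ptbar v) : Bk D hc hπ) : D.κ)
        ∈ lam k D.W D.xb D.fb (N1 + N2) := by
      rw [hcoe]
      refine Submodule.sub_mem _ (Submodule.add_mem _ (mul_mem_lamk D hc hπ hVmem hub')
        (mul_mem_lamk D hc hπ hub hV'mem)) ?_
      rcases Nat.eq_zero_or_pos n with hn0 | hnpos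
      · subst hn0
        simp
      have hRf : (Rfix.map π).natDegree ≤ Rfix.natDegree := natDegree_map_le
      have h1 : aeval zb (Rfix.map π) * aeval zb Rvarb ∈
          lam k D.W D.xb D.fb (e * Rfix.natDegree + e * g) :=
        mul_mem_lamk D hc hπ
          (aeval_mem_lamk D hc hπ hzbmem _ (Nat.mul_le_mul_left e hRf))
          (aeval_mem_lamk D hc hπ hzbmem _ (by rw [hRd]))
      have h2 : aeval zb (Rfix.map π) * aeval zb dR ∈
          lam k D.W D.xb D.fb (e * Rfix.natDegree + e * g) :=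
        mul_mem_lamk D hc hπ
          (aeval_mem_lamk D hc hπ hzbmem _ (Nat.mul_le_mul_left e hRf))
          (aeval_mem_lamk D hc hπ hzbmem _ (Nat.mul_le_mul_left e hdRnat))
      have h3 := pow_mem_lam (D.modelb hc hπ).m_zero (D.modelb hc hπ).f_one (D.modelb hc hπ).sc
        (D.modelb hc hπ).mul h1 (n - 1)
      have h4 := mul_mem_lamk D hc hπ h3 h2
      rw [mul_assoc, ← nsmul_eq_mul]
      refine Submodule.smul_of_tower_mem _ n (lam_mono D.W D.xb D.fb ?_ h4)
      calc (e * Rfix.natDegree + e * g) * (n - 1) + (e * Rfix.natDegree + e * g)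
          = (e * Rfix.natDegree + e * g) * (n - 1 + 1) := by ring
        _ = n * (e * (Rfix.natDegree + g)) := by
            rw [Nat.sub_add_cancel hnpos]; ring
        _ ≤ N1 + N2 := hdeg
    have hzero := eq_zero_of_coordFun_idx (isFramek D hc hπ) D.W hmemk fun s hs => hv ⟨s, hs⟩
    have heq : (VB : D.κ) * ub' + ub * (V'B : D.κ) = (n : D.κ) *
          (aeval zb (Rfix.map π) * aeval zb Rvarb) ^ (n - 1) *
          (aeval zb (Rfix.map π) * aeval zb dR) := by
      have := congrArg Subtype.val hzero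
      rw [hcoe] at this
      exact sub_eq_zero.mp this
    -- `V` is transversal to `ub`
    have hnormV : ∀ c : k, ((VB : Bk D hc hπ) : D.κ) = c • ub → c = 0 := by
      intro c hcV
      have hVBc : VB = c • ubB := Subtype.ext hcV
      have h1 : coordFun (isFramek D hc hπ) t0.1 VB = v (uIdx t0) :=
        coordFun_ofCoordB (isFramek D hc hπ) D.W _ t0
      rw [hVBc, map_smul, smul_eq_mul] at h1
      have h3 : c * coordFun (isFramek D hc hπ) t0.1 ubB = 0 := by rw [h1]; exact hvt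
      exact (mul_eq_zero.mp h3).resolve_right ht0
    obtain ⟨hV0, hV'0, hdR0⟩ := hker _ _ dR hVmem hV'mem hdRdeg hnormV heq
    have hu0 : (fun s : idx D.W N1 => v (uIdx s)) = 0 :=
      (ofCoordB_eq_zero_iff (isFramek D hc hπ) D.W _).mp (Subtype.ext hV0)
    have hv0 : (fun t : idx D.W N2 => v (vIdx t)) = 0 :=
      (ofCoordB_eq_zero_iff (isFramek D hc hπ) D.W _).mp (Subtype.ext hV'0)
    have hr0 : ∀ l : Fin g, v (rIdx l) = 0 := by
      intro l
      have h1 := coeff_rvarPoly (fun l : Fin g => v (rIdx l)) l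
      have h4 : rvarPoly (fun l : Fin g => v (rIdx l)) = X ^ g + dR := rfl
      rw [h4, hdR0, add_zero, coeff_X_pow, if_neg (ne_of_lt l.2)] at h1
      exact h1.symm
    funext i
    rcases i with s | t | l
    · exact congrFun hu0 s
    · exact congrFun hv0 t
    · exact hr0 l
  -- Hensel
  obtain ⟨x, hx, hxπ⟩ := exists_isSol_lift_of_surjective_of_card π hπ Dat hcard'
    (redB D hc hπ) (fun w => coordFun (isFramek D hc hπ) w.1)
    (fun w b => coordFun_redB D hc hπ w.1 b) hsep xbar hsol' hnorm hker'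
  -- the output
  have hxu' : (fun s : idx D.W N1 => π (x (uIdx s))) = fun s => xbar (uIdx s) :=
    funext fun s => hxπ _
  have hxv' : (fun t : idx D.W N2 => π (x (vIdx t))) = fun t => xbar (vIdx t) :=
    funext fun t => hxπ _
  refine ⟨((ofCoordB (isFrameA D) D.W fun s => x (uIdx s) : BA D) : F),
    ((ofCoordB (isFrameA D) D.W fun t => x (vIdx t) : BA D) : F),
    coe_ofCoordB_mem _ _ _, coe_ofCoordB_mem _ _ _, rvarPoly fun l => x (rIdx l),
    rvarPoly_monic _, natDegree_rvarPoly _, ?_, ?_, ?_, ?_⟩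
  · rw [rvarPoly_map, ← hxr]
    congr 1
    funext l
    exact hxπ _
  · have := congrArg Subtype.val (redB_ofCoordB D hc hπ fun s : idx D.W N1 => x (uIdx s))
    rw [coe_redB, hxu', hxu] at this
    exact this
  · have := congrArg Subtype.val (redB_ofCoordB D hc hπ fun t : idx D.W N2 => x (vIdx t))
    rw [coe_redB, hxv', hxv] at this
    exact this
  · have h1 := congrArg Subtype.val hx.1
    rw [sys_uOf, sys_vOf, sys_rvar] at h1
    rw [← hcoe_aevalA, ← hcoe_aevalA]
    exact h1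

include hc hπ in
/-- **Frame-level Hensel lifting of the factorisation system**, with the kernel condition in the
shape of `JacInj.ResSol.jac_kernel`. -/
theorem exists_lift_frame [HenselianLocalRing A] {N1 N2 g n e : ℕ}
    (hcard : (idx D.W (N1 + N2)).card + 1 = (idx D.W N1).card + (idx D.W N2).card + g)
    {z : F} (hz : z ∈ lam A D.W D.x D.f e) (Rfix : A[X])
    (hdeg : n * (e * (Rfix.natDegree + g)) ≤ N1 + N2)
    {zb ub ub' : D.κ} (hzb : D.res ⟨z, lam_le_O D hz⟩ = zb)
    (hub : ub ∈ lam k D.W D.xb D.fb N1) (hub' : ub' ∈ lam k D.W D.xb D.fb N2) (hub0 : ub ≠ 0)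
    (Rvarb : k[X]) (hRm : Rvarb.Monic) (hRd : Rvarb.natDegree = g)
    (hsol : ub * ub' = (aeval zb (Rfix.map π) * aeval zb Rvarb) ^ n)
    (hker : ∀ (v v' : D.κ) (dR : k[X]), v ∈ lam k D.W D.xb D.fb N1 →
      v' ∈ lam k D.W D.xb D.fb N2 → dR.degree < (g : WithBot ℕ) →
      v * ub' + ub * v' = (n : D.κ) * (aeval zb (Rfix.map π) * aeval zb Rvarb) ^ (n - 1) *
        (aeval zb (Rfix.map π) * aeval zb dR) →
      (∃ c : k, v = c • ub) ∧ (v = 0 → dR = 0 ∧ v' = 0)) :
    ∃ (u u' : F) (hu : u ∈ lam A D.W D.x D.f N1) (hu' : u' ∈ lam A D.W D.x D.f N2)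
      (Rvar : A[X]), Rvar.Monic ∧ Rvar.natDegree = g ∧ Rvar.map π = Rvarb ∧
      D.res ⟨u, lam_le_O D hu⟩ = ub ∧ D.res ⟨u', lam_le_O D hu'⟩ = ub' ∧
      u * u' = (aeval z Rfix * aeval z Rvar) ^ n := by
  refine exists_lift_frame_of_normalised D hc hπ hcard hz Rfix hdeg hzb hub hub' hub0 Rvarb hRm hRd
    hsol ?_
  intro v v' dR hv hv' hd hnorm heq
  obtain ⟨⟨c, hcv⟩, h2⟩ := hker v v' dR hv hv' hd heq
  have hv0 : v = 0 := by rw [hcv, hnorm c hcv, zero_smul]
  obtain ⟨hdR, hv'0⟩ := h2 hv0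
  exact ⟨hv0, hv'0, hdR⟩

end final

end Fermat.Agent.S27x.Lift.FrameSolve
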