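import Fermat.Agent.S27x.Lift.Surj
import Fermat.Agent.S27x.Spec.Step
import Fermat.Agent.S27x.Spec.Disc
import Fermat.Agent.S27x.Spec.GaussNorm.ModelPole

/-!
# P-S27, block D7 → D8: from the lifting hypothesis for good models to `Spec.LiftProp`

* `SolveProp` : the statement proved by `Lift/Solve.lean`: for every good model the lifting
  hypothesis `Surj.LiftHyp` holds (places at infinity of the two fibres, Apéry coordinate `x̄`);
  the binders are those of `Spec.LiftProp`;
* `liftProp_of_solveProp : SolveProp → Spec.LiftProp`;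
* `t1Trans_of_normal_solve : Spec.NormalProp → SolveProp → Spec.T1Trans`.
-/

set_option autoImplicit false
set_option linter.unusedSectionVars false
set_option linter.style.haveILetI false

noncomputable section

open Polynomial IsLocalRing IntermediateField Module AlgebraicCurve

namespace Fermat.Agent.S27x.Lift.LiftProp

open Fermat.Agent.S27x.Spec.GaussNorm Fermat.Agent.S27x.Spec Fermat.Agent.Gateway.C0
open Fermat.Agent.S27x.Spec.Inj

universe u v

/-- **The output of `Lift/Solve.lean`**: the lifting hypothesis holds for every good model. -/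
def SolveProp : Prop :=
  ∀ (K : Type u) [Field K] [IsAlgClosed K] [CharZero K] (A : ValuationSubring K)
    (F : Type v) [Field F] [Algebra K F] (ι : Type) [Fintype ι]
    (D : AperyData A F ι) (_hcard : Fintype.card ι = D.W.d)
    (k : Type u) [Field k] [IsAlgClosed k] [CharZero k] [Algebra k D.κ]
    (π : A →+* k) (hc : D.Compat π) (hπ : Function.Surjective π)
    (hr : ∀ x ∈ maximalIdeal A, ∀ c : A, c ≠ 0 → ∃ j : ℕ, c ∣ x ^ j)
    (hne : ∃ ϖ ∈ maximalIdeal A, ϖ ≠ 0)
    (_hB : ∀ g : F, IsIntegral (Algebra.adjoin K {D.x}) g → ∃ u : ι → K[X], g = ev D.x D.f u)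
    (_hB' : ∀ g : F, IsIntegral (Algebra.adjoin K {D.x⁻¹}) g →
      ∃ (N : ℕ) (u : ι → K[X]), D.W.wdeg u ≤ N * D.W.d ∧ g = D.x⁻¹ ^ N * ev D.x D.f u)
    (_hN : NormalOut D k),
    ∀ n : ℕ, 0 < n →
      Surj.LiftHyp (Model.redSetup D hc hπ hr hne) D.model.inftyPlace
        (D.modelb hc hπ).inftyPlace D.xb n

/-- **D7 → D8.** -/
theorem liftProp_of_solveProp (h : SolveProp.{u, v}) : LiftProp.{u, v} := by
  intro K _ _ _ A F _ _ ι _ D hcard k _ _ _ _ π hc hπ hr hne hB hB' hN n hn
  haveI := D.finiteDimensional_K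
  haveI := D.finiteDimensional_k hc hπ
  have H := Model.hyp D hc hπ hr hne hN.genus_le
  have hsp : SpCompat (Model.redSetup D hc hπ hr hne)
      (Finsupp.mapDomain.addMonoidHom (Deuring.sp H)) := by
    intro f hf hv E hE w
    exact Deuring.spDiv_principal H hv hE w
  haveI := Fermat.Agent.Lib.RiemannRoch.hasPrincipalDivisors_cz D.model.transcendental
  -- the place at infinity specialises to the place at infinity
  have hpoleb : ((D.modelb hc hπ).inftyPlace).ord
      ((Model.redSetup D hc hπ hr hne).res ⟨D.x, D.x_mem⟩) < 0 :=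
    ((D.modelb hc hπ).pole_iff hcard _).mpr rfl
  have hP : Deuring.sp H D.model.inftyPlace = (D.modelb hc hπ).inftyPlace :=
    Disc.sp_eq_of_ord_res_neg hsp D.x_mem
      (fun Q hQ => (D.model.pole_iff hcard Q).mp hQ) hpoleb
  exact Surj.surjOn_torsion_of_liftHyp (Model.redSetup D hc hπ hr hne) (Deuring.sp H) hsp
    D.model.transcendental (D.transcendental_xb hc hπ) hP
    (fun w hw => ((D.modelb hc hπ).pole_iff hcard w).mp hw)
    (Model.sp D hc hπ hr hne hN.genus_le) (Deuring.spPic0_mk' H) hn
    (h K A F ι D hcard k π hc hπ hr hne hB hB' hN n hn)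

/-- **Block D from D4 and the output of `Lift/Solve.lean`.** -/
theorem t1Trans_of_normal_solve (hD4 : NormalProp.{u, v}) (hS : SolveProp.{u, v}) :
    Fermat.Agent.S27x.Spec.T1Trans.{u, v} :=
  t1Trans_of_blocks hD4 (liftProp_of_solveProp hS)

end Fermat.Agent.S27x.Lift.LiftProp
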