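import Fermat.Agent.S27x.Lift.NiceRep
import Fermat.Agent.S24.ZP.PlaceBasics

/-!
# P-S27, block D7: the residue-side Jacobian of the factorisation system is injective

`κ / k` a function field, `P` a place, `Uvar`, `Ufix` disjoint finite sets of places different
from `P`, `z : κ` regular off `P`, unramified with pairwise distinct values `val Q` at the points
of `Uvar ∪ Ufix`.  Let `Rvar := ∏_{Q ∈ Uvar} (T - val Q)`, `Rfix := ∏_{Q ∈ Ufix} (T - val Q)` and
let `u, u' : κ` be regular off `P` with `div u = n (Uvar + Ufix)` off `P` and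
`u * u' = (Rfix(z) * Rvar(z)) ^ n`.

The factorisation system of note `S27-DESIGN-D7-FACT` has the unknowns `(u, u', Rvar)`; a kernel
vector of its Jacobian at the residue solution is a triple `(v, v', dR)` with `v`, `v'` regular
off `P`, with pole orders at `P` bounded by those of `u`, `u'`, `deg dR < #Uvar` and

  `v * u' + u * v' = n * (Rfix(z) * Rvar(z)) ^ (n - 1) * (Rfix(z) * dR(z))`.

`jac_kernel` shows: if `l(Uvar) = 1` then `v = c • u` for a constant `c`, and if moreover `v = 0`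
then `dR = 0` and `v' = 0`.  Only orders at places are used (no norm, no trace).
-/

set_option autoImplicit false
set_option linter.unusedSectionVars false
set_option linter.style.haveILetI false

noncomputable section

open AlgebraicCurve Polynomial Module

namespace Fermat.Agent.S27x.Lift.JacInj

open Fermat.Agent.S27x.Lift.NiceRep Fermat.Agent.S24.ZP

variable {k κ : Type*} [Field k] [Field κ] [Algebra k κ]

/-! ### `OrdGE`: lower bounds for the order which tolerate the zero function -/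

/-- `f = 0` or `m ≤ ord_w f`. -/
def OrdGE (w : Place k κ) (f : κ) (m : ℤ) : Prop := f = 0 ∨ m ≤ w.ord f

namespace OrdGE

variable {w : Place k κ} {f g : κ} {m m' : ℤ}

theorem zero (w : Place k κ) (m : ℤ) : OrdGE w 0 m := Or.inl rfl

theorem of_le (hf : m ≤ w.ord f) : OrdGE w f m := Or.inr hf

theorem le (hf : f ≠ 0) (h : OrdGE w f m) : m ≤ w.ord f := h.resolve_left hf

theorem mono (h : OrdGE w f m) (hm : m' ≤ m) : OrdGE w f m' :=
  h.imp id (fun h => hm.trans h)

theorem neg (h : OrdGE w f m) : OrdGE w (-f) m := by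
  rcases h with rfl | h
  · simpa using zero w m
  · exact Or.inr (by rwa [ord_neg])

theorem add (hf : OrdGE w f m) (hg : OrdGE w g m) : OrdGE w (f + g) m := by
  rcases eq_or_ne f 0 with rfl | hf0
  · simpa using hg
  rcases eq_or_ne g 0 with rfl | hg0
  · simpa using hf
  rcases eq_or_ne (f + g) 0 with h0 | h0
  · exact Or.inl h0
  · exact Or.inr ((le_min (hf.le hf0) (hg.le hg0)).trans (ord_add_ge w hf0 hg0 h0))

theorem sub (hf : OrdGE w f m) (hg : OrdGE w g m) : OrdGE w (f - g) m := by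
  rw [sub_eq_add_neg]
  exact hf.add hg.neg

theorem mul (hf : OrdGE w f m) (hg : OrdGE w g m') : OrdGE w (f * g) (m + m') := by
  rcases eq_or_ne f 0 with rfl | hf0
  · simpa using zero w _
  rcases eq_or_ne g 0 with rfl | hg0
  · simpa using zero w _
  refine Or.inr ?_
  rw [w.ord_mul hf0 hg0]
  exact add_le_add (hf.le hf0) (hg.le hg0)

theorem algebraMap (w : Place k κ) (a : k) : OrdGE w (algebraMap k κ a) 0 :=
  Or.inr (ord_algebraMap w a).ge

theorem inv (hf : w.ord f = m) : OrdGE w f⁻¹ (-m) :=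
  Or.inr (by rw [w.ord_inv, hf])

theorem of_mem (h : f ∈ w.toValuationSubring) : OrdGE w f 0 := by
  rcases eq_or_ne f 0 with rfl | hf0
  · exact zero w 0
  · exact Or.inr ((ord_nonneg_iff w hf0).mpr h)

theorem mem (h : OrdGE w f 0) : f ∈ w.toValuationSubring := by
  rcases eq_or_ne f 0 with rfl | hf0
  · exact zero_mem _
  · exact (ord_nonneg_iff w hf0).mp (h.le hf0)

theorem pow (hf : OrdGE w f 0) (n : ℕ) : OrdGE w (f ^ n) 0 :=
  of_mem (pow_mem hf.mem n)

theorem aeval (hz : OrdGE w f 0) (p : k[X]) : OrdGE w (Polynomial.aeval f p) 0 := by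
  apply of_mem
  rw [aeval_eq_sum_range]
  refine Subring.sum_mem _ fun i _ => ?_
  rw [Algebra.smul_def]
  exact mul_mem (w.algebraMap_mem' _) (pow_mem hz.mem i)

end OrdGE

theorem mem_riemannRochSpace_iff_ordGE {D : Divisor k κ} {f : κ} :
    f ∈ riemannRochSpace D ↔ ∀ w : Place k κ, OrdGE w f (-D w) :=
  mem_riemannRochSpace_iff

/-- A constant of positive order is zero. -/
theorem eq_zero_of_ord_algebraMap_pos (w : Place k κ) {a : k}
    (h : OrdGE w (algebraMap k κ a) 1) : a = 0 := by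
  by_contra ha
  have h0 : algebraMap k κ a ≠ 0 := by simpa using ha
  have := h.le h0
  rw [ord_algebraMap] at this
  omega

theorem ord_prod (w : Place k κ) {ι : Type*} (s : Finset ι) (f : ι → κ)
    (hf : ∀ i ∈ s, f i ≠ 0) : w.ord (∏ i ∈ s, f i) = ∑ i ∈ s, w.ord (f i) := by
  classical
  induction s using Finset.induction_on with
  | empty => simp
  | insert a s ha ih =>
    rw [Finset.prod_insert ha, Finset.sum_insert ha,
      w.ord_mul (hf a (Finset.mem_insert_self a s))
        (Finset.prod_ne_zero_iff.mpr fun i hi => hf i (Finset.mem_insert_of_mem hi)),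
      ih fun i hi => hf i (Finset.mem_insert_of_mem hi)]

/-! ### The root polynomial of a finite set of places -/

/-- `∏_{Q ∈ U} (T - val Q)`. -/
def rootPoly (val : Place k κ → k) (U : Finset (Place k κ)) : k[X] :=
  ∏ Q ∈ U, (X - C (val Q))

theorem aeval_rootPoly (val : Place k κ → k) (U : Finset (Place k κ)) (z : κ) :
    aeval z (rootPoly val U) = ∏ Q ∈ U, (z - algebraMap k κ (val Q)) := by
  unfold rootPoly
  rw [map_prod]
  refine Finset.prod_congr rfl fun Q _ => ?_
  rw [map_sub, aeval_X, aeval_C]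

theorem natDegree_rootPoly (val : Place k κ → k) (U : Finset (Place k κ)) :
    (rootPoly val U).natDegree = U.card := by
  unfold rootPoly
  rw [natDegree_prod_of_monic _ _ fun Q _ => monic_X_sub_C (val Q)]
  simp

theorem monic_rootPoly (val : Place k κ → k) (U : Finset (Place k κ)) :
    (rootPoly val U).Monic :=
  monic_prod_of_monic _ _ fun Q _ => monic_X_sub_C (val Q)

section Main

variable {P : Place k κ} {Uvar Ufix : Finset (Place k κ)} {z : κ} {val : Place k κ → k}

/-- the hypotheses on `z` at the points. -/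
structure Unram (Uvar Ufix : Finset (Place k κ)) (z : κ) (val : Place k κ → k) : Prop where
  disj : Disjoint Uvar Ufix
  inj : Set.InjOn val {Q | Q ∈ Uvar ∨ Q ∈ Ufix}
  unif : ∀ Q, Q ∈ Uvar ∨ Q ∈ Ufix → Q.ord (z - algebraMap k κ (val Q)) = 1

namespace Unram

variable (H : Unram Uvar Ufix z val)
include H

theorem sub_ne_zero {Q : Place k κ} (hQ : Q ∈ Uvar ∨ Q ∈ Ufix) :
    z - algebraMap k κ (val Q) ≠ 0 := by
  intro h0
  have := H.unif Q hQ
  rw [h0, Place.ord_zero] at this
  omega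

theorem ord_sub_of_ne {Q Q' : Place k κ} (hQ : Q ∈ Uvar ∨ Q ∈ Ufix)
    (hQ' : Q' ∈ Uvar ∨ Q' ∈ Ufix) (hne : Q' ≠ Q) :
    Q.ord (z - algebraMap k κ (val Q')) = 0 := by
  have hval : val Q - val Q' ≠ 0 := by
    intro h0
    exact hne (H.inj hQ' hQ (sub_eq_zero.mp h0).symm)
  have hc : algebraMap k κ (val Q - val Q') ≠ 0 :=
    (map_ne_zero_iff _ (algebraMap k κ).injective).mpr hval
  have hsplit : z - algebraMap k κ (val Q') =
      algebraMap k κ (val Q - val Q') + (z - algebraMap k κ (val Q)) := by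
    rw [map_sub]; ring
  rw [hsplit, ord_add_eq_of_lt Q (H.sub_ne_zero hQ) (by
    rw [ord_algebraMap, H.unif Q hQ]; exact zero_lt_one) hc, ord_algebraMap]

open Classical in
theorem ord_aeval_rootPoly {S : Finset (Place k κ)} (hS : ∀ Q ∈ S, Q ∈ Uvar ∨ Q ∈ Ufix)
    {Q : Place k κ} (hQ : Q ∈ Uvar ∨ Q ∈ Ufix) :
    Q.ord (aeval z (rootPoly val S)) = if Q ∈ S then 1 else 0 := by
  rw [aeval_rootPoly, ord_prod Q S _ fun Q' hQ' => H.sub_ne_zero (hS Q' hQ')]
  have : ∀ Q' ∈ S, Q.ord (z - algebraMap k κ (val Q')) = if Q' = Q then 1 else 0 := by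
    intro Q' hQ'
    split_ifs with h
    · subst h; exact H.unif Q' hQ
    · exact H.ord_sub_of_ne hQ (hS Q' hQ') h
  rw [Finset.sum_congr rfl this, Finset.sum_ite_eq' S Q]

theorem aeval_rootPoly_ne_zero {S : Finset (Place k κ)} (hS : ∀ Q ∈ S, Q ∈ Uvar ∨ Q ∈ Ufix) :
    aeval z (rootPoly val S) ≠ 0 := by
  rw [aeval_rootPoly]
  exact Finset.prod_ne_zero_iff.mpr fun Q' hQ' => H.sub_ne_zero (hS Q' hQ')

theorem ord_var_of_mem_var {Q : Place k κ} (hQ : Q ∈ Uvar) :
    Q.ord (aeval z (rootPoly val Uvar)) = 1 := by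
  classical
  rw [H.ord_aeval_rootPoly (fun Q h => Or.inl h) (Or.inl hQ), if_pos hQ]

theorem ord_var_of_mem_fix {Q : Place k κ} (hQ : Q ∈ Ufix) :
    Q.ord (aeval z (rootPoly val Uvar)) = 0 := by
  classical
  rw [H.ord_aeval_rootPoly (fun Q h => Or.inl h) (Or.inr hQ),
    if_neg (fun h => (Finset.disjoint_left.mp H.disj h) hQ)]

theorem ord_fix_of_mem_fix {Q : Place k κ} (hQ : Q ∈ Ufix) :
    Q.ord (aeval z (rootPoly val Ufix)) = 1 := by
  classical
  rw [H.ord_aeval_rootPoly (fun Q h => Or.inr h) (Or.inr hQ), if_pos hQ]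

theorem ord_fix_of_mem_var {Q : Place k κ} (hQ : Q ∈ Uvar) :
    Q.ord (aeval z (rootPoly val Ufix)) = 0 := by
  classical
  rw [H.ord_aeval_rootPoly (fun Q h => Or.inr h) (Or.inl hQ),
    if_neg (fun h => (Finset.disjoint_left.mp H.disj hQ) h)]

end Unram

end Main

/-! ### The kernel of the Jacobian -/

section Kernel

variable {P : Place k κ} {Uvar Ufix : Finset (Place k κ)} {z : κ} {val : Place k κ → k}
  {n : ℕ} {u u' v v' : κ} {dR : k[X]}

/-- The residue solution `(u, u', Rvar)` of the factorisation system. -/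
structure ResSol (P : Place k κ) (Uvar Ufix : Finset (Place k κ)) (z : κ)
    (val : Place k κ → k) (n : ℕ) (u u' : κ) : Prop where
  unram : Unram Uvar Ufix z val
  hn : (n : k) ≠ 0
  P_notMem_var : P ∉ Uvar
  P_notMem_fix : P ∉ Ufix
  z_reg : ∀ w : Place k κ, w ≠ P → z ∈ w.toValuationSubring
  u_ne : u ≠ 0
  u'_ne : u' ≠ 0
  ord_u : ∀ w : Place k κ, w ≠ P → w.ord u = n * (finDiv Uvar w + finDiv Ufix w)
  prod : u * u' = (aeval z (rootPoly val Ufix) * aeval z (rootPoly val Uvar)) ^ n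

/-- A kernel vector `(v, v', dR)` of the Jacobian at the residue solution. -/
structure KerVec (P : Place k κ) (Uvar Ufix : Finset (Place k κ)) (z : κ)
    (val : Place k κ → k) (n : ℕ) (u u' v v' : κ) (dR : k[X]) : Prop where
  v_reg : ∀ w : Place k κ, w ≠ P → v ∈ w.toValuationSubring
  v_P : OrdGE P v (P.ord u)
  v'_reg : ∀ w : Place k κ, w ≠ P → v' ∈ w.toValuationSubring
  v'_P : OrdGE P v' (P.ord u')
  deg : dR.degree < (Uvar.card : WithBot ℕ)
  eq : v * u' + u * v' =
    (n : κ) * (aeval z (rootPoly val Ufix) * aeval z (rootPoly val Uvar)) ^ (n - 1) *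
      (aeval z (rootPoly val Ufix) * aeval z dR)

namespace ResSol

variable (S : ResSol P Uvar Ufix z val n u u')
include S

theorem n_ne_zero : n ≠ 0 := by
  rintro rfl
  exact S.hn (by simp)

theorem natCast_ne_zero : (n : κ) ≠ 0 := by
  have : (n : κ) = algebraMap k κ (n : k) := (map_natCast (algebraMap k κ) n).symm
  rw [this]
  exact (map_ne_zero_iff _ (algebraMap k κ).injective).mpr S.hn

theorem ordGE_natCast (w : Place k κ) : OrdGE w (n : κ) 0 := by
  have : (n : κ) = algebraMap k κ (n : k) := (map_natCast (algebraMap k κ) n).symm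
  rw [this]
  exact OrdGE.algebraMap w _

theorem ne_P_of_mem {Q : Place k κ} (hQ : Q ∈ Uvar ∨ Q ∈ Ufix) : Q ≠ P := by
  rintro rfl
  rcases hQ with h | h
  · exact S.P_notMem_var h
  · exact S.P_notMem_fix h

theorem fix_ne_zero : aeval z (rootPoly val Ufix) ≠ 0 :=
  S.unram.aeval_rootPoly_ne_zero fun _ h => Or.inr h

theorem var_ne_zero : aeval z (rootPoly val Uvar) ≠ 0 :=
  S.unram.aeval_rootPoly_ne_zero fun _ h => Or.inl h

theorem ord_u_of_mem {Q : Place k κ} (hQ : Q ∈ Uvar ∨ Q ∈ Ufix) : Q.ord u = n := by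
  rw [S.ord_u Q (S.ne_P_of_mem hQ)]
  rcases hQ with h | h
  · rw [finDiv_apply_of_mem h,
      finDiv_apply_of_notMem (fun h' => (Finset.disjoint_left.mp S.unram.disj h) h')]
    ring
  · rw [finDiv_apply_of_mem h,
      finDiv_apply_of_notMem (fun h' => (Finset.disjoint_left.mp S.unram.disj h') h)]
    ring

theorem ord_u_of_notMem {w : Place k κ} (hP : w ≠ P) (h1 : w ∉ Uvar) (h2 : w ∉ Ufix) :
    w.ord u = 0 := by
  rw [S.ord_u w hP, finDiv_apply_of_notMem h1, finDiv_apply_of_notMem h2]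
  ring

theorem ord_u'_of_mem {Q : Place k κ} (hQ : Q ∈ Uvar ∨ Q ∈ Ufix) : Q.ord u' = 0 := by
  have h1 := congrArg Q.ord S.prod
  rw [Q.ord_mul S.u_ne S.u'_ne, ord_pow, Q.ord_mul S.fix_ne_zero S.var_ne_zero,
    S.ord_u_of_mem hQ] at h1
  rcases hQ with h | h
  · rw [S.unram.ord_fix_of_mem_var h, S.unram.ord_var_of_mem_var h] at h1
    linarith
  · rw [S.unram.ord_fix_of_mem_fix h, S.unram.ord_var_of_mem_fix h] at h1
    linarith

variable (T : KerVec P Uvar Ufix z val n u u' v v' dR)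
include T

/-- `v/u + v'/u' = n dR(z) / Rvar(z)`. -/
theorem sum_eq :
    v / u + v' / u' = (n : κ) * aeval z dR / aeval z (rootPoly val Uvar) := by
  have hn1 : n = (n - 1) + 1 := (Nat.succ_pred_eq_of_ne_zero S.n_ne_zero).symm
  have hprod : u * u' =
      (aeval z (rootPoly val Ufix) * aeval z (rootPoly val Uvar)) ^ (n - 1) *
        (aeval z (rootPoly val Ufix) * aeval z (rootPoly val Uvar)) := by
    rw [← pow_succ, ← hn1]; exact S.prod
  rw [div_add_div _ _ S.u_ne S.u'_ne, div_eq_div_iff (mul_ne_zero S.u_ne S.u'_ne) S.var_ne_zero,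
    T.eq, hprod]
  ring

theorem ordGE_h' {Q : Place k κ} (hQ : Q ∈ Uvar ∨ Q ∈ Ufix) : OrdGE Q (v' / u') 0 := by
  rw [div_eq_mul_inv]
  have h1 : OrdGE Q v' 0 := OrdGE.of_mem (T.v'_reg Q (S.ne_P_of_mem hQ))
  have h2 : OrdGE Q u'⁻¹ (-0) := OrdGE.inv (S.ord_u'_of_mem hQ)
  exact (h1.mul h2).mono (by norm_num)

theorem ordGE_psi_fix {Q : Place k κ} (hQ : Q ∈ Ufix) :
    OrdGE Q ((n : κ) * aeval z dR / aeval z (rootPoly val Uvar)) 0 := by
  rw [div_eq_mul_inv]
  have h1 : OrdGE Q (aeval z dR) 0 :=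
    OrdGE.aeval (OrdGE.of_mem (S.z_reg Q (S.ne_P_of_mem (Or.inr hQ)))) dR
  have h2 : OrdGE Q (aeval z (rootPoly val Uvar))⁻¹ (-0) :=
    OrdGE.inv (S.unram.ord_var_of_mem_fix hQ)
  exact (((S.ordGE_natCast Q).mul h1).mul h2).mono (by norm_num)

theorem ordGE_psi_var {Q : Place k κ} (hQ : Q ∈ Uvar) :
    OrdGE Q ((n : κ) * aeval z dR / aeval z (rootPoly val Uvar)) (-1) := by
  rw [div_eq_mul_inv]
  have h1 : OrdGE Q (aeval z dR) 0 :=
    OrdGE.aeval (OrdGE.of_mem (S.z_reg Q (S.ne_P_of_mem (Or.inl hQ)))) dR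
  have h2 : OrdGE Q (aeval z (rootPoly val Uvar))⁻¹ (-1) :=
    OrdGE.inv (S.unram.ord_var_of_mem_var hQ)
  exact (((S.ordGE_natCast Q).mul h1).mul h2).mono (by norm_num)

/-- `h = v / u` lies in `L(Uvar)`. -/
theorem h_mem : v / u ∈ riemannRochSpace (finDiv Uvar) := by
  rw [mem_riemannRochSpace_iff_ordGE]
  intro w
  have hh : v / u = (n : κ) * aeval z dR / aeval z (rootPoly val Uvar) - v' / u' := by
    rw [← S.sum_eq T]; ring
  by_cases hwP : w = P
  · subst hwP
    rw [finDiv_apply_of_notMem S.P_notMem_var, div_eq_mul_inv]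
    have h2 : OrdGE w u⁻¹ (-(w.ord u)) := OrdGE.inv rfl
    exact (T.v_P.mul h2).mono (by simp)
  by_cases hv : w ∈ Uvar
  · rw [finDiv_apply_of_mem hv, hh]
    exact (S.ordGE_psi_var T hv).sub ((S.ordGE_h' T (Or.inl hv)).mono (by norm_num))
  by_cases hf : w ∈ Ufix
  · rw [finDiv_apply_of_notMem hv, hh]
    exact ((S.ordGE_psi_fix T hf).sub (S.ordGE_h' T (Or.inr hf))).mono (by norm_num)
  · rw [finDiv_apply_of_notMem hv, div_eq_mul_inv]
    have h1 : OrdGE w v 0 := OrdGE.of_mem (T.v_reg w hwP)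
    have h2 : OrdGE w u⁻¹ (-0) := OrdGE.inv (S.ord_u_of_notMem hwP hv hf)
    exact (h1.mul h2).mono (by norm_num)

/-- First half of the injectivity of the Jacobian: `v` is a constant multiple of `u`. -/
theorem exists_smul_eq (hl : finrank k (riemannRochSpace (finDiv Uvar)) = 1) :
    ∃ c : k, v = c • u := by
  have h1 : (1 : κ) ∈ riemannRochSpace (finDiv Uvar) := by
    rw [mem_riemannRochSpace_iff_ordGE]
    intro w
    refine Or.inr ?_
    rw [Place.ord_one]
    have := finDiv_nonneg Uvar w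
    simp only [Finsupp.coe_zero, Pi.zero_apply] at this
    omega
  have hne : (⟨1, h1⟩ : riemannRochSpace (finDiv Uvar)) ≠ 0 := by
    intro h0
    have := congrArg Subtype.val h0
    simp at this
  obtain ⟨c, hc⟩ := (finrank_eq_one_iff_of_nonzero' _ hne).mp hl ⟨v / u, S.h_mem T⟩
  refine ⟨c, ?_⟩
  have hc' : c • (1 : κ) = v / u := congrArg Subtype.val hc
  rw [eq_div_iff S.u_ne] at hc'
  rw [← hc', smul_mul_assoc, one_mul]

/-- Second half: if `v = 0` then `dR = 0` and `v' = 0`. -/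
theorem eq_zero_of_v_eq_zero (hv : v = 0) : dR = 0 ∧ v' = 0 := by
  classical
  have hsum := S.sum_eq T
  rw [hv, zero_div, zero_add] at hsum
  -- `dR` vanishes at the values of the points of `Uvar`
  have hroot : ∀ Q ∈ Uvar, dR.eval (val Q) = 0 := by
    intro Q hQ
    have hQP : Q ≠ P := S.ne_P_of_mem (Or.inl hQ)
    have h1 : OrdGE Q ((n : κ) * aeval z dR / aeval z (rootPoly val Uvar)) 0 := by
      rw [← hsum]; exact S.ordGE_h' T (Or.inl hQ)
    have h2 : OrdGE Q (aeval z (rootPoly val Uvar)) 1 :=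
      OrdGE.of_le (S.unram.ord_var_of_mem_var hQ).ge
    have h3 : OrdGE Q ((n : κ) * aeval z dR) (0 + 1) := by
      have := h1.mul h2
      rwa [div_mul_cancel₀ _ S.var_ne_zero] at this
    have h4 : OrdGE Q (aeval z dR) 1 := by
      have h5 : OrdGE Q ((n : κ)⁻¹) 0 := by
        have : ((n : κ))⁻¹ = algebraMap k κ ((n : k)⁻¹) := by
          rw [map_inv₀, map_natCast]
        rw [this]; exact OrdGE.algebraMap Q _
      have := h5.mul h3
      rw [← mul_assoc, inv_mul_cancel₀ S.natCast_ne_zero, one_mul] at this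
      exact this.mono (by norm_num)
    obtain ⟨q, hq⟩ := Polynomial.X_sub_C_dvd_sub_C_eval (a := val Q) (p := dR)
    have hq' : algebraMap k κ (dR.eval (val Q)) =
        aeval z dR - (z - algebraMap k κ (val Q)) * aeval z q := by
      have := congrArg (aeval z) hq
      rw [map_sub, map_mul, map_sub, aeval_X, aeval_C, aeval_C] at this
      rw [← this]; ring
    have h6 : OrdGE Q ((z - algebraMap k κ (val Q)) * aeval z q) (1 + 0) :=
      (OrdGE.of_le (S.unram.unif Q (Or.inl hQ)).ge).mul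
        (OrdGE.aeval (OrdGE.of_mem (S.z_reg Q hQP)) q)
    have h7 : OrdGE Q (algebraMap k κ (dR.eval (val Q))) 1 := by
      rw [hq']; exact h4.sub (h6.mono (by norm_num))
    exact eq_zero_of_ord_algebraMap_pos Q h7
  have hdR : dR = 0 := by
    by_contra hne
    have hdeg : dR.natDegree < Uvar.card := (natDegree_lt_iff_degree_lt hne).mpr T.deg
    have hinj : Set.InjOn val (Uvar : Set (Place k κ)) := fun a ha b hb hab =>
      S.unram.inj (Or.inl ha) (Or.inl hb) hab
    have hcard : (Uvar.image val).card = Uvar.card := Finset.card_image_of_injOn hinj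
    apply hne
    refine eq_zero_of_natDegree_lt_card_of_eval_eq_zero' dR (Uvar.image val) ?_ (by rwa [hcard])
    intro c hc
    obtain ⟨Q, hQ, rfl⟩ := Finset.mem_image.mp hc
    exact hroot Q hQ
  refine ⟨hdR, ?_⟩
  rw [hdR, map_zero, mul_zero, zero_div] at hsum
  exact (div_eq_zero_iff.mp hsum).resolve_right S.u'_ne

/-- **The Jacobian of the factorisation system is injective at the residue solution**
(modulo the normalisation of `u`). -/
theorem jac_kernel (hl : finrank k (riemannRochSpace (finDiv Uvar)) = 1) :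
    (∃ c : k, v = c • u) ∧ (v = 0 → dR = 0 ∧ v' = 0) :=
  ⟨S.exists_smul_eq T hl, S.eq_zero_of_v_eq_zero T⟩

end ResSol

end Kernel

end Fermat.Agent.S27x.Lift.JacInj
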