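import Fermat.Agent.S27x.Lift.Frame
import Fermat.Agent.S27x.Lift.JacInj
import Fermat.Agent.S27x.Spec.GaussNorm.ModelPole

/-!
# P-S27, block D7: generic-fibre packaging for the lifting hypothesis

For `D : GaussNorm.AperyData A F ι` with `card ι = D.W.d`, `P := D.model.inftyPlace`:

* elements of `Λ_N = lam A D.W D.x D.f N` are regular off `P` with pole order at most `N`;
* an element of `O` with non constant reduction is not constant;
* lifts of root polynomials, separability of the reduction of `Rfix * Rvar`;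
* conversion of `aeval` over `A` into `aeval` of the polynomial mapped to `K`.
-/

set_option autoImplicit false
set_option linter.unusedSectionVars false
set_option linter.style.haveILetI false

noncomputable section

open AlgebraicCurve Polynomial Module IsLocalRing

namespace Fermat.Agent.S27x.Lift.SolveA

open Fermat.Agent.S27x.Spec.GaussNorm Fermat.Agent.S27x.Lift.Frame
open Fermat.Agent.S27x.Lift.JacInj

variable {ι : Type*} [Fintype ι] [DecidableEq ι]
  {K : Type*} [Field K] {A : ValuationSubring K} {F : Type*} [Field F] [Algebra K F]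
  (D : AperyData A F ι)

section places

variable (hcard : Fintype.card ι = D.W.d)
include hcard

/-- Elements of `Λ_N` are regular off the place at infinity. -/
theorem ord_nonneg_of_mem_lam {N : ℕ} {y : F} (hy : y ∈ lam A D.W D.x D.f N)
    {v : Place K F} (hv : v ≠ D.model.inftyPlace) : 0 ≤ v.ord y := by
  obtain ⟨p, -, rfl⟩ := (mem_lam_iff D.W D.x D.f).mp hy
  rw [← D.evK_toK]
  by_cases hp : toK p = 0
  · rw [hp, ev_zero, Place.ord_zero]
  · exact D.model.ord_ev_nonneg_of_ne hcard hv hp

/-- Elements of `Λ_N` have pole order at most `N` at the place at infinity. -/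
theorem neg_le_ord_of_mem_lam {N : ℕ} {y : F} (hy : y ∈ lam A D.W D.x D.f N) :
    -(N : ℤ) ≤ D.model.inftyPlace.ord y := by
  obtain ⟨p, hp, rfl⟩ := (mem_lam_iff D.W D.x D.f).mp hy
  rw [← D.evK_toK]
  by_cases hp0 : toK p = 0
  · rw [hp0, ev_zero, Place.ord_zero]
    omega
  · rw [D.model.ord_inftyPlace_ev hcard hp0]
    have h1 : D.W.wdeg (toK p) ≤ D.W.wdeg p := D.W.wdeg_map_le (algebraMap A K) p
    have h2 : ((D.W.wdeg (toK p) : ℕ) : ℤ) ≤ (N : ℤ) := by exact_mod_cast h1.trans hp
    omega

end places

section residue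

variable {k : Type*} [Field k] [Algebra k D.κ] {π : A →+* k} (hc : D.Compat π)
include hc

/-- An element of `O` whose reduction is not a constant is not a constant. -/
theorem ne_algebraMap_of_res {z : F} (hz : z ∈ D.O)
    (hzb : ∀ c : k, D.res ⟨z, hz⟩ ≠ algebraMap k D.κ c) (a : K) : z ≠ algebraMap K F a := by
  rintro rfl
  have ha : a ∈ A := (D.algebraMap_mem_iff a).mp hz
  refine hzb (π ⟨a, ha⟩) ?_
  rw [hc ⟨a, ha⟩]
  rfl

end residue

section polys

variable {k κ : Type*} [Field k] [Field κ] [Algebra k κ] {π : A →+* k}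

/-- Root polynomials lift to monic polynomials over `A`. -/
theorem exists_lift_rootPoly (hπ : Function.Surjective π) (val : Place k κ → k)
    (U : Finset (Place k κ)) :
    ∃ R : A[X], R.Monic ∧ R.natDegree = U.card ∧ R.map π = rootPoly val U := by
  classical
  choose ρ hρ using fun Q : Place k κ => hπ (val Q)
  refine ⟨∏ Q ∈ U, (X - C (ρ Q)), monic_prod_of_monic _ _ fun Q _ => monic_X_sub_C (ρ Q), ?_, ?_⟩
  · rw [natDegree_prod_of_monic _ _ fun Q _ => monic_X_sub_C (ρ Q)]
    simp
  · rw [Polynomial.map_prod, rootPoly]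
    refine Finset.prod_congr rfl fun Q _ => ?_
    rw [Polynomial.map_sub, Polynomial.map_X, Polynomial.map_C, hρ Q]

open Classical in
/-- The reduction of `Rfix * Rvar` is separable. -/
theorem separable_map_mul {Uvar Ufix : Finset (Place k κ)} {z : κ} {val : Place k κ → k}
    (H : Unram Uvar Ufix z val) {Rfix Rvar : A[X]}
    (hfix : Rfix.map π = rootPoly val Ufix) (hvar : Rvar.map π = rootPoly val Uvar) :
    ((Rfix * Rvar).map π).Separable := by
  rw [Polynomial.map_mul, hfix, hvar, rootPoly, rootPoly,
    ← Finset.prod_union (Finset.disjoint_left.mpr fun Q h1 h2 =>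
      (Finset.disjoint_left.mp H.disj h2) h1),
    separable_prod_X_sub_C_iff']
  intro Q hQ Q' hQ' h
  have h1 : Q ∈ Uvar ∨ Q ∈ Ufix := (Finset.mem_union.mp hQ).symm
  have h2 : Q' ∈ Uvar ∨ Q' ∈ Ufix := (Finset.mem_union.mp hQ').symm
  exact H.inj h1 h2 h

omit [Fintype ι] [DecidableEq ι] in
/-- `aeval` over `A` as `aeval` of the polynomial mapped to `K`. -/
theorem aeval_map_K (z : F) (p : A[X]) :
    aeval z (p.map (algebraMap A K)) = aeval z p :=
  aeval_map_algebraMap K z p

end polys

end Fermat.Agent.S27x.Lift.SolveA
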