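import Fermat.Agent.S27x.Lift.SolveK
import Fermat.Agent.S27x.Lift.SolveA
import Fermat.Agent.S27x.Lift.FrameSolve
import Fermat.Agent.S27x.Lift.LiftProp

/-!
# P-S27, block D7: the lifting hypothesis for every good model (`SolveProp`)

Chain: `ResidueSol` (residue solution) + `SolveK` (special fibre: `Λ̄_N = L(N·P̄)`, the count,
the kernel of the Jacobian via `JacInj`) + `FrameSolve.exists_lift_frame` (Hensel for the
factorisation system in the frame) + `SolveA` (generic-fibre packaging) ⇒ `Surj.LiftHyp`.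
-/

set_option autoImplicit false
set_option linter.unusedSectionVars false
set_option linter.style.haveILetI false

noncomputable section

open AlgebraicCurve Polynomial Module IsLocalRing IntermediateField

namespace Fermat.Agent.S27x.Lift.SolveDirect

open Fermat.Agent.S27x.Spec.GaussNorm Fermat.Agent.S27x.Spec
open Fermat.Agent.S27x.Lift.Frame Fermat.Agent.S27x.Lift.NiceRep Fermat.Agent.S27x.Lift.JacInj
open Fermat.Agent.S27x.Lift.ResidueSol Fermat.Agent.S27x.Lift.SolveK
open Fermat.Agent.S27x.Lift.SolveA Fermat.Agent.S27x.Lift.Surj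

universe u v w

variable {K : Type u} [Field K] [IsAlgClosed K] [CharZero K] {A : ValuationSubring K}
  {F : Type v} [Field F] [Algebra K F] {ι : Type*} [Fintype ι] [DecidableEq ι]
  (D : AperyData A F ι) {k : Type w} [Field k] [IsAlgClosed k] [CharZero k] [Algebra k D.κ]
  {π : A →+* k} (hc : D.Compat π) (hπ : Function.Surjective π)
  (hr : ∀ x ∈ maximalIdeal A, ∀ c : A, c ≠ 0 → ∃ j : ℕ, c ∣ x ^ j)
  (hne : ∃ ϖ ∈ maximalIdeal A, ϖ ≠ 0)
  (hcard : Fintype.card ι = D.W.d)
  (tnorm : ∀ b : D.κ, IsIntegral (Algebra.adjoin k {D.xb}) b → ∃ u : ι → k[X], b = ev D.xb D.fb u)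

include tnorm hcard in
/-- **The lifting hypothesis for a good model.** -/
theorem liftHyp_of_model {n : ℕ} (hn : 0 < n) :
    LiftHyp (Model.redSetup D hc hπ hr hne) D.model.inftyPlace (D.modelb hc hπ).inftyPlace
      D.xb n := by
  classical
  set Mb := D.modelb hc hπ with hMb
  refine ⟨∅, 2 * genusFF k D.κ + 1, ?_⟩
  intro m hm Uvar Ufix zb ub ub' val e' _ _ _ hcardv hcardm hl S hordu hzint he'1 hzP huP hu'P
    hureg hu'reg
  set g := genusFF k D.κ with hg
  have hn1 : 1 ≤ n := hn
  -- the three levels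
  have hN₁ : 2 * g ≤ n * m + 1 := by nlinarith
  have hN₂ : 2 * g ≤ n * m * e' + 1 := by
    have : n * m ≤ n * m * e' := Nat.le_mul_of_pos_right _ he'1
    omega
  -- memberships on the special fibre
  have hzb_mem : zb ∈ lam k D.W D.xb D.fb (e' + 1) :=
    (SolveK.mem_lam_iff Mb hcard tnorm).mpr ⟨S.z_reg, OrdGE.of_le (by rw [hzP]; push_cast; rfl)⟩
  have hub_mem : ub ∈ lam k D.W D.xb D.fb (n * m) :=
    (SolveK.mem_lam_iff Mb hcard tnorm).mpr ⟨hureg, OrdGE.of_le (by rw [huP])⟩
  have hub'_mem : ub' ∈ lam k D.W D.xb D.fb (n * m * e') :=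
    (SolveK.mem_lam_iff Mb hcard tnorm).mpr ⟨hu'reg, OrdGE.of_le (by rw [hu'P])⟩
  -- lifts
  obtain ⟨z, hz, hzres⟩ := res_lam_surjective D hc hπ hzb_mem
  obtain ⟨Rfix, hRm, hRd, hRmap⟩ := exists_lift_rootPoly (A := A) hπ val Ufix
  have hcardid := SolveK.card_identity Mb hcard tnorm hN₁ hN₂
  have hdeg : n * ((e' + 1) * (Rfix.natDegree + g)) ≤ n * m + n * m * e' := by
    rw [hRd, ← hcardv, add_comm Ufix.card, hcardm]
    exact le_of_eq (by ring)
  have hres : ub * ub' = (aeval zb (Rfix.map π) * aeval zb (rootPoly val Uvar)) ^ n := by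
    rw [hRmap]; exact S.prod
  obtain ⟨u, u', hu, hu', Rvar, hRvm, -, hRvmap, hures, -, hprod⟩ :=
    FrameSolve.exists_lift_frame D hc hπ (N1 := n * m) (N2 := n * m * e') (g := g) (n := n)
      (e := e' + 1) (by omega) hz Rfix hdeg hzres hub_mem hub'_mem S.u_ne
      (rootPoly val Uvar) (monic_rootPoly val Uvar)
      (by rw [natDegree_rootPoly, hcardv]) hres
      (by
        intro v v' dR hv hv' hdR heq
        rw [hRmap] at heq
        obtain ⟨hvreg, hvP⟩ := (SolveK.mem_lam_iff Mb hcard tnorm).mp hv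
        obtain ⟨hv'reg, hv'P⟩ := (SolveK.mem_lam_iff Mb hcard tnorm).mp hv'
        have T : KerVec Mb.inftyPlace Uvar Ufix zb val n ub ub' v v' dR :=
          { v_reg := hvreg
            v_P := by rw [huP]; exact hvP
            v'_reg := hv'reg
            v'_P := by rw [hu'P]; exact hv'P
            deg := by rw [hcardv]; exact hdR
            eq := heq }
        exact S.jac_kernel T hl)
  refine ⟨z, u, u', lam_le_O D hz, lam_le_O D hu, Rfix * Rvar, hzres, hures, ?_,
    fun v hv => ord_nonneg_of_mem_lam D hcard hz hv,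
    fun v hv => ord_nonneg_of_mem_lam D hcard hu hv,
    fun v hv => ord_nonneg_of_mem_lam D hcard hu' hv, ?_, ?_, ?_⟩
  · refine ne_algebraMap_of_res D hc (lam_le_O D hz) fun c => ?_
    rw [hzres]
    intro h0
    rw [h0, Fermat.Agent.S24.ZP.ord_algebraMap] at hzP
    omega
  · have := neg_le_ord_of_mem_lam D hcard hu
    push_cast at this ⊢
    exact this
  · exact separable_map_mul S.unram hRmap hRvmap
  · rw [aeval_map_K, map_mul]
    exact hprod

/-- **Block D7, front half**: the lifting hypothesis holds for every good model. -/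
theorem solveProp : LiftProp.SolveProp.{u, v} := by
  intro K _ _ _ A F _ _ ι _ D hcard k _ _ _ _ π hc hπ hr hne hB hB' hN n hn
  classical
  exact liftHyp_of_model D hc hπ hr hne hcard hN.tnorm hn

/-- **Block D7**: the specialisation map of a good model is surjective on `n`-torsion. -/
theorem liftProp : Fermat.Agent.S27x.Spec.LiftProp.{u, v} :=
  LiftProp.liftProp_of_solveProp solveProp

end Fermat.Agent.S27x.Lift.SolveDirect
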