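import Mathlib

/-!
# P-S27 block D7: applying a linear functional coefficientwise to a multivariate polynomial
(helper17)

`A` a commutative ring, `B` a commutative `A`-algebra, `φ : B →ₗ[A] A` a linear functional (for
instance a coordinate functional with respect to an `A`-basis of a submodule of `B`).
`coeffwise φ : MvPolynomial ι B →ₗ[A] MvPolynomial ι A` applies `φ` to every coefficient.

It commutes with evaluation at points of `A` (`eval_coeffwise`), with partial derivatives
(`pderiv_coeffwise`) and with base change of the coefficients (`map_coeffwise`).  This turns one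
"master polynomial" with coefficients in `B` into the family of its coordinate polynomials over `A`.
-/

set_option autoImplicit false

noncomputable section

namespace Fermat.Agent.S27x.Lift.CoeffFunctional

open MvPolynomial

variable {A B : Type*} [CommRing A] [CommRing B] [Algebra A B] {ι : Type*}

/-- Apply the `A`-linear functional `φ : B → A` to every coefficient. -/
def coeffwise (φ : B →ₗ[A] A) : MvPolynomial ι B →ₗ[A] MvPolynomial ι A where
  toFun p := AddMonoidAlgebra.map φ.toAddMonoidHom p
  map_add' p q := AddMonoidAlgebra.map_add _ p q
  map_smul' a p := by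
    refine MvPolynomial.ext _ _ fun m => ?_
    change φ (coeff m (a • p)) = coeff m (a • AddMonoidAlgebra.map φ.toAddMonoidHom p)
    rw [coeff_smul, coeff_smul, map_smul]
    rfl

variable (φ : B →ₗ[A] A)

@[simp]
theorem coeff_coeffwise (m : ι →₀ ℕ) (p : MvPolynomial ι B) :
    coeff m (coeffwise φ p) = φ (coeff m p) := rfl

@[simp]
theorem coeffwise_monomial (m : ι →₀ ℕ) (b : B) :
    coeffwise φ (monomial m b) = monomial m (φ b) := by
  classical
  refine MvPolynomial.ext _ _ fun m' => ?_
  rw [coeff_coeffwise, coeff_monomial, coeff_monomial]
  split_ifs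
  · rfl
  · exact map_zero φ

@[simp]
theorem coeffwise_C (b : B) : coeffwise φ (C b : MvPolynomial ι B) = C (φ b) :=
  coeffwise_monomial φ 0 b

/-- `φ` applied coefficientwise to `b · q` with `q` defined over `A`. -/
theorem coeffwise_C_mul_map (b : B) (q : MvPolynomial ι A) :
    coeffwise φ (C b * MvPolynomial.map (algebraMap A B) q) = φ b • q := by
  refine MvPolynomial.ext _ _ fun m => ?_
  rw [coeff_coeffwise, coeff_C_mul, coeff_map, coeff_smul, smul_eq_mul, mul_comm b,
    ← Algebra.smul_def, map_smul, smul_eq_mul, mul_comm]

theorem coeffwise_sum_C_mul_map {J : Type*} (s : Finset J) (b : J → B)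
    (q : J → MvPolynomial ι A) :
    coeffwise φ (∑ j ∈ s, C (b j) * MvPolynomial.map (algebraMap A B) (q j))
      = ∑ j ∈ s, φ (b j) • q j := by
  rw [map_sum]
  exact Finset.sum_congr rfl fun j _ => coeffwise_C_mul_map φ (b j) (q j)

/-- **Evaluation commutes with a coefficientwise functional.** -/
theorem eval_coeffwise (z : ι → A) (p : MvPolynomial ι B) :
    eval z (coeffwise φ p) = φ (eval (fun i => algebraMap A B (z i)) p) := by
  induction p using MvPolynomial.induction_on' with
  | monomial m b =>
    rw [coeffwise_monomial, eval_monomial, eval_monomial]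
    have : (m.prod fun i e => algebraMap A B (z i) ^ e) = algebraMap A B (m.prod fun i e => z i ^ e) := by
      rw [Finsupp.prod, Finsupp.prod, map_prod]
      exact Finset.prod_congr rfl fun i _ => (map_pow _ _ _).symm
    rw [this, mul_comm b, ← Algebra.smul_def, map_smul, smul_eq_mul, mul_comm]
  | add p q hp hq =>
    rw [map_add, map_add, map_add, map_add, hp, hq]

/-- **Partial derivatives commute with a coefficientwise functional.** -/
theorem pderiv_coeffwise (i : ι) (p : MvPolynomial ι B) :
    pderiv i (coeffwise φ p) = coeffwise φ (pderiv i p) := by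
  induction p using MvPolynomial.induction_on' with
  | monomial m b =>
    rw [coeffwise_monomial, pderiv_monomial, pderiv_monomial, coeffwise_monomial]
    congr 1
    rw [mul_comm b, ← nsmul_eq_mul, map_nsmul, nsmul_eq_mul, mul_comm]
  | add p q hp hq =>
    rw [map_add, map_add, map_add, map_add, hp, hq]

/-- The value of the `i`-th partial derivative of the coordinate polynomial. -/
theorem eval_pderiv_coeffwise (i : ι) (z : ι → A) (p : MvPolynomial ι B) :
    eval z (pderiv i (coeffwise φ p))
      = φ (eval (fun i => algebraMap A B (z i)) (pderiv i p)) := by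
  rw [pderiv_coeffwise, eval_coeffwise]

section BaseChange

variable {A' B' : Type*} [CommRing A'] [CommRing B'] [Algebra A' B']

/-- **Base change**: if `f : A → A'`, `g : B → B'` and the functionals `φ`, `φ'` are compatible,
then reducing the coordinate polynomial is the coordinate polynomial of the reduction. -/
theorem map_coeffwise (f : A →+* A') (g : B →+* B') (φ' : B' →ₗ[A'] A')
    (h : ∀ b, f (φ b) = φ' (g b)) (p : MvPolynomial ι B) :
    MvPolynomial.map f (coeffwise φ p) = coeffwise φ' (MvPolynomial.map g p) := by
  refine MvPolynomial.ext _ _ fun m => ?_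
  rw [coeff_map, coeff_coeffwise, coeff_coeffwise, coeff_map, h]

end BaseChange

/-- A polynomial over `B` all of whose coordinate polynomials (with respect to a family of
functionals that separates the points of a submodule containing all values) vanish at `z`
vanishes at `z`. -/
theorem eval_eq_zero_of_forall_coeffwise {κ : Type*} (Φ : κ → B →ₗ[A] A) (M : Submodule A B)
    (hsep : ∀ b ∈ M, (∀ t, Φ t b = 0) → b = 0) (z : ι → A) (p : MvPolynomial ι B)
    (hp : eval (fun i => algebraMap A B (z i)) p ∈ M)
    (h0 : ∀ t, eval z (coeffwise (Φ t) p) = 0) :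
    eval (fun i => algebraMap A B (z i)) p = 0 :=
  hsep _ hp fun t => by rw [← eval_coeffwise]; exact h0 t

end Fermat.Agent.S27x.Lift.CoeffFunctional
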