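import Fermat.Agent.S27x.Spec.GaussNorm

/-!
# P-S27 block D7: the `A`-side frame `Λ_N`

For weights `W`, an element `x` and a family `f : ι → L` of an `R`-algebra `L`:
`idx W N` is the finite set of monomials `(i, a)` with `d a + m_i ≤ N`, `mono x f (i, a) = x ^ a * f i`
and `lam R W x f N = span_R {mono x f s | s ∈ idx W N} = {ev x f u | wdeg u ≤ N}` (`mem_lam_iff`).
If `ev x f` is injective on tuples over `R`, `lam R W x f N` is `R`-free on the monomials
(`frameBasis`), with coordinates = coefficients (`frameBasis_repr_ev`); products: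
`lam N₁ * lam N₂ ⊆ lam (N₁ + N₂)` (`mul_mem_lam`).

For an integral Apéry model `D : AperyData A F ι` with reduction `(k, κ)`:
`lam A … N ⊆ D.O`, the residue map sends `lam A … N` onto `lam k … N`, basis to basis, and
coordinates reduce (`res_mem_lam`, `res_lam_surjective`, `repr_res`).
-/

set_option autoImplicit false
set_option linter.unusedSectionVars false

namespace Fermat.Agent.S27x.Lift.Frame

open Polynomial Fermat.Agent.S27x.Spec.GaussNorm

variable {ι : Type*} [Fintype ι] [DecidableEq ι]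

/-- The monomials `(i, a)` of weight `d a + m_i ≤ N`. -/
def idx (W : Weights ι) (N : ℕ) : Finset (ι × ℕ) :=
  (Finset.univ ×ˢ Finset.range (N + 1)).filter fun s => W.d * s.2 + W.m s.1 ≤ N

theorem mem_idx {W : Weights ι} {N : ℕ} {s : ι × ℕ} :
    s ∈ idx W N ↔ W.d * s.2 + W.m s.1 ≤ N := by
  unfold idx
  rw [Finset.mem_filter, Finset.mem_product]
  constructor
  · exact fun h => h.2
  · intro h
    refine ⟨⟨Finset.mem_univ _, ?_⟩, h⟩
    rw [Finset.mem_range]
    have h1 : s.2 ≤ W.d * s.2 := Nat.le_mul_of_pos_left _ W.d_pos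
    omega

theorem idx_mono (W : Weights ι) {N N' : ℕ} (h : N ≤ N') : idx W N ⊆ idx W N' := by
  intro s hs
  rw [mem_idx] at hs ⊢
  exact hs.trans h

section generic

variable {R L : Type*} [CommRing R] [CommRing L] [Algebra R L] (W : Weights ι)

/-- The weighted degree of a tuple is `≤ N` iff all its monomials lie in `idx W N`. -/
theorem wdeg_le_iff_coeff {u : ι → R[X]} {N : ℕ} :
    W.wdeg u ≤ N ↔ ∀ i n, (u i).coeff n ≠ 0 → (i, n) ∈ idx W N := by
  constructor
  · intro h i n hn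
    rw [mem_idx]
    have hne : u i ≠ 0 := by
      rintro h0
      rw [h0, coeff_zero] at hn
      exact hn rfl
    have h1 : n ≤ (u i).natDegree := le_natDegree_of_ne_zero hn
    have h2 := W.le_wdeg hne
    have h3 := Nat.mul_le_mul_left W.d h1
    simp only at h3 ⊢
    omega
  · intro h
    rw [Weights.wdeg_le_iff]
    intro i hi
    have := h i (u i).natDegree (by
      rw [coeff_natDegree]
      exact leadingCoeff_ne_zero.mpr hi)
    rwa [mem_idx] at this

/-- The tuple with prescribed coordinates on the monomials of `idx W N`. -/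
noncomputable def ofCoord {N : ℕ} (c : idx W N → R) : ι → R[X] :=
  ∑ s : idx W N, Pi.single s.1.1 (monomial s.1.2 (c s))

/-- The coordinates of a tuple on the monomials of `idx W N`. -/
def coordOf {N : ℕ} (u : ι → R[X]) : idx W N → R := fun s => (u s.1.1).coeff s.1.2

theorem coeff_ofCoord {N : ℕ} (c : idx W N → R) (i : ι) (n : ℕ) :
    (ofCoord W c i).coeff n = if h : (i, n) ∈ idx W N then c ⟨(i, n), h⟩ else 0 := by
  unfold ofCoord
  rw [Finset.sum_apply, finsetSum_coeff]
  split_ifs with h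
  · rw [Finset.sum_eq_single (⟨(i, n), h⟩ : idx W N)]
    · simp
    · intro s _ hs
      by_cases h1 : s.1.1 = i
      · have h2 : s.1.2 ≠ n := by
          intro h2
          apply hs
          apply Subtype.ext
          exact Prod.ext h1 h2
        rw [← h1, Pi.single_eq_same, coeff_monomial, if_neg h2]
      · rw [Pi.single_eq_of_ne (Ne.symm h1), coeff_zero]
    · intro h0
      exact absurd (Finset.mem_univ _) h0
  · refine Finset.sum_eq_zero fun s _ => ?_
    by_cases h1 : s.1.1 = i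
    · have h2 : s.1.2 ≠ n := by
        intro h2
        apply h
        have : (i, n) = s.1 := Prod.ext h1.symm h2.symm
        rw [this]
        exact s.2
      rw [← h1, Pi.single_eq_same, coeff_monomial, if_neg h2]
    · rw [Pi.single_eq_of_ne (Ne.symm h1), coeff_zero]

theorem coordOf_ofCoord {N : ℕ} (c : idx W N → R) : coordOf W (ofCoord W c) = c := by
  funext s
  unfold coordOf
  rw [coeff_ofCoord, dif_pos s.2]

theorem wdeg_ofCoord_le {N : ℕ} (c : idx W N → R) : W.wdeg (ofCoord W c) ≤ N := by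
  rw [wdeg_le_iff_coeff]
  intro i n hn
  rw [coeff_ofCoord] at hn
  by_contra h
  rw [dif_neg h] at hn
  exact hn rfl

theorem ofCoord_coordOf {N : ℕ} {u : ι → R[X]} (hu : W.wdeg u ≤ N) :
    ofCoord W (coordOf W u : idx W N → R) = u := by
  funext i
  ext n
  rw [coeff_ofCoord]
  split_ifs with h
  · rfl
  · by_contra hne
    exact h ((wdeg_le_iff_coeff W).mp hu i n (Ne.symm hne))

variable (x : L) (f : ι → L)

/-- The monomial `x ^ a * f i`. -/
def mono (s : ι × ℕ) : L := x ^ s.2 * f s.1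

theorem ev_ofCoord {N : ℕ} (c : idx W N → R) :
    ev x f (ofCoord W c) = ∑ s : idx W N, c s • mono x f s.1 := by
  unfold ofCoord
  rw [ev_sum]
  refine Finset.sum_congr rfl fun s _ => ?_
  rw [ev_single, aeval_monomial, mono, Algebra.smul_def, mul_assoc]

variable (R)

/-- `Λ_N`: the `R`-span of the monomials of weight `≤ N`. -/
def lam (N : ℕ) : Submodule R L :=
  Submodule.span R (Set.range fun s : idx W N => mono x f s.1)

variable {R}

theorem mono_mem_lam {N : ℕ} {s : ι × ℕ} (hs : s ∈ idx W N) : mono x f s ∈ lam R W x f N :=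
  Submodule.subset_span ⟨⟨s, hs⟩, rfl⟩

/-- `Λ_N = {ev x f u | wdeg u ≤ N}`. -/
theorem mem_lam_iff {N : ℕ} {y : L} :
    y ∈ lam R W x f N ↔ ∃ u : ι → R[X], W.wdeg u ≤ N ∧ y = ev x f u := by
  unfold lam
  rw [Submodule.mem_span_range_iff_exists_fun]
  constructor
  · rintro ⟨c, rfl⟩
    exact ⟨ofCoord W c, wdeg_ofCoord_le W c, (ev_ofCoord W x f c).symm⟩
  · rintro ⟨u, hu, rfl⟩
    refine ⟨coordOf W u, ?_⟩
    rw [← ev_ofCoord, ofCoord_coordOf W hu]

theorem ev_mem_lam {N : ℕ} {u : ι → R[X]} (hu : W.wdeg u ≤ N) : ev x f u ∈ lam R W x f N :=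
  (mem_lam_iff W x f).mpr ⟨u, hu, rfl⟩

theorem lam_mono {N N' : ℕ} (h : N ≤ N') : lam R W x f N ≤ lam R W x f N' := by
  intro y hy
  obtain ⟨u, hu, rfl⟩ := (mem_lam_iff W x f).mp hy
  exact ev_mem_lam W x f (hu.trans h)

/-- Products: `Λ_{N₁} · Λ_{N₂} ⊆ Λ_{N₁ + N₂}`. -/
theorem mul_mem_lam {P : ι → ι → ι → R[X]} (hP : IsStructConst W P)
    (hmul : ∀ i j, f i * f j = ∑ l, aeval x (P i j l) * f l) {N₁ N₂ : ℕ} {y y' : L}
    (hy : y ∈ lam R W x f N₁) (hy' : y' ∈ lam R W x f N₂) :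
    y * y' ∈ lam R W x f (N₁ + N₂) := by
  obtain ⟨u, hu, rfl⟩ := (mem_lam_iff W x f).mp hy
  obtain ⟨u', hu', rfl⟩ := (mem_lam_iff W x f).mp hy'
  rw [ev_mul_ev x f hmul]
  exact ev_mem_lam W x f ((hP.wdeg_star_le W u u').trans (Nat.add_le_add hu hu'))

variable {x f}

theorem linearIndependent_mono (hindep : ∀ u : ι → R[X], ev x f u = 0 → u = 0) (N : ℕ) :
    LinearIndependent R (fun s : idx W N => mono x f s.1) := by
  rw [Fintype.linearIndependent_iff]
  intro c hc s
  rw [← ev_ofCoord] at hc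
  have h0 := hindep _ hc
  have := coordOf_ofCoord W c
  rw [h0] at this
  rw [← this]
  simp [coordOf]

/-- The monomial basis of `Λ_N`. -/
noncomputable def frameBasis (hindep : ∀ u : ι → R[X], ev x f u = 0 → u = 0) (N : ℕ) :
    Module.Basis (idx W N) R (lam R W x f N) :=
  Module.Basis.span (linearIndependent_mono W hindep N)

theorem frameBasis_apply (hindep : ∀ u : ι → R[X], ev x f u = 0 → u = 0) (N : ℕ)
    (s : idx W N) : ((frameBasis W hindep N s : lam R W x f N) : L) = mono x f s.1 :=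
  congrArg Subtype.val (Module.Basis.span_apply (linearIndependent_mono W hindep N) s)

/-- Coordinates in the monomial basis are coefficients. -/
theorem frameBasis_repr_ev (hindep : ∀ u : ι → R[X], ev x f u = 0 → u = 0) {N : ℕ}
    {u : ι → R[X]} (hu : W.wdeg u ≤ N) (s : idx W N) :
    (frameBasis W hindep N).repr ⟨ev x f u, ev_mem_lam W x f hu⟩ s = (u s.1.1).coeff s.1.2 := by
  have h1 : (⟨ev x f u, ev_mem_lam W x f hu⟩ : lam R W x f N) =
      ∑ t : idx W N, (coordOf W u t) • frameBasis W hindep N t := by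
    apply Subtype.ext
    rw [Submodule.coe_sum]
    simp only [Submodule.coe_smul, frameBasis_apply]
    rw [← ev_ofCoord, ofCoord_coordOf W hu]
  rw [h1, Module.Basis.repr_sum_self]
  rfl

theorem card_idx_eq_finrank [Nontrivial R] [StrongRankCondition R]
    (hindep : ∀ u : ι → R[X], ev x f u = 0 → u = 0) (N : ℕ) :
    (idx W N).card = Module.finrank R (lam R W x f N) := by
  rw [Module.finrank_eq_card_basis (frameBasis W hindep N), Fintype.card_coe]

end generic

/-! ### The integral model and its reduction -/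

section apery

variable {K : Type*} [Field K] {A : ValuationSubring K} {F : Type*} [Field F] [Algebra K F]
  (D : AperyData A F ι)

theorem lam_le_O {N : ℕ} {y : F} (hy : y ∈ lam A D.W D.x D.f N) : y ∈ D.O := by
  obtain ⟨u, _, rfl⟩ := (mem_lam_iff D.W D.x D.f).mp hy
  exact D.evA_mem u

theorem mul_mem_lamA {N₁ N₂ : ℕ} {y y' : F} (hy : y ∈ lam A D.W D.x D.f N₁)
    (hy' : y' ∈ lam A D.W D.x D.f N₂) : y * y' ∈ lam A D.W D.x D.f (N₁ + N₂) :=
  mul_mem_lam D.W D.x D.f D.sc D.mul hy hy'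

theorem indepA (u : ι → A[X]) (h : ev D.x D.f u = 0) : u = 0 := D.evA_eq_zero h

theorem mono_mem_O (s : ι × ℕ) : mono D.x D.f s ∈ D.O :=
  mul_mem (pow_mem D.x_mem _) (D.f_mem _)

theorem res_mono (s : ι × ℕ) : D.res ⟨mono D.x D.f s, mono_mem_O D s⟩ = mono D.xb D.fb s := by
  have h1 : (⟨mono D.x D.f s, mono_mem_O D s⟩ : D.O) = D.xO ^ s.2 * D.fO s.1 := by
    apply Subtype.ext
    rfl
  rw [h1, map_mul, map_pow]
  rfl

variable {k : Type*} [Field k] [Algebra k D.κ] {π : A →+* k} (hc : D.Compat π)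
include hc

/-- The residue of an element of `Λ_N` lies in `Λ̄_N`. -/
theorem res_mem_lam {N : ℕ} {y : F} (hy : y ∈ lam A D.W D.x D.f N) :
    D.res ⟨y, lam_le_O D hy⟩ ∈ lam k D.W D.xb D.fb N := by
  obtain ⟨u, hu, rfl⟩ := (mem_lam_iff D.W D.x D.f).mp hy
  have h1 : (⟨ev D.x D.f u, lam_le_O D hy⟩ : D.O) = ⟨ev D.x D.f u, D.evA_mem u⟩ := rfl
  rw [h1, D.res_ev hc]
  exact ev_mem_lam D.W D.xb D.fb ((D.W.wdeg_map_le π u).trans hu)

variable (hπ : Function.Surjective π)
include hπ

/-- The residue map sends `Λ_N` onto `Λ̄_N`. -/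
theorem res_lam_surjective {N : ℕ} {yb : D.κ} (hyb : yb ∈ lam k D.W D.xb D.fb N) :
    ∃ (y : F) (hy : y ∈ lam A D.W D.x D.f N), D.res ⟨y, lam_le_O D hy⟩ = yb := by
  obtain ⟨ub, hub, rfl⟩ := (mem_lam_iff D.W D.xb D.fb).mp hyb
  obtain ⟨u, hmap, -, -, hw⟩ := D.exists_lift hπ ub
  have hu : D.W.wdeg u ≤ N := hw ▸ hub
  refine ⟨ev D.x D.f u, ev_mem_lam D.W D.x D.f hu, ?_⟩
  have h1 : (⟨ev D.x D.f u, lam_le_O D (ev_mem_lam D.W D.x D.f hu)⟩ : D.O) =
      ⟨ev D.x D.f u, D.evA_mem u⟩ := rfl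
  rw [h1, D.res_ev hc, hmap]

theorem indepk (ub : ι → k[X]) (h : ev D.xb D.fb ub = 0) : ub = 0 := D.indepb hc hπ ub h

/-- **Coordinates reduce**: the monomial coordinates of `res y` are the residues of the monomial
coordinates of `y`. -/
theorem repr_res {N : ℕ} {y : F} (hy : y ∈ lam A D.W D.x D.f N) (s : idx D.W N) :
    (frameBasis D.W (indepk D hc hπ) N).repr ⟨D.res ⟨y, lam_le_O D hy⟩, res_mem_lam D hc hy⟩ s =
      π ((frameBasis D.W (indepA D) N).repr ⟨y, hy⟩ s) := by
  obtain ⟨u, hu, rfl⟩ := (mem_lam_iff D.W D.x D.f).mp hy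
  have hub : D.W.wdeg (fun i => (u i).map π) ≤ N := (D.W.wdeg_map_le π u).trans hu
  have h1 : (⟨D.res ⟨ev D.x D.f u, lam_le_O D hy⟩, res_mem_lam D hc hy⟩ :
      lam k D.W D.xb D.fb N) =
      ⟨ev D.xb D.fb (fun i => (u i).map π), ev_mem_lam D.W D.xb D.fb hub⟩ := by
    apply Subtype.ext
    have h2 : (⟨ev D.x D.f u, lam_le_O D hy⟩ : D.O) = ⟨ev D.x D.f u, D.evA_mem u⟩ := rfl
    show D.res ⟨ev D.x D.f u, lam_le_O D hy⟩ = _
    rw [h2, D.res_ev hc]
  rw [h1, frameBasis_repr_ev D.W (indepk D hc hπ) hub s]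
  have h3 : (⟨ev D.x D.f u, hy⟩ : lam A D.W D.x D.f N) =
      ⟨ev D.x D.f u, ev_mem_lam D.W D.x D.f hu⟩ := rfl
  rw [h3, frameBasis_repr_ev D.W (indepA D) hu s, coeff_map]

/-- The residue of the monomial basis of `Λ_N` is the monomial basis of `Λ̄_N`. -/
theorem res_frameBasis (N : ℕ) (s : idx D.W N) :
    D.res ⟨(frameBasis D.W (indepA D) N s : lam A D.W D.x D.f N),
      lam_le_O D (frameBasis D.W (indepA D) N s).2⟩ =
      (frameBasis D.W (indepk D hc hπ) N s : lam k D.W D.xb D.fb N) := by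
  have h1 : (⟨(frameBasis D.W (indepA D) N s : lam A D.W D.x D.f N),
      lam_le_O D (frameBasis D.W (indepA D) N s).2⟩ : D.O) =
      ⟨mono D.x D.f s.1, mono_mem_O D s.1⟩ := by
    apply Subtype.ext
    exact frameBasis_apply D.W (indepA D) N s
  rw [h1, res_mono, frameBasis_apply]

/-- The dimension count: `Λ_N` and `Λ̄_N` have the same rank. -/
theorem finrank_lam_eq (N : ℕ) :
    Module.finrank k (lam k D.W D.xb D.fb N) = Module.finrank A (lam A D.W D.x D.f N) := by
  rw [← card_idx_eq_finrank D.W (indepk D hc hπ) N, ← card_idx_eq_finrank D.W (indepA D) N]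

end apery

end Fermat.Agent.S27x.Lift.Frame
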