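import Fermat.Agent.S27x.Lift.Solve
import Fermat.Agent.S27x.Lift.LiftProp

/-!
# P-S27, block D7: `SolveProp` from the frame-level Hensel statement
-/

set_option autoImplicit false
set_option linter.unusedSectionVars false
set_option linter.style.haveILetI false

noncomputable section

open AlgebraicCurve Polynomial Module IsLocalRing

namespace Fermat.Agent.S27x.Lift.SolveFinal

open Fermat.Agent.S27x.Spec.GaussNorm Fermat.Agent.S27x.Spec

universe u v

/-- The frame-level Hensel statement for all integral Apéry models over valuation subrings of
algebraically closed fields. -/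
def FrameHenselProp : Prop :=
  ∀ (K : Type u) [Field K] [IsAlgClosed K] (A : ValuationSubring K)
    (F : Type v) [Field F] [Algebra K F] (ι : Type) [Fintype ι] [DecidableEq ι]
    (D : AperyData A F ι) (k : Type u) [Field k] [Algebra k D.κ]
    (π : A →+* k) (_hc : D.Compat π) (_hπ : Function.Surjective π) (n : ℕ),
    Solve.FrameHensel D (π := π) n

/-- **Block D7, front half**: the lifting hypothesis holds for every good model. -/
theorem solveProp_of_frameHensel (h : FrameHenselProp.{u, v}) : LiftProp.SolveProp.{u, v} := by
  intro K _ _ _ A F _ _ ι _ D hcard k _ _ _ _ π hc hπ hr hne hB hB' hN n hn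
  classical
  exact Solve.liftHyp_of_frameHensel D hc hπ hr hne hcard hN.tnorm hn (h K A F ι D k π hc hπ n)

end Fermat.Agent.S27x.Lift.SolveFinal
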