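import Fermat.Agent.S27x.Lift.FrameSolve
import Fermat.Agent.S27x.Lift.SolveFinal
import Fermat.Agent.S27x.Spec.HenselRoots

/-!
# P-S27, block D7: `SolveFinal.FrameHenselProp` from `FrameSolve.exists_lift_frame`

The normalised kernel hypothesis of `Solve.FrameHensel` implies the kernel hypothesis of
`FrameSolve.exists_lift_frame`, so the latter gives the former.
-/

set_option autoImplicit false
set_option linter.unusedSectionVars false

namespace Fermat.Agent.S27x.Lift.FrameHenselAdapter

open Polynomial Fermat.Agent.S27x.Spec.GaussNorm Fermat.Agent.S27x.Lift.Frame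

universe u v

/-- **The frame-level Hensel statement.** -/
theorem frameHensel {K : Type*} [Field K] {A : ValuationSubring K} [HenselianLocalRing A]
    {F : Type*} [Field F] [Algebra K F] {ι : Type*} [Fintype ι] [DecidableEq ι]
    (D : AperyData A F ι) {k : Type*} [Field k] [Algebra k D.κ] {π : A →+* k}
    (hc : D.Compat π) (hπ : Function.Surjective π) (n : ℕ) :
    Solve.FrameHensel D (π := π) n := by
  intro N₁ N₂ g e hcard z hz Rfix _ hdeg ub ub' hub hub' Rvarb hRm hRd hres hub0 hker
  obtain ⟨u, u', hu, hu', Rvar, h1, h2, h3, h4, h5, h6⟩ :=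
    FrameSolve.exists_lift_frame D hc hπ (N1 := N₁) (N2 := N₂) (g := g) (n := n) (e := e)
      (by omega) hz Rfix (by rw [← Nat.mul_assoc]; exact hdeg) rfl hub hub' hub0 Rvarb hRm hRd hres
      (by
        intro v v' dR hv hv' hdR heq
        constructor
        · by_contra h
          have hnz : ∀ c : k, v = c • ub → c = 0 := fun c hcv => absurd ⟨c, hcv⟩ h
          have hv0 := (hker v hv v' hv' dR hdR hnz heq).1
          exact h ⟨0, by rw [hv0, zero_smul]⟩
        · intro hv0
          subst hv0
          have hnz : ∀ c : k, (0 : D.κ) = c • ub → c = 0 := by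
            intro c hcv
            rcases smul_eq_zero.mp hcv.symm with h | h
            · exact h
            · exact absurd h hub0
          obtain ⟨-, hv', hdR'⟩ := hker 0 (Submodule.zero_mem _) v' hv' dR hdR hnz heq
          exact ⟨hdR', hv'⟩)
  exact ⟨u, hu, u', hu', Rvar, h1, h2, h3, h4, h5, h6⟩

/-- **The only missing piece of block D7.** -/
theorem frameHenselProp : SolveFinal.FrameHenselProp.{u, v} := by
  intro K _ _ A F _ _ ι _ _ D k _ _ π hc hπ n
  exact frameHensel D hc hπ n

end Fermat.Agent.S27x.Lift.FrameHenselAdapter
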