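import Fermat.Agent.S27x.Lift.FrameSolve
import Fermat.Agent.S27x.Lift.SolveFinal

/-!
# P-S27 block D7: the frame-level Hensel statement `FrameHenselProp` (helper27)

`frameHenselProp : SolveFinal.FrameHenselProp` = `FrameSolve.exists_lift_frame_of_normalised`
in the shape of `Solve.FrameHensel`, for all integral Apéry models over valuation subrings of
algebraically closed fields (`HenselianLocalRing ↥A` by
`Spec.HenselRoots.instHenselianLocalRingValuationSubring`).
-/

set_option autoImplicit false
set_option linter.unusedSectionVars false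

noncomputable section

namespace Fermat.Agent.S27x.Lift.FrameSolve

open Polynomial Fermat.Agent.S27x.Spec.GaussNorm Fermat.Agent.S27x.Lift.Frame

universe u v

/-- The frame-level Hensel statement for one model, in the shape of `Solve.FrameHensel`. -/
theorem frameHensel {K : Type u} [Field K] [IsAlgClosed K] {A : ValuationSubring K}
    {F : Type v} [Field F] [Algebra K F] {ι : Type*} [Fintype ι] [DecidableEq ι]
    (D : AperyData A F ι) {k : Type*} [Field k] [Algebra k D.κ] {π : A →+* k}
    (hc : D.Compat π) (hπ : Function.Surjective π) [HenselianLocalRing A] (n : ℕ) :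
    Solve.FrameHensel D (π := π) n := by
  intro N₁ N₂ g e hcard z hz Rfix _ hdeg ub ub' hub hub' Rvarb hRm hRd hres hub0 hker
  obtain ⟨u, u', hu, hu', Rvar, h1, h2, h3, h4, h5, h6⟩ :=
    exists_lift_frame_of_normalised D hc hπ (N1 := N₁) (N2 := N₂) (g := g) (n := n) (e := e)
      (by omega) hz Rfix (by rw [← mul_assoc]; exact hdeg) rfl hub hub' hub0 Rvarb hRm hRd hres
      (fun v v' dR hv hv' hd hnorm heq => hker v hv v' hv' dR hd hnorm heq)
  exact ⟨u, hu, u', hu', Rvar, h1, h2, h3, h4, h5, h6⟩

/-- **The last missing piece of block D7.** -/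
theorem frameHenselProp : SolveFinal.FrameHenselProp.{u, v} := by
  intro K _ _ A F _ _ ι _ _ D k _ _ π hc hπ n
  exact frameHensel D hc hπ n

end Fermat.Agent.S27x.Lift.FrameSolve
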