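import Fermat.Agent.S27x.Lift.Frame
import Fermat.Agent.S27x.Spec.GaussNorm.ModelPole
import Fermat.Agent.S27x.Spec.AperyModel

/-!
# P-S27 block D7: the frame `Λ_N ⊗ K` is the Riemann–Roch space `L(N·P)`

For a weighted model whose place at infinity `Q` is the unique pole of `x`, with
`ord_Q (ev u) = - wdeg u` and `B = ⊕ k[x] f_i` the integral closure of `k[x]`:
`lam k W x f N = L(N·Q)` (`mem_lam_iff_mem_rrs`, `lam_eq_rrs`).  Instances: the generic fibre
(`ModelAt`, helper32) and any `IsModel` that is integrally closed (`IsModel.lam_eq_rrs`, for the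
special fibre once normality is known).  Count: `#(idx W N) = N + 1 - g` for `2 g ≤ N + 1`.
-/

set_option autoImplicit false
set_option linter.unusedSectionVars false

namespace Fermat.Agent.S27x.Lift.FrameRR

open Polynomial IntermediateField AlgebraicCurve Fermat.Agent.Lib.RiemannRoch
  Fermat.Agent.S27x.Spec.GaussNorm Fermat.Agent.S27x.Spec.AperyRR
  Fermat.Agent.S27x.Spec.AperyModel Fermat.Agent.S27x.Lift.Frame

variable {ι : Type*} [Fintype ι] [DecidableEq ι]

section generic

variable {W : Weights ι} {k L : Type*} [Field k] [Field L] [Algebra k L] [CharZero k]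
  {x : L} {f : ι → L} {i₀ : ι} {P : ι → ι → ι → k[X]}

/-- `Λ_N ⊗ k = L(N·Q)` when `Q` is the unique pole of `x`, `ord_Q (ev u) = - wdeg u` and
`⊕ k[x] f_i` is integrally closed. -/
theorem mem_lam_iff_mem_rrs (M : IsModel W x f i₀ P) (Q : Place k L)
    (hpole : ∀ v : Place k L, v.ord x < 0 ↔ v = Q)
    (hord : ∀ u : ι → k[X], u ≠ 0 → Q.ord (ev x f u) = -(W.wdeg u : ℤ))
    (hnorm : ∀ g : L, IsIntegral (Algebra.adjoin k {x}) g → ∃ u : ι → k[X], g = ev x f u)
    (N : ℕ) (y : L) :
    y ∈ lam k W x f N ↔ y ∈ riemannRochSpace (Finsupp.single Q (N : ℤ)) := by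
  have := M.finiteDimensional
  have : CharZero k⟮x⟯ := charZero_of_injective_algebraMap (algebraMap k k⟮x⟯).injective
  have : Algebra.IsSeparable k⟮x⟯ L := Algebra.IsAlgebraic.isSeparable_of_perfectField
  have hreg : ∀ g : L, g ∈ regularOff Q ↔ IsIntegral (Algebra.adjoin k {x}) g := by
    intro g
    rw [Fermat.Agent.Gateway.GoodRed.PlacesIntegral.isIntegral_iff_forall_ord_nonneg x
      M.transcendental, mem_regularOff_iff_ord]
    have hx' : ∀ v : Place k L, 0 ≤ v.ord x ↔ v ≠ Q := fun v => by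
      rw [← not_lt, hpole v]
    exact ⟨fun h v hv => h v ((hx' v).mp hv), fun h v hv => h v ((hx' v).mpr hv)⟩
  rw [mem_riemannRochSpace_single_iff, mem_lam_iff]
  constructor
  · rintro ⟨u, hu, rfl⟩
    refine ⟨(hreg _).mpr (M.isIntegral_ev u), ?_⟩
    by_cases hu0 : u = 0
    · left
      rw [hu0, ev_zero]
    · right
      rw [hord u hu0]
      have : (W.wdeg u : ℤ) ≤ N := by exact_mod_cast hu
      omega
  · rintro ⟨hy, h2⟩
    obtain ⟨u, rfl⟩ := hnorm y ((hreg y).mp hy)
    by_cases hu0 : u = 0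
    · exact ⟨0, by rw [W.wdeg_zero]; exact Nat.zero_le _, by rw [hu0]⟩
    · refine ⟨u, ?_, rfl⟩
      rcases h2 with h2 | h2
      · exact absurd h2 (M.ev_ne_zero hu0)
      · rw [hord u hu0] at h2
        have : (W.wdeg u : ℤ) ≤ N := by omega
        exact_mod_cast this

theorem lam_eq_rrs (M : IsModel W x f i₀ P) (Q : Place k L)
    (hpole : ∀ v : Place k L, v.ord x < 0 ↔ v = Q)
    (hord : ∀ u : ι → k[X], u ≠ 0 → Q.ord (ev x f u) = -(W.wdeg u : ℤ))
    (hnorm : ∀ g : L, IsIntegral (Algebra.adjoin k {x}) g → ∃ u : ι → k[X], g = ev x f u)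
    (N : ℕ) : lam k W x f N = riemannRochSpace (Finsupp.single Q (N : ℤ)) :=
  Submodule.ext fun y => mem_lam_iff_mem_rrs M Q hpole hord hnorm N y

/-- The count of monomials is the dimension of `L(N·Q)`. -/
theorem card_idx_eq_finrank_rrs (M : IsModel W x f i₀ P) (Q : Place k L)
    (hpole : ∀ v : Place k L, v.ord x < 0 ↔ v = Q)
    (hord : ∀ u : ι → k[X], u ≠ 0 → Q.ord (ev x f u) = -(W.wdeg u : ℤ))
    (hnorm : ∀ g : L, IsIntegral (Algebra.adjoin k {x}) g → ∃ u : ι → k[X], g = ev x f u)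
    (N : ℕ) :
    (idx W N).card = Module.finrank k (riemannRochSpace (Finsupp.single Q (N : ℤ))) := by
  rw [← lam_eq_rrs M Q hpole hord hnorm N]
  exact card_idx_eq_finrank W M.indep N

/-- The integrally closed case with the place at infinity of the model. -/
theorem _root_.Fermat.Agent.S27x.Spec.GaussNorm.IsModel.lam_eq_rrs (M : IsModel W x f i₀ P)
    (hcard : Fintype.card ι = W.d)
    (hnorm : ∀ g : L, IsIntegral (Algebra.adjoin k {x}) g → ∃ u : ι → k[X], g = ev x f u)
    (N : ℕ) : lam k W x f N = riemannRochSpace (Finsupp.single M.inftyPlace (N : ℤ)) :=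
  Fermat.Agent.S27x.Lift.FrameRR.lam_eq_rrs M M.inftyPlace (M.pole_iff hcard) (fun _ hu => M.ord_inftyPlace_ev hcard hu) hnorm N

end generic

section ticket

variable {K F : Type*} [Field K] [Field F] [Algebra K F] [IsAlgClosed K] [CharZero K]
  {x₀ : F} (hx₀ : Transcendental K x₀) [FiniteDimensional K⟮x₀⟯ F]

omit [IsAlgClosed K] in
/-- The generic fibre: `Λ_N ⊗ K = L(N·P)`. -/
theorem lam_eq_rrs_modelAt {P : Place K F} {d : ℕ} (M : ModelAt P d) (N : ℕ) :
    lam K M.W M.x M.f N = riemannRochSpace (Finsupp.single P (N : ℤ)) :=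
  lam_eq_rrs M.model P M.pole_iff M.ord_ev (fun g hg => (M.integral_iff g).mp hg) N

include hx₀ in
/-- **The count**: `#{(i, a) | d a + m_i ≤ N} = N + 1 - g` for `2 g ≤ N + 1`. -/
theorem card_idx_modelAt {P : Place K F} {d : ℕ} (M : ModelAt P d) {N : ℕ}
    (hN : 2 * genusFF K F ≤ N + 1) :
    ((idx M.W N).card : ℤ) = N + 1 - genusFF K F := by
  rw [card_idx_eq_finrank M.W M.model.indep N, lam_eq_rrs_modelAt M N]
  exact ellP_eq_of_le hx₀ P hN

end ticket

end Fermat.Agent.S27x.Lift.FrameRR
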