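import Mathlib

/-!
# P-S27 block D7: the Norm system, abstract algebra (helper27)

Mathlib only.  `R` any commutative ring, `δ q g : ℕ`.

* `Data R δ q g` : matrices `M j : Matrix (Fin δ) (Fin δ) R[X]` (`j : Fin q`; in the application
  the matrices of multiplication by the basis elements `e j` of the lattice
  `Λ = L(n m' P) ∩ O` on the free `R[z]`-module `B_A`), a fixed factor `Rfix : R[X]`, an exponent
  `n` and the index `j0` of the normalised coordinate.
* `Idx q g := Fin (q + g) ⊕ Unit` indexes unknowns AND equations; the unknowns are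
  `a j = x (aIdx j)` (`j : Fin q`), `r l = x (rIdx l)` (`l : Fin g`), `c = x cIdx`.
* `D.F x = det (∑ j, C (a j) • M j) - C c * Rfix ^ n * (X ^ g + ∑ l, C (r l) * X ^ l) ^ n`.
* `D.G : Idx q g → MvPolynomial (Idx q g) R` : the coefficients `0 … q + g - 1` of the generic `F`
  and the normalisation `a j0 - 1`;  `D.IsSol x ↔ ∀ j, eval x (D.G j) = 0`
  (`forall_eval_G_eq_zero_iff`), where
  `D.IsSol x := (∀ i : Fin (q + g), (D.F x).coeff i = 0) ∧ x (aIdx D.j0) = 1`.
* base change: `Data.map`, `F_map`, `G_map`, `eval₂_G_inl`.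
* derivative: `D.dF x w = tr (adj (mat a) * mat v) - (C ċ * Rfix^n * rvar^n
  + C c * Rfix^n * (n * rvar^(n-1) * rdot ṙ))` and, over a field with `det (mat a) ≠ 0`,
  `sum_pderiv_G_inl : ∑ l, w l * eval x (pderiv l (G (inl i))) = (dF x w).coeff i`.
* `jacobian_det_ne_zero`, `jacobian_det_ne_zero'` : if `dF x w = 0` and `w (aIdx j0) = 0` force
  `w = 0` (plus degree bounds), the Jacobian determinant of the system at `x` is nonzero.
* tools: `eval₂_add_of_mul_eq_zero` (first-order Taylor expansion of a multivariate polynomial),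
  `dualMap`, `det_map_inl_add_map_inr` (`det (P + ε Q) = det P + ε tr (adj P * Q)` over the dual
  numbers of a domain, `det P ≠ 0`), `inl_add_inr_pow`.
-/

set_option autoImplicit false
set_option linter.unusedSectionVars false
set_option linter.unnecessarySimpa false

noncomputable section

namespace Fermat.Agent.S27x.Lift.NormSystem

open Polynomial Matrix

section Taylor

variable {R T ι : Type*} [CommRing R] [CommRing T] [Fintype ι] [DecidableEq ι]

/-- First-order Taylor expansion of a multivariate polynomial. -/
theorem eval₂_add_of_mul_eq_zero (φ : R →+* T) (x y : ι → T) (hy : ∀ i j, y i * y j = 0)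
    (p : MvPolynomial ι R) :
    MvPolynomial.eval₂ φ (x + y) p =
      MvPolynomial.eval₂ φ x p + ∑ i, y i * MvPolynomial.eval₂ φ x (MvPolynomial.pderiv i p) := by
  induction p using MvPolynomial.induction_on with
  | C a => simp
  | add p q hp hq =>
    simp only [MvPolynomial.eval₂_add, map_add, hp, hq, mul_add, Finset.sum_add_distrib]
    ring
  | mul_X p j hp =>
    simp only [MvPolynomial.eval₂_mul, MvPolynomial.eval₂_X, hp, Pi.add_apply,
      Derivation.leibniz, MvPolynomial.pderiv_X, smul_eq_mul, MvPolynomial.eval₂_add]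
    have h1 : ∀ i, y i * (MvPolynomial.eval₂ φ x p * MvPolynomial.eval₂ φ x
        (Pi.single (M := fun _ => MvPolynomial ι R) i 1 j) +
        x j * MvPolynomial.eval₂ φ x (MvPolynomial.pderiv i p)) =
        (if i = j then y j * MvPolynomial.eval₂ φ x p else 0) +
          y i * MvPolynomial.eval₂ φ x (MvPolynomial.pderiv i p) * x j := by
      intro i
      by_cases hij : i = j
      · subst hij
        simp only [Pi.single_eq_same, MvPolynomial.eval₂_one, if_true]
        ring
      · rw [Pi.single_eq_of_ne (Ne.symm hij)]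
        simp only [MvPolynomial.eval₂_zero, if_neg hij]
        ring
    simp only [h1, Finset.sum_add_distrib, Finset.sum_ite_eq', Finset.mem_univ, if_true]
    have h2 : (∑ i, y i * MvPolynomial.eval₂ φ x (MvPolynomial.pderiv i p)) * y j = 0 := by
      rw [Finset.sum_mul]
      refine Finset.sum_eq_zero fun i _ => ?_
      rw [mul_right_comm, hy i j, zero_mul]
    rw [← Finset.sum_mul]
    linear_combination h2

end Taylor

open TrivSqZeroExt

section DualMap
variable {A B : Type*} [CommRing A] [CommRing B]

def dualMap (φ : A →+* B) : DualNumber A →+* DualNumber B where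
  toFun x := inl (φ x.fst) + inr (φ x.snd)
  map_one' := by ext <;> simp
  map_mul' x y := by ext <;> simp [mul_comm]
  map_zero' := by ext <;> simp
  map_add' x y := by ext <;> simp

@[simp] theorem fst_dualMap (φ : A →+* B) (x : DualNumber A) : (dualMap φ x).fst = φ x.fst := by
  simp [dualMap]

@[simp] theorem snd_dualMap (φ : A →+* B) (x : DualNumber A) : (dualMap φ x).snd = φ x.snd := by
  simp [dualMap]

theorem dualMap_inl (φ : A →+* B) (a : A) : dualMap φ (inl a) = inl (φ a) := by
  ext <;> simp

theorem dualMap_inr (φ : A →+* B) (a : A) : dualMap φ (inr a) = inr (φ a) := by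
  ext <;> simp

theorem dualMap_injective {φ : A →+* B} (hφ : Function.Injective φ) :
    Function.Injective (dualMap φ) := by
  intro x y h
  ext
  · exact hφ (by simpa using congrArg TrivSqZeroExt.fst h)
  · exact hφ (by simpa using congrArg TrivSqZeroExt.snd h)

end DualMap

section DetDual
variable {L : Type*} [CommRing L] {m : Type*} [Fintype m] [DecidableEq m]

theorem map_inl_mul_map_inr (P N : Matrix m m L) :
    P.map (inl : L → DualNumber L) * N.map (inr : L → DualNumber L)
      = (P * N).map (inr : L → DualNumber L) := by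
  refine Matrix.ext fun i j => ?_
  simp only [Matrix.mul_apply, Matrix.map_apply]
  have : ∀ k, (inl (P i k) : DualNumber L) * inr (N k j) = inr (P i k * N k j) := by
    intro k
    rw [inl_mul_inr, smul_eq_mul]
  simp only [this]
  exact (map_sum (inrHom L L) _ _).symm

theorem det_one_add_map_inr (N : Matrix m m L) :
    (1 + N.map (inr : L → DualNumber L)).det = 1 + inr N.trace := by
  have h1 : N.map (inr : L → DualNumber L)
      = (DualNumber.eps : DualNumber L) • N.map (inl : L → DualNumber L) := by
    refine Matrix.ext fun i j => ?_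
    simp only [Matrix.map_apply, Matrix.smul_apply, smul_eq_mul]
    rw [DualNumber.inr_eq_smul_eps, mul_comm, ← TrivSqZeroExt.inl_mul_eq_smul]
  rw [h1, Matrix.det_one_add_smul, pow_two, DualNumber.eps_mul_eps, mul_zero, add_zero]
  congr 1
  have h2 : (N.map (inl : L → DualNumber L)).trace = inl N.trace := by
    simp only [Matrix.trace, Matrix.diag_apply, Matrix.map_apply]
    exact (map_sum (inlHom L L) _ _).symm
  rw [h2, DualNumber.inr_eq_smul_eps, ← TrivSqZeroExt.inl_mul_eq_smul]

theorem det_map_inl_add_map_inr_of_isUnit (P Q : Matrix m m L) (hP : IsUnit P.det) :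
    (P.map (inl : L → DualNumber L) + Q.map (inr : L → DualNumber L)).det
      = inl P.det + inr (P.adjugate * Q).trace := by
  have h1 : P.map (inl : L → DualNumber L) + Q.map (inr : L → DualNumber L)
      = P.map (inl : L → DualNumber L) * (1 + (P⁻¹ * Q).map (inr : L → DualNumber L)) := by
    rw [mul_add, mul_one, map_inl_mul_map_inr, ← Matrix.mul_assoc, Matrix.mul_nonsing_inv _ hP,
      Matrix.one_mul]
  rw [h1, Matrix.det_mul, det_one_add_map_inr]
  have h2 : (P.map (inl : L → DualNumber L)).det = inl P.det :=
    ((inlHom L L).map_det P).symm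
  rw [h2, mul_add, mul_one, inl_mul_inr, smul_eq_mul]
  congr 2
  rw [Matrix.nonsing_inv_apply _ hP, Matrix.smul_mul, Matrix.trace_smul, smul_eq_mul,
    ← mul_assoc]
  have : P.det * ((hP.unit⁻¹ : Lˣ) : L) = 1 := by
    have := hP.unit.mul_inv
    simpa using this
  rw [this, one_mul]

theorem det_map_inl_add_map_inr [IsDomain L] (P Q : Matrix m m L) (hP : P.det ≠ 0) :
    (P.map (inl : L → DualNumber L) + Q.map (inr : L → DualNumber L)).det
      = inl P.det + inr (P.adjugate * Q).trace := by
  let ι : L →+* FractionRing L := algebraMap L (FractionRing L)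
  have hι : Function.Injective ι := IsFractionRing.injective L (FractionRing L)
  apply dualMap_injective hι
  rw [RingHom.map_det]
  have h1 : (dualMap ι).mapMatrix (P.map (inl : L → DualNumber L) + Q.map (inr : L → DualNumber L))
      = (ι.mapMatrix P).map (inl : _ → DualNumber (FractionRing L))
        + (ι.mapMatrix Q).map (inr : _ → DualNumber (FractionRing L)) := by
    refine Matrix.ext fun i j => ?_
    simp only [RingHom.mapMatrix_apply, Matrix.map_apply, Matrix.add_apply, map_add,
      dualMap_inl, dualMap_inr]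
  rw [h1, det_map_inl_add_map_inr_of_isUnit, map_add, dualMap_inl, dualMap_inr]
  · congr 2
    · exact (RingHom.map_det ι P).symm
    · rw [← RingHom.map_adjugate, ← map_mul]
      simp only [RingHom.mapMatrix_apply]
      rw [Matrix.trace, Matrix.trace]
      simp only [Matrix.diag_apply, Matrix.map_apply, map_sum]
  · rw [← RingHom.map_det]
    exact ((map_ne_zero_iff ι hι).mpr hP).isUnit
end DetDual

section System

variable {R S : Type*} [CommRing R] [CommRing S] {δ q g : ℕ}

/-- Index type for unknowns and for equations: `q + g` coordinates/coefficients plus one. -/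
abbrev Idx (q g : ℕ) : Type := Fin (q + g) ⊕ Unit

/-- index of the `j`-th coordinate of `u`. -/
def aIdx (j : Fin q) : Idx q g := Sum.inl (Fin.castAdd g j)

/-- index of the `l`-th coefficient of `R_var`. -/
def rIdx (l : Fin g) : Idx q g := Sum.inl (Fin.natAdd q l)

/-- index of the constant `c`. -/
def cIdx : Idx q g := Sum.inr ()

/-- The data of a Norm system: multiplication matrices `M j` of the basis elements `e j` of the
lattice over `R[z]`, the fixed factor `Rfix`, the exponent `n` and the normalised coordinate. -/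
structure Data (R : Type*) [CommRing R] (δ q g : ℕ) where
  M : Fin q → Matrix (Fin δ) (Fin δ) R[X]
  Rfix : R[X]
  n : ℕ
  j0 : Fin q

namespace Data

variable (D : Data R δ q g)

/-- base change of the data. -/
def map (φ : R →+* S) : Data S δ q g where
  M j := (D.M j).map (Polynomial.map φ)
  Rfix := D.Rfix.map φ
  n := D.n
  j0 := D.j0

/-- the matrix of `u = ∑ a_j e_j`. -/
def mat (a : Fin q → R) : Matrix (Fin δ) (Fin δ) R[X] := ∑ j, C (a j) • D.M j

theorem mat_map (φ : R →+* S) (a : Fin q → R) :
    (D.mat a).map (Polynomial.map φ) = (D.map φ).mat (φ ∘ a) := by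
  refine Matrix.ext fun i k => ?_
  simp only [mat, map, Matrix.map_apply, Matrix.sum_apply, Matrix.smul_apply, smul_eq_mul,
    Polynomial.map_sum, Polynomial.map_mul, Polynomial.map_C, Function.comp_apply]

end Data

/-- `X^g + ∑ r_l X^l`. -/
def rvar (r : Fin g → R) : R[X] := X ^ g + ∑ l : Fin g, C (r l) * X ^ (l : ℕ)

/-- `∑ r_l X^l`. -/
def rdot (r : Fin g → R) : R[X] := ∑ l : Fin g, C (r l) * X ^ (l : ℕ)

theorem rvar_map (φ : R →+* S) (r : Fin g → R) : (rvar r).map φ = rvar (φ ∘ r) := by
  simp only [rvar, Polynomial.map_add, Polynomial.map_pow, Polynomial.map_X, Polynomial.map_sum,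
    Polynomial.map_mul, Polynomial.map_C, Function.comp_apply]

/-- The polynomial `Norm(u)(T) - c * Rfix^n * Rvar^n` at the point `x = (a, r, c)`. -/
def Data.F (D : Data R δ q g) (x : Idx q g → R) : R[X] :=
  (D.mat fun j => x (aIdx j)).det -
    C (x cIdx) * D.Rfix ^ D.n * rvar (fun l => x (rIdx l)) ^ D.n

theorem Data.F_map (D : Data R δ q g) (φ : R →+* S) (x : Idx q g → R) :
    (D.F x).map φ = (D.map φ).F (φ ∘ x) := by
  unfold Data.F
  rw [Polynomial.map_sub, Polynomial.map_mul, Polynomial.map_mul, Polynomial.map_pow,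
    Polynomial.map_pow, Polynomial.map_C, rvar_map]
  congr 1
  rw [← Polynomial.coe_mapRingHom, RingHom.map_det, RingHom.mapMatrix_apply,
    Polynomial.coe_mapRingHom, Data.mat_map]
  rfl

end System

section Generic

variable {R S : Type*} [CommRing R] [CommRing S] {δ q g : ℕ}

theorem Data.map_map {U : Type*} [CommRing U] (D : Data R δ q g) (φ : R →+* S) (ψ : S →+* U) :
    (D.map φ).map ψ = D.map (ψ.comp φ) := by
  unfold Data.map
  simp only [Matrix.map_map, Polynomial.map_map]
  congr 1
  funext j
  congr 1
  funext p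
  simp only [Function.comp_apply, Polynomial.map_map]

/-- The generic polynomial `Norm(u)(T) - c * Rfix^n * Rvar^n` over the polynomial ring in the
unknowns. -/
def Data.gen (D : Data R δ q g) : (MvPolynomial (Idx q g) R)[X] :=
  (D.map (MvPolynomial.C : R →+* MvPolynomial (Idx q g) R)).F MvPolynomial.X

/-- The square polynomial system: the coefficients `T^0, …, T^(q+g-1)` of the generic polynomial
and the normalisation `a_{j0} = 1`. -/
def Data.G (D : Data R δ q g) : Idx q g → MvPolynomial (Idx q g) R
  | Sum.inl i => D.gen.coeff i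
  | Sum.inr _ => MvPolynomial.X (aIdx D.j0) - 1

theorem Data.gen_map (D : Data R δ q g) (φ : R →+* S) (x : Idx q g → S) :
    D.gen.map (MvPolynomial.eval₂Hom φ x) = (D.map φ).F x := by
  unfold Data.gen
  rw [Data.F_map, Data.map_map]
  have h1 : (MvPolynomial.eval₂Hom φ x).comp (MvPolynomial.C : R →+* MvPolynomial (Idx q g) R)
      = φ := by
    ext a
    simp
  have h2 : (MvPolynomial.eval₂Hom φ x) ∘ (MvPolynomial.X : Idx q g → MvPolynomial (Idx q g) R)
      = x := by
    funext i
    simp
  rw [h1, h2]

theorem Data.eval₂_G_inl (D : Data R δ q g) (φ : R →+* S) (x : Idx q g → S) (i : Fin (q + g)) :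
    MvPolynomial.eval₂ φ x (D.G (Sum.inl i)) = ((D.map φ).F x).coeff i := by
  rw [← D.gen_map φ x, Polynomial.coeff_map]
  rfl

theorem Data.eval₂_G_inr (D : Data R δ q g) (φ : R →+* S) (x : Idx q g → S) (u : Unit) :
    MvPolynomial.eval₂ φ x (D.G (Sum.inr u)) = x (aIdx D.j0) - 1 := by
  simp [Data.G]

/-- `x` solves the system. -/
def Data.IsSol (D : Data R δ q g) (x : Idx q g → R) : Prop :=
  (∀ i : Fin (q + g), (D.F x).coeff i = 0) ∧ x (aIdx D.j0) = 1

theorem Data.map_id (D : Data R δ q g) : D.map (RingHom.id R) = D := by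
  unfold Data.map
  cases D
  simp only [Polynomial.map_id]
  congr 1
  funext j
  refine Matrix.ext fun i k => ?_
  simp only [Matrix.map_apply, Polynomial.map_id]

theorem Data.forall_eval_G_eq_zero_iff (D : Data R δ q g) (x : Idx q g → R) :
    (∀ j, MvPolynomial.eval x (D.G j) = 0) ↔ D.IsSol x := by
  have h := fun i => D.eval₂_G_inl (RingHom.id R) x i
  have h' := fun u => D.eval₂_G_inr (RingHom.id R) x u
  simp only [Data.map_id] at h
  constructor
  · intro hx
    refine ⟨fun i => ?_, ?_⟩
    · rw [← h i]; exact hx (Sum.inl i)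
    · have := hx (Sum.inr ())
      rw [MvPolynomial.eval, MvPolynomial.coe_eval₂Hom, h' ()] at this
      exact sub_eq_zero.mp this
  · rintro ⟨h1, h2⟩ (i | u)
    · rw [MvPolynomial.eval, MvPolynomial.coe_eval₂Hom, h i]; exact h1 i
    · rw [MvPolynomial.eval, MvPolynomial.coe_eval₂Hom, h' u, h2, sub_self]

end Generic


section Theta
variable {k ι : Type*} [CommRing k] [Fintype ι] [DecidableEq ι]

/-- evaluation at `x + ε w` with values in the dual numbers over `k[X]`. -/
noncomputable def theta (x w : ι → k) : MvPolynomial ι k →+* DualNumber k[X] :=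
  MvPolynomial.eval₂Hom ((inlHom k[X] k[X]).comp (C : k →+* k[X]))
    (fun l => inl (C (x l)) + inr (C (w l)))

theorem theta_apply (x w : ι → k) (p : MvPolynomial ι k) :
    theta x w p = inl (C (MvPolynomial.eval x p)) +
      inr (C (∑ l, w l * MvPolynomial.eval x (MvPolynomial.pderiv l p))) := by
  have h := eval₂_add_of_mul_eq_zero ((inlHom k[X] k[X]).comp (C : k →+* k[X]))
    (fun l => inl (C (x l))) (fun l => inr (C (w l)))
    (fun i j => TrivSqZeroExt.inr_mul_inr _ _ _) p
  have h0 : ∀ p : MvPolynomial ι k,
      MvPolynomial.eval₂ ((inlHom k[X] k[X]).comp (C : k →+* k[X])) (fun l => inl (C (x l))) p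
        = inl (C (MvPolynomial.eval x p)) := by
    intro p
    have := MvPolynomial.eval₂_comp_left ((inlHom k[X] k[X]).comp (C : k →+* k[X]))
      (RingHom.id k) x p
    simp only [RingHom.comp_id, Function.comp_def, RingHom.coe_comp, inlHom_apply] at this
    rw [← this]
    rfl
  have : theta x w p = MvPolynomial.eval₂ ((inlHom k[X] k[X]).comp (C : k →+* k[X]))
      ((fun l => inl (C (x l))) + fun l => inr (C (w l))) p := rfl
  rw [this, h, h0]
  congr 1
  simp only [h0]
  have h1 : ∀ l, (inr (C (w l)) : DualNumber k[X]) *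
      inl (C (MvPolynomial.eval x (MvPolynomial.pderiv l p)))
      = inrHom k[X] k[X] (C (w l * MvPolynomial.eval x (MvPolynomial.pderiv l p))) := by
    intro l
    rw [mul_comm, inl_mul_inr, smul_eq_mul, mul_comm, ← C_mul]
    rfl
  simp only [h1]
  rw [← map_sum (inrHom k[X] k[X]), ← map_sum]
  rfl
end Theta
section Theta2
variable {k ι : Type*} [CommRing k] [Fintype ι] [DecidableEq ι]

/-- evaluation of a polynomial with coefficients in `MvPolynomial ι k` at `x + ε w`. -/
noncomputable def Theta (x w : ι → k) : (MvPolynomial ι k)[X] →+* DualNumber k[X] :=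
  Polynomial.eval₂RingHom (theta x w) (inl X)

theorem Theta_C (x w : ι → k) (p : MvPolynomial ι k) : Theta x w (C p) = theta x w p := by
  simp [Theta]

theorem Theta_X (x w : ι → k) : Theta x w (X : (MvPolynomial ι k)[X]) = inl X := by
  simp [Theta]

theorem Theta_map_C (x w : ι → k) (p : k[X]) :
    Theta x w (p.map (MvPolynomial.C : k →+* MvPolynomial ι k)) = inl p := by
  have : (Theta x w).comp (Polynomial.mapRingHom (MvPolynomial.C : k →+* MvPolynomial ι k))
      = inlHom k[X] k[X] := by
    refine Polynomial.ringHom_ext (fun a => ?_) ?_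
    · simp only [RingHom.coe_comp, Function.comp_apply, Polynomial.coe_mapRingHom,
        Polynomial.map_C, Theta_C, theta_apply, MvPolynomial.eval_C, map_zero,
        MvPolynomial.pderiv_C, mul_zero, Finset.sum_const_zero, inr_zero, add_zero]
      rfl
    · simp only [RingHom.coe_comp, Function.comp_apply, Polynomial.coe_mapRingHom,
        Polynomial.map_X, Theta_X]
      rfl
  exact congrArg (fun f : k[X] →+* DualNumber k[X] => f p) this

theorem Theta_snd_coeff (x w : ι → k) (p : (MvPolynomial ι k)[X]) (i : ℕ) :
    ((Theta x w p).snd).coeff i =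
      ∑ l, w l * MvPolynomial.eval x (MvPolynomial.pderiv l (p.coeff i)) := by
  induction p using Polynomial.induction_on' with
  | add p q hp hq =>
    simp only [map_add, snd_add, Polynomial.coeff_add, hp, hq, mul_add, Finset.sum_add_distrib]
  | monomial n a =>
    have h : Theta x w (Polynomial.monomial n a) = theta x w a * inl (X ^ n) := by
      rw [← Polynomial.C_mul_X_pow_eq_monomial, map_mul, map_pow, Theta_C, Theta_X, inl_pow]
    rw [h, theta_apply]
    simp only [snd_mul, fst_add, fst_inl, fst_inr, add_zero, snd_inl, smul_zero, snd_add,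
      snd_inr, zero_add, MulOpposite.smul_eq_mul_unop, MulOpposite.unop_op]
    rw [Polynomial.coeff_C_mul, Polynomial.coeff_X_pow, Polynomial.coeff_monomial]
    by_cases hi : n = i
    · subst hi; simp
    · rw [if_neg hi, if_neg (Ne.symm hi)]; simp

theorem Theta_fst (x w : ι → k) (p : (MvPolynomial ι k)[X]) :
    (Theta x w p).fst = p.map (MvPolynomial.eval x) := by
  induction p using Polynomial.induction_on' with
  | add p q hp hq => simp only [map_add, fst_add, Polynomial.map_add, hp, hq]
  | monomial n a =>
    have h : Theta x w (Polynomial.monomial n a) = theta x w a * inl (X ^ n) := by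
      rw [← Polynomial.C_mul_X_pow_eq_monomial, map_mul, map_pow, Theta_C, Theta_X, inl_pow]
    rw [h, theta_apply]
    simp only [fst_mul, fst_add, fst_inl, fst_inr, add_zero, Polynomial.map_monomial]
    rw [Polynomial.C_mul_X_pow_eq_monomial]
end Theta2

theorem inl_add_inr_pow {A : Type*} [CommRing A] (a b : A) (n : ℕ) :
    (inl a + inr b : DualNumber A) ^ n = inl (a ^ n) + inr ((n : A) * a ^ (n - 1) * b) := by
  induction n with
  | zero => ext <;> simp
  | succ n ih =>
    rw [pow_succ, ih]
    ext
    · simp [pow_succ]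
    · simp only [snd_mul, fst_add, fst_inl, fst_inr, add_zero, snd_add, snd_inl, snd_inr, zero_add,
        smul_eq_mul, MulOpposite.smul_eq_mul_unop, MulOpposite.unop_op, Nat.add_sub_cancel,
        Nat.cast_succ]
      rcases n with _ | n
      · simp
      · simp only [Nat.add_sub_cancel, Nat.cast_succ, pow_succ]
        ring

section JacobiMain
variable {k : Type*} [CommRing k] {δ q g : ℕ}

theorem theta_X (x w : Idx q g → k) (l : Idx q g) :
    theta x w (MvPolynomial.X l) = inl (C (x l)) + inr (C (w l)) := by
  simp [theta]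

/-- the derivative of `D.F` at `x` in the direction `w`. -/
noncomputable def Data.dF (D : Data k δ q g) (x w : Idx q g → k) : k[X] :=
  ((D.mat fun j => x (aIdx j)).adjugate * (D.mat fun j => w (aIdx j))).trace -
    (C (w cIdx) * D.Rfix ^ D.n * rvar (fun l => x (rIdx l)) ^ D.n +
      C (x cIdx) * D.Rfix ^ D.n *
        ((D.n : k[X]) * rvar (fun l => x (rIdx l)) ^ (D.n - 1) * rdot (fun l => w (rIdx l))))

theorem Theta_rvar (x w : Idx q g → k) :
    Theta x w (rvar fun l => (MvPolynomial.X (rIdx l) : MvPolynomial (Idx q g) k))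
      = inl (rvar fun l => x (rIdx l)) + inr (rdot fun l => w (rIdx l)) := by
  simp only [rvar, rdot, map_add, map_pow, Theta_X, map_sum, map_mul, Theta_C, theta_X]
  rw [inl_pow, inl_add, add_assoc]
  congr 1
  have h : ∀ l : Fin g, (inl (C (x (rIdx l))) + inr (C (w (rIdx l))) : DualNumber k[X]) *
      inl X ^ (l : ℕ) = inlHom k[X] k[X] (C (x (rIdx l)) * X ^ (l : ℕ)) +
        inrHom k[X] k[X] (C (w (rIdx l)) * X ^ (l : ℕ)) := by
    intro l
    rw [inl_pow]
    refine TrivSqZeroExt.ext ?_ ?_
    · simp
    · simp only [snd_mul, fst_add, fst_inl, fst_inr, add_zero, snd_inl, smul_zero, snd_add,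
        snd_inr, zero_add, MulOpposite.smul_eq_mul_unop, MulOpposite.unop_op, inlHom_apply,
        inrHom_apply]
  simp only [h, Finset.sum_add_distrib]
  rw [← map_sum (inrHom k[X] k[X]), ← map_sum (inlHom k[X] k[X])]
  rfl

theorem Theta_mat (D : Data k δ q g) (x w : Idx q g → k) :
    (Theta x w).mapMatrix
      ((D.map (MvPolynomial.C : k →+* MvPolynomial (Idx q g) k)).mat
        fun j => MvPolynomial.X (aIdx j))
      = (D.mat fun j => x (aIdx j)).map (inl : k[X] → DualNumber k[X])
        + (D.mat fun j => w (aIdx j)).map (inr : k[X] → DualNumber k[X]) := by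
  refine Matrix.ext fun i l => ?_
  simp only [Data.mat, Data.map, RingHom.mapMatrix_apply, Matrix.map_apply, Matrix.sum_apply,
    Matrix.smul_apply, smul_eq_mul, map_sum, map_mul, Theta_C, theta_X, Theta_map_C,
    Matrix.add_apply]
  have h : ∀ j : Fin q, (inl (C (x (aIdx j))) + inr (C (w (aIdx j))) : DualNumber k[X]) *
      inl (D.M j i l) = inlHom k[X] k[X] (C (x (aIdx j)) * D.M j i l) +
        inrHom k[X] k[X] (C (w (aIdx j)) * D.M j i l) := by
    intro j
    refine TrivSqZeroExt.ext ?_ ?_
    · simp
    · simp [mul_comm]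
  simp only [h, Finset.sum_add_distrib]
  rw [← map_sum (inrHom k[X] k[X]), ← map_sum (inlHom k[X] k[X])]
  rfl

theorem Theta_gen [IsDomain k] (D : Data k δ q g) (x w : Idx q g → k)
    (hdet : (D.mat fun j => x (aIdx j)).det ≠ 0) :
    Theta x w D.gen = inl (D.F x) + inr (D.dF x w) := by
  unfold Data.gen Data.F
  rw [map_sub, RingHom.map_det, Theta_mat, det_map_inl_add_map_inr _ _ hdet, map_mul, map_mul,
    map_pow, map_pow, Theta_C, theta_X, Theta_rvar]
  have hR : Theta x w ((D.map (MvPolynomial.C : k →+* MvPolynomial (Idx q g) k)).Rfix)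
      = inl D.Rfix := Theta_map_C x w D.Rfix
  have hn : (D.map (MvPolynomial.C : k →+* MvPolynomial (Idx q g) k)).n = D.n := rfl
  rw [hR, hn, inl_add_inr_pow, inl_pow]
  unfold Data.dF
  refine TrivSqZeroExt.ext ?_ ?_
  · simp
  · simp only [snd_sub, snd_add, snd_inl, snd_inr, zero_add, snd_mul, fst_mul, fst_add, fst_inl,
      fst_inr, add_zero, smul_eq_mul, MulOpposite.smul_eq_mul_unop, MulOpposite.unop_op,
      mul_zero]
    ring

end JacobiMain
section JacobianMatrix
variable {k : Type*} [Field k] {δ q g : ℕ}

/-- The Jacobian of the system applied to a direction `w`: coefficient equations. -/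
theorem Data.sum_pderiv_G_inl (D : Data k δ q g) (x w : Idx q g → k)
    (hdet : (D.mat fun j => x (aIdx j)).det ≠ 0) (i : Fin (q + g)) :
    ∑ l, w l * MvPolynomial.eval x (MvPolynomial.pderiv l (D.G (Sum.inl i)))
      = (D.dF x w).coeff i := by
  have h := Theta_snd_coeff x w D.gen i
  rw [Theta_gen D x w hdet] at h
  simp only [snd_add, snd_inl, snd_inr, zero_add] at h
  rw [h]
  rfl

/-- The Jacobian of the system applied to a direction `w`: the normalisation equation. -/
theorem Data.sum_pderiv_G_inr (D : Data k δ q g) (x w : Idx q g → k) (u : Unit) :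
    ∑ l, w l * MvPolynomial.eval x (MvPolynomial.pderiv l (D.G (Sum.inr u)))
      = w (aIdx D.j0) := by
  simp only [Data.G, map_sub, MvPolynomial.pderiv_X, MvPolynomial.pderiv_one, sub_zero]
  rw [Finset.sum_eq_single (aIdx D.j0)]
  · simp
  · intro l _ hl
    rw [Pi.single_eq_of_ne (Ne.symm hl)]
    simp
  · intro h
    exact absurd (Finset.mem_univ _) h

/-- **Jacobian criterion.** If the only direction `w` killed by the derivative `dF` (up to degree
`q + g - 1`) with `w_{j0} = 0` is `w = 0`, then the Jacobian determinant of the system does not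
vanish at `x`. -/
theorem Data.jacobian_det_ne_zero (D : Data k δ q g) (x : Idx q g → k)
    (hdet : (D.mat fun j => x (aIdx j)).det ≠ 0)
    (hker : ∀ w : Idx q g → k, (∀ i : Fin (q + g), (D.dF x w).coeff i = 0) →
      w (aIdx D.j0) = 0 → w = 0) :
    (Matrix.of fun i j => MvPolynomial.eval x (MvPolynomial.pderiv i (D.G j))).det ≠ 0 := by
  set J : Matrix (Idx q g) (Idx q g) k :=
    Matrix.of fun i j => MvPolynomial.eval x (MvPolynomial.pderiv i (D.G j)) with hJ
  have hinj : Function.Injective J.vecMul := by
    have hlin : Function.Injective J.vecMulLinear := by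
      rw [injective_iff_map_eq_zero]
      intro w hw
      have hw' : ∀ j, ∑ l, w l * J l j = 0 := fun j => by
        have := congrFun hw j
        simpa [Matrix.vecMulLinear, Matrix.vecMul, dotProduct] using this
      apply hker w
      · intro i
        rw [← D.sum_pderiv_G_inl x w hdet i]
        exact hw' (Sum.inl i)
      · rw [← D.sum_pderiv_G_inr x w ()]
        exact hw' (Sum.inr ())
    exact hlin
  have := (Matrix.vecMul_injective_iff_isUnit).mp hinj
  exact ((Matrix.isUnit_iff_isUnit_det J).mp this).ne_zero

end JacobianMatrix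

section Degree

variable {k : Type*} [Field k] {δ q g : ℕ}

/-- the generic norm `det (∑ X_j M_j)`. -/
noncomputable def Data.detGen (D : Data k δ q g) : (MvPolynomial (Idx q g) k)[X] :=
  ((D.map (MvPolynomial.C : k →+* MvPolynomial (Idx q g) k)).mat
    fun j => MvPolynomial.X (aIdx j)).det

theorem Theta_detGen (D : Data k δ q g) (x w : Idx q g → k)
    (hdet : (D.mat fun j => x (aIdx j)).det ≠ 0) :
    Theta x w D.detGen = inl (D.mat fun j => x (aIdx j)).det +
      inr ((D.mat fun j => x (aIdx j)).adjugate * (D.mat fun j => w (aIdx j))).trace := by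
  unfold Data.detGen
  rw [RingHom.map_det, Theta_mat, det_map_inl_add_map_inr _ _ hdet]

theorem Data.detGen_map_eval (D : Data k δ q g) (x : Idx q g → k) :
    D.detGen.map (MvPolynomial.eval x) = (D.mat fun j => x (aIdx j)).det := by
  unfold Data.detGen
  rw [← Polynomial.coe_mapRingHom, RingHom.map_det, RingHom.mapMatrix_apply,
    Polynomial.coe_mapRingHom, Data.mat_map, Data.map_map]
  have h1 : (MvPolynomial.eval x).comp (MvPolynomial.C : k →+* MvPolynomial (Idx q g) k)
      = RingHom.id k := by
    ext a
    simp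
  rw [h1, Data.map_id]
  congr 2
  funext j
  simp

/-- The trace term of the derivative has degree at most that of the generic norm. -/
theorem Data.natDegree_trace_adjugate_le (D : Data k δ q g) (x w : Idx q g → k)
    (hdet : (D.mat fun j => x (aIdx j)).det ≠ 0) :
    ((D.mat fun j => x (aIdx j)).adjugate * (D.mat fun j => w (aIdx j))).trace.natDegree
      ≤ D.detGen.natDegree := by
  rw [Polynomial.natDegree_le_iff_coeff_eq_zero]
  intro i hi
  have h := Theta_snd_coeff x w D.detGen i
  rw [Theta_detGen D x w hdet] at h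
  simp only [snd_add, snd_inl, snd_inr, zero_add] at h
  rw [h, Polynomial.coeff_eq_zero_of_natDegree_lt hi]
  simp

/-- Over an infinite field, a pointwise degree bound for the norms gives the bound for the generic
norm. -/
theorem Data.natDegree_detGen_le [Infinite k] (D : Data k δ q g) (N : ℕ)
    (h : ∀ a : Fin q → k, (D.mat a).det.natDegree ≤ N) : D.detGen.natDegree ≤ N := by
  rw [Polynomial.natDegree_le_iff_coeff_eq_zero]
  intro i hi
  apply MvPolynomial.funext
  intro x
  rw [map_zero, ← Polynomial.coeff_map, D.detGen_map_eval x]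
  exact Polynomial.coeff_eq_zero_of_natDegree_lt (lt_of_le_of_lt (h _) hi)

theorem natDegree_rvar_le (r : Fin g → k) : (rvar r).natDegree ≤ g := by
  unfold rvar
  refine (Polynomial.natDegree_add_le _ _).trans (max_le (Polynomial.natDegree_X_pow_le g) ?_)
  refine Polynomial.natDegree_sum_le_of_forall_le _ _ fun l _ => ?_
  exact (Polynomial.natDegree_C_mul_X_pow_le _ _).trans (le_of_lt l.2)

theorem natDegree_rdot_le (r : Fin g → k) : (rdot r).natDegree ≤ g - 1 := by
  unfold rdot
  refine Polynomial.natDegree_sum_le_of_forall_le _ _ fun l _ => ?_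
  refine (Polynomial.natDegree_C_mul_X_pow_le _ _).trans ?_
  have := l.2
  omega

/-- Degree bound for the derivative `dF`. -/
theorem Data.natDegree_dF_lt (D : Data k δ q g) (x w : Idx q g → k)
    (hdet : (D.mat fun j => x (aIdx j)).det ≠ 0)
    (hN : D.detGen.natDegree < q + g) (hR : D.n * (D.Rfix.natDegree + g) < q + g) :
    (D.dF x w).natDegree < q + g := by
  unfold Data.dF
  refine lt_of_le_of_lt (Polynomial.natDegree_sub_le _ _) (max_lt ?_ ?_)
  · exact lt_of_le_of_lt (D.natDegree_trace_adjugate_le x w hdet) hN
  · refine lt_of_le_of_lt (Polynomial.natDegree_add_le _ _) (max_lt ?_ ?_)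
    · refine lt_of_le_of_lt ?_ hR
      refine Polynomial.natDegree_mul_le.trans ?_
      have h1 : (C (w cIdx) * D.Rfix ^ D.n).natDegree ≤ D.n * D.Rfix.natDegree :=
        (Polynomial.natDegree_C_mul_le _ _).trans Polynomial.natDegree_pow_le
      have h2 : (rvar (fun l => x (rIdx l)) ^ D.n).natDegree ≤ D.n * g :=
        Polynomial.natDegree_pow_le.trans (Nat.mul_le_mul_left _ (natDegree_rvar_le _))
      rw [mul_add]
      exact add_le_add h1 h2
    · refine lt_of_le_of_lt ?_ hR
      refine Polynomial.natDegree_mul_le.trans ?_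
      have h1 : (C (x cIdx) * D.Rfix ^ D.n).natDegree ≤ D.n * D.Rfix.natDegree :=
        (Polynomial.natDegree_C_mul_le _ _).trans Polynomial.natDegree_pow_le
      have h2 : ((D.n : k[X]) * rvar (fun l => x (rIdx l)) ^ (D.n - 1) *
          rdot (fun l => w (rIdx l))).natDegree ≤ D.n * g := by
        rcases Nat.eq_zero_or_pos D.n with h0 | h0
        · rw [h0]
          simp
        · refine Polynomial.natDegree_mul_le.trans ?_
          have h3 : ((D.n : k[X]) * rvar (fun l => x (rIdx l)) ^ (D.n - 1)).natDegree
              ≤ (D.n - 1) * g := by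
            refine Polynomial.natDegree_mul_le.trans ?_
            rw [Polynomial.natDegree_natCast, zero_add]
            exact Polynomial.natDegree_pow_le.trans
              (Nat.mul_le_mul_left _ (natDegree_rvar_le _))
          have h4 := natDegree_rdot_le (fun l => w (rIdx l))
          have : (D.n - 1) * g + (g - 1) ≤ D.n * g := by
            obtain ⟨m, hm⟩ : ∃ m, D.n = m + 1 := ⟨D.n - 1, by omega⟩
            rw [hm, Nat.add_sub_cancel, add_mul, one_mul]
            omega
          omega
      rw [mul_add]
      exact add_le_add h1 h2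

/-- **Jacobian criterion, polynomial form.** -/
theorem Data.jacobian_det_ne_zero' (D : Data k δ q g) (x : Idx q g → k)
    (hdet : (D.mat fun j => x (aIdx j)).det ≠ 0)
    (hN : D.detGen.natDegree < q + g) (hR : D.n * (D.Rfix.natDegree + g) < q + g)
    (hker : ∀ w : Idx q g → k, D.dF x w = 0 → w (aIdx D.j0) = 0 → w = 0) :
    (Matrix.of fun i j => MvPolynomial.eval x (MvPolynomial.pderiv i (D.G j))).det ≠ 0 := by
  refine D.jacobian_det_ne_zero x hdet fun w hw hw0 => hker w ?_ hw0
  ext i
  rw [Polynomial.coeff_zero]
  by_cases hi : i < q + g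
  · exact hw ⟨i, hi⟩
  · exact Polynomial.coeff_eq_zero_of_natDegree_lt
      (lt_of_lt_of_le (D.natDegree_dF_lt x w hdet hN hR) (not_lt.mp hi))

end Degree

section GMap

variable {R S : Type*} [CommRing R] [CommRing S] {δ q g : ℕ}

theorem Data.gen_map_map (D : Data R δ q g) (φ : R →+* S) :
    D.gen.map (MvPolynomial.map φ : MvPolynomial (Idx q g) R →+* MvPolynomial (Idx q g) S)
      = (D.map φ).gen := by
  unfold Data.gen
  rw [Data.F_map, Data.map_map, Data.map_map]
  have h1 : (MvPolynomial.map φ : MvPolynomial (Idx q g) R →+* MvPolynomial (Idx q g) S).comp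
      MvPolynomial.C = (MvPolynomial.C : S →+* MvPolynomial (Idx q g) S).comp φ := by
    ext a
    simp
  have h2 : (MvPolynomial.map φ : MvPolynomial (Idx q g) R →+* MvPolynomial (Idx q g) S) ∘
      (MvPolynomial.X : Idx q g → MvPolynomial (Idx q g) R) = MvPolynomial.X := by
    funext i
    simp
  rw [h1, h2]

/-- The system commutes with base change. -/
theorem Data.G_map (D : Data R δ q g) (φ : R →+* S) (j : Idx q g) :
    MvPolynomial.map φ (D.G j) = (D.map φ).G j := by
  rcases j with i | u
  · show MvPolynomial.map φ (D.gen.coeff i) = (D.map φ).gen.coeff i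
    rw [← D.gen_map_map φ, Polynomial.coeff_map]
  · simp [Data.G, Data.map]

end GMap

end Fermat.Agent.S27x.Lift.NormSystem
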