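import Fermat.Agent.S27x.Spec.HenselMulti
import Fermat.Agent.S27x.Lift.NormSystem

/-!
# P-S27 block D7: solving the Norm system over a henselian local ring (helper27)

`exists_isSol_lift`: a residue solution of the Norm system at which the Jacobian determinant (of
the reduced system) does not vanish lifts to a solution over the henselian local ring.
`exists_isSol_lift_of_ker`: the same with the Jacobian condition replaced by the injectivity
statement `hker` on the derivative `dF` (see `NormSystem.Data.jacobian_det_ne_zero'`).
-/

set_option autoImplicit false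

noncomputable section

namespace Fermat.Agent.S27x.Lift.HenselApply

open IsLocalRing Fermat.Agent.S27x.Lift.NormSystem Fermat.Agent.S27x.Spec.HenselMulti

variable {A : Type*} [CommRing A] [HenselianLocalRing A] {δ q g : ℕ}

theorem aeval_eq_eval_map (xbar : Idx q g → ResidueField A) (p : MvPolynomial (Idx q g) A) :
    MvPolynomial.aeval xbar p = MvPolynomial.eval xbar (MvPolynomial.map (residue A) p) := by
  rw [MvPolynomial.eval_map, MvPolynomial.aeval_def]
  rfl

/-- A residue solution with non-vanishing Jacobian lifts. -/
theorem exists_isSol_lift (D : Data A δ q g) (xbar : Idx q g → ResidueField A)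
    (hsol : (D.map (residue A)).IsSol xbar)
    (hJ : (Matrix.of fun i j => MvPolynomial.eval xbar
      (MvPolynomial.pderiv i ((D.map (residue A)).G j))).det ≠ 0) :
    ∃ x : Idx q g → A, D.IsSol x ∧ ∀ l, residue A (x l) = xbar l := by
  classical
  have h0 : ∀ j, MvPolynomial.aeval xbar (D.G j) = 0 := by
    intro j
    rw [aeval_eq_eval_map, D.G_map]
    exact ((D.map (residue A)).forall_eval_G_eq_zero_iff xbar).mpr hsol j
  have hJ' : Matrix.det (Matrix.of fun i j =>
      MvPolynomial.aeval xbar (MvPolynomial.pderiv i (D.G j))) ≠ 0 := by
    convert hJ using 2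
    refine Matrix.ext fun i j => ?_
    simp only [Matrix.of_apply]
    rw [aeval_eq_eval_map, ← MvPolynomial.pderiv_map, D.G_map]
  obtain ⟨x, hx, hres⟩ := exists_lift_of_residue_solution D.G xbar h0 hJ'
  exact ⟨x, (D.forall_eval_G_eq_zero_iff x).mp hx, hres⟩

/-- A residue solution lifts as soon as the derivative `dF` of the reduced system is injective on
directions with vanishing normalised coordinate. -/
theorem exists_isSol_lift_of_ker (D : Data A δ q g) (xbar : Idx q g → ResidueField A)
    (hsol : (D.map (residue A)).IsSol xbar)
    (hdet : ((D.map (residue A)).mat fun j => xbar (aIdx j)).det ≠ 0)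
    (hN : (D.map (residue A)).detGen.natDegree < q + g)
    (hR : D.n * ((D.Rfix.map (residue A)).natDegree + g) < q + g)
    (hker : ∀ w : Idx q g → ResidueField A, (D.map (residue A)).dF xbar w = 0 →
      w (aIdx D.j0) = 0 → w = 0) :
    ∃ x : Idx q g → A, D.IsSol x ∧ ∀ l, residue A (x l) = xbar l :=
  exists_isSol_lift D xbar hsol
    ((D.map (residue A)).jacobian_det_ne_zero' xbar hdet hN hR hker)

end Fermat.Agent.S27x.Lift.HenselApply
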