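import Fermat.Agent.Lib.RiemannRoch.Moving
import Fermat.Agent.Lib.RiemannRoch.RiemannRochCZ
import Fermat.Agent.Lib.RiemannRoch.XSetting
import Fermat.Agent.Lib.RiemannRoch.FunctionField
import Fermat.Agent.S24.DiffOrdAll
import Fermat.Agent.S20.RR.StrongApprox
import Fermat.Agent.Gateway.GoodRed.PlacesIntegral

/-!
# P-S27, block D7 (L1): nice representatives of a divisor class of degree zero

`κ / k` a function field of one variable over an algebraically closed field of characteristic
zero (`x : κ` transcendental, `κ / k(x)` finite).  For every divisor `D` of degree `0`, every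
finite set `S` of places and every bound `m₀` there are finite sets of places
`Uvar`, `Ufix`, `U0`, pairwise disjoint, disjoint from `S` and from the poles of `x`, with

* `#Uvar = g`, `l(Uvar) = 1` (non special),
* `#U0 = #Uvar + #Ufix ≥ m₀`,
* `Uvar + Ufix - U0 = D + div f` for some `f ≠ 0`,

and a function `z`, integral over `k[x]`, which is unramified with pairwise distinct values at all
the points of `Uvar ∪ Ufix ∪ U0`.
-/

set_option autoImplicit false
set_option linter.unusedSectionVars false
set_option linter.style.haveILetI false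

noncomputable section

open AlgebraicCurve WithZero Module IntermediateField

namespace Fermat.Agent.S27x.Lift.NiceRep

open Fermat.Agent.Lib.RiemannRoch

variable {k κ : Type*} [Field k] [Field κ] [Algebra k κ]

/-! ### The reduced divisor of a finite set of places -/

/-- The reduced effective divisor of a finite set of places. -/
def finDiv (U : Finset (Place k κ)) : Divisor k κ := ∑ Q ∈ U, Finsupp.single Q 1

open Classical in
theorem finDiv_apply (U : Finset (Place k κ)) (v : Place k κ) :
    finDiv U v = if v ∈ U then 1 else 0 := by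
  unfold finDiv
  rw [Finsupp.finsetSum_apply]
  simp only [Finsupp.single_apply]
  rw [Finset.sum_ite_eq' U v (fun _ => (1 : ℤ))]

theorem finDiv_apply_of_mem {U : Finset (Place k κ)} {v : Place k κ} (h : v ∈ U) :
    finDiv U v = 1 := by
  classical
  rw [finDiv_apply, if_pos h]

theorem finDiv_apply_of_notMem {U : Finset (Place k κ)} {v : Place k κ} (h : v ∉ U) :
    finDiv U v = 0 := by
  classical
  rw [finDiv_apply, if_neg h]

theorem finDiv_empty : finDiv (∅ : Finset (Place k κ)) = 0 := by
  unfold finDiv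
  rw [Finset.sum_empty]

theorem finDiv_nonneg (U : Finset (Place k κ)) : 0 ≤ finDiv U := by
  classical
  intro v
  rw [finDiv_apply]
  split_ifs
  · exact zero_le_one
  · exact le_refl _

open Classical in
theorem finDiv_insert {U : Finset (Place k κ)} {Q : Place k κ} (hQ : Q ∉ U) :
    finDiv (insert Q U) = finDiv U + Finsupp.single Q 1 := by
  unfold finDiv
  rw [Finset.sum_insert hQ, add_comm]

theorem degree_finDiv (hdeg : ∀ v : Place k κ, v.deg = 1) (U : Finset (Place k κ)) :
    Divisor.degree (finDiv U) = U.card := by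
  unfold finDiv
  rw [map_sum]
  simp only [Divisor.degree_single, hdeg, Nat.cast_one, mul_one]
  rw [Finset.sum_const, nsmul_eq_mul, mul_one]

open Classical in
/-- A divisor with values in `{0, 1}` is the divisor of its support. -/
theorem eq_finDiv_support {E : Divisor k κ} (h0 : 0 ≤ E) (h1 : ∀ v, E v ≤ 1) :
    finDiv E.support = E := by
  ext v
  rw [finDiv_apply]
  have hv0 : 0 ≤ E v := h0 v
  have hv1 := h1 v
  split_ifs with hv
  · rw [Finsupp.mem_support_iff] at hv
    omega
  · rw [Finsupp.mem_support_iff, not_not] at hv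
    exact hv.symm


/-- The function with divisor `n (Uvar + Ufix - m P)` attached to an `n`-torsion class. -/
theorem ord_mul_pow_eq {D E : Divisor k κ} {f w : κ} (hf : f ≠ 0) (hw : w ≠ 0) (n : ℕ)
    (hfE : ∀ v : Place k κ, E v = D v + v.ord f)
    (hwD : ∀ v : Place k κ, (n : ℤ) * D v = v.ord w) (v : Place k κ) :
    v.ord (w * f ^ n) = (n : ℤ) * E v := by
  rw [v.ord_mul hw (pow_ne_zero n hf), ← zpow_natCast, v.ord_zpow, hfE v, ← hwD v]
  ring

/-! ### Places avoiding finite sets -/

section XSetting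

variable [IsAlgClosed k] [CharZero k] {x : κ} (hx : Transcendental k x)
  [FiniteDimensional k⟮x⟯ κ]
include hx

theorem deg_eq_one_cz (v : Place k κ) : v.deg = 1 := by
  haveI := (finiteResidue_cz hx v).finite
  exact v.deg_eq_one_of_isAlgClosed_of_finite

/-- There are places outside any finite set. -/
theorem exists_place_notMem (T : Finset (Place k κ)) : ∃ Q : Place k κ, Q ∉ T := by
  classical
  haveI := hasPrincipalDivisors_cz hx
  haveI : ∀ v : Place k κ, v.FiniteResidue := finiteResidue_cz hx
  haveI := nonempty_place_cz hx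
  have hγ := exists_rr_le_cz hx
  obtain ⟨P⟩ := nonempty_place_cz hx
  obtain ⟨e₀, he₀⟩ := Moving.exists_effective_avoiding hγ (insert P T) P (0 : Divisor k κ)
  obtain ⟨E, f, -, -, hEB, hE⟩ := he₀ (max e₀ 1) (le_max_left _ _)
  by_contra hcon
  have hall : ∀ Q : Place k κ, Q ∈ T := fun Q => by
    by_contra hQ
    exact hcon ⟨Q, hQ⟩
  have hEz : E = 0 := by
    ext v
    exact hEB v (Finset.mem_insert_of_mem (hall v))
  have hdeg : Divisor.degree E = ((max e₀ 1 : ℕ) : ℤ) := by
    rw [hE, map_add, map_add, map_zero, zero_add, Divisor.degree_single, deg_eq_one_cz hx P,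
      degree_divOf]
    simp
  rw [hEz, map_zero] at hdeg
  have h1 : (1 : ℤ) ≤ ((max e₀ 1 : ℕ) : ℤ) := by exact_mod_cast le_max_right e₀ 1
  omega

/-- There are `m` distinct places outside any finite set. -/
theorem exists_finset_disjoint (T : Finset (Place k κ)) (m : ℕ) :
    ∃ U : Finset (Place k κ), U.card = m ∧ Disjoint U T := by
  classical
  induction m with
  | zero => exact ⟨∅, Finset.card_empty, Finset.disjoint_empty_left _⟩
  | succ m ih =>
    obtain ⟨U, hU, hUT⟩ := ih
    obtain ⟨Q, hQ⟩ := exists_place_notMem hx (U ∪ T)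
    rw [Finset.mem_union, not_or] at hQ
    refine ⟨insert Q U, by rw [Finset.card_insert_of_notMem hQ.1, hU], ?_⟩
    rw [Finset.disjoint_insert_left]
    exact ⟨hQ.2, hUT⟩

/-! ### Non special sets of points -/

/-- For every `j ≤ g` there are `j` distinct points, outside a given finite set, whose sum `D`
has `l(D) = 1`. -/
theorem exists_nonspecial (T : Finset (Place k κ)) (j : ℕ) (hj : j ≤ genusFF k κ) :
    ∃ U : Finset (Place k κ), U.card = j ∧ Disjoint U T ∧
      finrank k (riemannRochSpace (finDiv U)) = 1 := by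
  classical
  haveI := hasPrincipalDivisors_cz hx
  haveI : ∀ v : Place k κ, v.FiniteResidue := finiteResidue_cz hx
  haveI := nonempty_place_cz hx
  obtain ⟨W, -, -, hRR⟩ := riemannRoch_cz (K := k) hx
  induction j with
  | zero =>
    refine ⟨∅, Finset.card_empty, Finset.disjoint_empty_left _, ?_⟩
    rw [finDiv_empty]
    exact ell_zero_eq_one
  | succ j ih =>
    obtain ⟨U, hUc, hUT, hU1⟩ := ih (Nat.le_of_succ_le hj)
    have hdegU : Divisor.degree (finDiv U) = (j : ℤ) := by
      rw [degree_finDiv (deg_eq_one_cz hx), hUc]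
    -- `l(W - D) = g - j ≥ 1`
    have h4 := (hRR (finDiv U)).2.2.2
    rw [hU1, hdegU] at h4
    have hpos : 0 < finrank k (riemannRochSpace (W - finDiv U)) := by
      have : (j : ℤ) + 1 ≤ genusFF k κ := by exact_mod_cast hj
      have : (0 : ℤ) < finrank k (riemannRochSpace (W - finDiv U)) := by
        push_cast at h4
        linarith
      exact_mod_cast this
    haveI : Nontrivial ↥(riemannRochSpace (W - finDiv U)) := Module.finrank_pos_iff.mp hpos
    obtain ⟨ω, hω⟩ := exists_ne (0 : ↥(riemannRochSpace (W - finDiv U)))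
    have hω0 : (ω : κ) ≠ 0 := fun h => hω (Subtype.ext h)
    -- choose the new point
    obtain ⟨Q, hQ⟩ := exists_place_notMem hx
      (T ∪ U ∪ (W - finDiv U).support ∪ (divOf (K := k) (ω : κ)).support)
    simp only [Finset.mem_union, not_or, Finsupp.mem_support_iff, not_not] at hQ
    obtain ⟨⟨⟨hQT, hQU⟩, hQW⟩, hQω⟩ := hQ
    rw [divOf_apply hω0] at hQω
    refine ⟨insert Q U, by rw [Finset.card_insert_of_notMem hQU, hUc], ?_, ?_⟩
    · rw [Finset.disjoint_insert_left]
      exact ⟨hQT, hUT⟩
    -- `ω ∉ L(W - D - Q)`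
    have hnot : (ω : κ) ∉ riemannRochSpace (W - finDiv U - Finsupp.single Q 1) := by
      intro hmem
      have := (mem_riemannRochSpace_iff.mp hmem Q).resolve_left hω0
      rw [Finsupp.sub_apply, hQW, Finsupp.single_eq_same, hQω] at this
      omega
    have hle : riemannRochSpace (W - finDiv U - Finsupp.single Q 1) ≤
        riemannRochSpace (W - finDiv U) := Moving.riemannRochSpace_mono' (by
      intro v
      rw [Finsupp.sub_apply]
      have : (0 : ℤ) ≤ Finsupp.single Q (1 : ℤ) v := Finsupp.single_nonneg.mpr zero_le_one v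
      omega)
    have hlt : riemannRochSpace (W - finDiv U - Finsupp.single Q 1) <
        riemannRochSpace (W - finDiv U) :=
      lt_of_le_of_ne hle (fun h => hnot (by rw [h]; exact ω.2))
    have hfl := Submodule.finrank_lt_finrank_of_lt hlt
    -- Riemann-Roch for `D + Q`
    have h4' := (hRR (finDiv (insert Q U))).2.2.2
    have hdeg' : Divisor.degree (finDiv (insert Q U)) = (j : ℤ) + 1 := by
      rw [degree_finDiv (deg_eq_one_cz hx), Finset.card_insert_of_notMem hQU, hUc]
      push_cast
      ring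
    have hW' : W - finDiv (insert Q U) = W - finDiv U - Finsupp.single Q 1 := by
      rw [finDiv_insert hQU]
      abel
    rw [hdeg', hW'] at h4'
    -- lower bound: `L(0) ≤ L(D + Q)`
    have hmono : riemannRochSpace (0 : Divisor k κ) ≤ riemannRochSpace (finDiv (insert Q U)) :=
      Moving.riemannRochSpace_mono' (finDiv_nonneg _)
    have hge := Submodule.finrank_mono hmono
    have h0 : finrank k (riemannRochSpace (0 : Divisor k κ)) = 1 := ell_zero_eq_one
    rw [h0] at hge
    have hup : (finrank k (riemannRochSpace (finDiv (insert Q U))) : ℤ) ≤ 1 := by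
      have h5 : (finrank k (riemannRochSpace (W - finDiv U - Finsupp.single Q 1)) : ℤ) + 1 ≤
          finrank k (riemannRochSpace (W - finDiv U)) := by exact_mod_cast hfl
      push_cast at h4
      linarith
    have hup' : finrank k (riemannRochSpace (finDiv (insert Q U))) ≤ 1 := by exact_mod_cast hup
    omega

end XSetting


/-! ### A uniform moving lemma -/

section Uniform

variable [HasPrincipalDivisors k κ] [∀ v : Place k κ, v.FiniteResidue] [Nonempty (Place k κ)]
  [Infinite k]

/-- Moving lemma with a degree bound which does not depend on the finite set `B`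
(all places of degree one). -/
theorem exists_function_exact_order_unif (hγ : ∃ γ : ℤ, ∀ D : Divisor k κ, rr D ≤ γ)
    (hdeg1 : ∀ v : Place k κ, v.deg = 1) :
    ∃ c : ℤ, ∀ (B : Finset (Place k κ)) (D : Divisor k κ), c ≤ Divisor.degree D →
      ∃ f : κ, f ≠ 0 ∧ f ∈ riemannRochSpace D ∧ ∀ Q ∈ B, Q.ord f = -D Q := by
  classical
  obtain ⟨c₀, hc₀⟩ := Moving.exists_bound_ne hγ
  obtain ⟨c₁, hc₁⟩ := exists_degree_bound_ell hγ
  refine ⟨max (max c₁ (genusFF k κ)) (c₀ + 1), fun B D hD => ?_⟩
  have hD1 : c₁ ≤ Divisor.degree D := le_trans (le_trans (le_max_left _ _) (le_max_left _ _)) hD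
  have hDg : (genusFF k κ : ℤ) ≤ Divisor.degree D :=
    le_trans (le_trans (le_max_right _ _) (le_max_left _ _)) hD
  have hD0 : c₀ + 1 ≤ Divisor.degree D := le_trans (le_max_right _ _) hD
  have hell : 1 ≤ ell D := by
    have h1 := (hc₁ D hD1).2
    have h2 : (1 : ℤ) ≤ ell (0 : Divisor k κ) := by exact_mod_cast one_le_ell_zero
    have : (1 : ℤ) ≤ ell D := by linarith
    exact_mod_cast this
  have hnontriv : Nontrivial ↥(riemannRochSpace D) := Module.finrank_pos_iff.mp hell
  set S : Place k κ → Subspace k ↥(riemannRochSpace D) := fun Q =>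
    (riemannRochSpace (D - Finsupp.single Q 1)).comap (riemannRochSpace D).subtype with hS
  have hle : ∀ Q : Place k κ, riemannRochSpace (D - Finsupp.single Q 1) ≤ riemannRochSpace D :=
    fun Q => Moving.riemannRochSpace_mono' (by
      intro v
      rw [Finsupp.sub_apply]
      have : (0 : ℤ) ≤ Finsupp.single Q (1 : ℤ) v := Finsupp.single_nonneg.mpr zero_le_one v
      omega)
  have hSne : ∀ Q ∈ B, S Q ≠ ⊤ := by
    intro Q _ htop
    apply hc₀ D Q (by rw [hdeg1 Q]; push_cast; linarith)
    refine le_antisymm (hle Q) fun f hf => ?_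
    have : (⟨f, hf⟩ : ↥(riemannRochSpace D)) ∈ S Q := by rw [htop]; exact Submodule.mem_top
    exact this
  set s : Finset (Subspace k ↥(riemannRochSpace D)) := insert ⊥ (B.image S) with hs
  have htop : (⊤ : Subspace k ↥(riemannRochSpace D)) ∉ s := by
    rw [hs, Finset.mem_insert, Finset.mem_image]
    rintro (h | ⟨Q, hQ, h⟩)
    · exact top_ne_bot h
    · exact hSne Q hQ h
  have hcov := Subspace.biUnion_ne_univ_of_top_notMem htop
  obtain ⟨f, hf⟩ : ∃ f : ↥(riemannRochSpace D), f ∉ ⋃ p ∈ s, (p : Set ↥(riemannRochSpace D)) := by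
    by_contra hcon
    apply hcov
    ext f
    simp only [Set.mem_univ, iff_true]
    by_contra hf
    exact hcon ⟨f, hf⟩
  simp only [Set.mem_iUnion, not_exists] at hf
  have hfbot : f ≠ 0 := fun h0 => hf ⊥ (by rw [hs]; exact Finset.mem_insert_self _ _)
    (by rw [h0]; exact Submodule.zero_mem _)
  refine ⟨f, fun h0 => hfbot (Subtype.ext h0), f.2, fun Q hQ => ?_⟩
  have hnot : (f : κ) ∉ riemannRochSpace (D - Finsupp.single Q 1) := by
    intro hmem
    exact hf (S Q) (by rw [hs]; exact Finset.mem_insert_of_mem (Finset.mem_image_of_mem S hQ)) hmem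
  exact (Moving.ord_eq_of_not_mem f.2 hnot).2

end Uniform


/-! ### Bertini on a curve -/

section Generic

variable [HasPrincipalDivisors k κ] [∀ v : Place k κ, v.FiniteResidue]

theorem add_divOf_nonneg {G : Divisor k κ} {f : κ} (hf0 : f ≠ 0)
    (hf : f ∈ riemannRochSpace G) : 0 ≤ G + divOf (K := k) f := by
  intro v
  have := (mem_riemannRochSpace_iff.mp hf v).resolve_left hf0
  rw [Finsupp.add_apply, divOf_apply hf0]
  simp only [Finsupp.coe_zero, Pi.zero_apply]
  omega

end Generic

section Bertini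

open Fermat.Agent.S24

variable [IsAlgClosed k] [CharZero k] {x : κ} (hx : Transcendental k x)
  [FiniteDimensional k⟮x⟯ κ]
include hx

/-- At most one constant `a` makes `h - a` vanish at a given place. -/
theorem subsingleton_zero_value (h : κ) (v : Place k κ) :
    {a : k | 0 < v.ord (h - algebraMap k κ a)}.Subsingleton := by
  intro a ha b hb
  simp only [Set.mem_ofPred_eq] at ha hb
  by_contra hab
  have hba : b - a ≠ 0 := sub_ne_zero.mpr (Ne.symm hab)
  have hne : algebraMap k κ (b - a) ≠ 0 := (map_ne_zero _).mpr hba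
  have hha : h - algebraMap k κ a ≠ 0 := by
    intro h0
    rw [h0, v.ord_zero] at ha
    exact lt_irrefl _ ha
  have hhb : h - algebraMap k κ b ≠ 0 := by
    intro h0
    rw [h0, v.ord_zero] at hb
    exact lt_irrefl _ hb
  have hdiff : (h - algebraMap k κ a) - (h - algebraMap k κ b) = algebraMap k κ (b - a) := by
    rw [map_sub]
    ring
  have hmin := (isAddVal_ord v).map_sub hha hhb (by rw [hdiff]; exact hne)
  rw [hdiff, (isAddVal_ord v).map_const _ hba] at hmin
  have := lt_min ha hb
  omega

/-- **Bertini on a curve** (characteristic zero): a divisor class of large degree contains a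
reduced effective divisor avoiding any given finite set of places. -/
theorem exists_reduced_member :
    ∃ c : ℤ, ∀ (G : Divisor k κ) (T : Finset (Place k κ)), c ≤ Divisor.degree G →
      ∃ (U : Finset (Place k κ)) (f : κ), f ≠ 0 ∧ Disjoint U T ∧
        ∀ v : Place k κ, finDiv U v = G v + v.ord f := by
  classical
  haveI := hasPrincipalDivisors_cz hx
  haveI : ∀ v : Place k κ, v.FiniteResidue := finiteResidue_cz hx
  haveI := nonempty_place_cz hx
  have hγ := exists_rr_le_cz hx
  have hdeg1 := deg_eq_one_cz hx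
  obtain ⟨c, hc⟩ := exists_function_exact_order_unif hγ hdeg1
  refine ⟨max c 1, fun G T hG => ?_⟩
  have hGc : c ≤ Divisor.degree G := le_trans (le_max_left _ _) hG
  have hG1 : 1 ≤ Divisor.degree G := le_trans (le_max_right _ _) hG
  -- first section
  obtain ⟨s0, hs00, hs0, -⟩ := hc ∅ G hGc
  set E0 : Divisor k κ := G + divOf (K := k) s0 with hE0
  have hE0nn : 0 ≤ E0 := add_divOf_nonneg hs00 hs0
  -- second section, without common zeros
  obtain ⟨s1, hs10, hs1, hs1B⟩ := hc E0.support G hGc
  set E1 : Divisor k κ := G + divOf (K := k) s1 with hE1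
  have hE1B : ∀ v : Place k κ, 0 < E0 v → E1 v = 0 := by
    intro v hv
    have hvs : v ∈ E0.support := Finsupp.mem_support_iff.mpr (ne_of_gt hv)
    rw [hE1, Finsupp.add_apply, divOf_apply hs10, hs1B v hvs]
    ring
  -- the function `h`
  set h : κ := s1 / s0 with hh
  have hh0 : h ≠ 0 := div_ne_zero hs10 hs00
  have hordh : ∀ v : Place k κ, v.ord h = E1 v - E0 v := by
    intro v
    rw [hh, div_eq_mul_inv, v.ord_mul hs10 (inv_ne_zero hs00), v.ord_inv, hE1, hE0,
      Finsupp.add_apply, Finsupp.add_apply, divOf_apply hs10, divOf_apply hs00]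
    ring
  -- a pole of `h`
  have hdegE0 : Divisor.degree E0 = Divisor.degree G := by
    rw [hE0, map_add, degree_divOf, add_zero]
  obtain ⟨Q0, hQ0⟩ : ∃ Q0 : Place k κ, 0 < E0 Q0 := by
    by_contra hcon
    have hz : E0 = 0 := by
      ext v
      have h1 : ¬ 0 < E0 v := fun h => hcon ⟨v, h⟩
      exact le_antisymm (not_lt.mp h1) (hE0nn v)
    rw [hz, map_zero] at hdegE0
    omega
  have hhtr : Transcendental k h :=
    FunctionField.transcendental_of_ord_ne_zero Q0 (by rw [hordh, hE1B Q0 hQ0]; omega)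
  haveI : FiniteDimensional k⟮h⟯ κ :=
    FunctionField.finiteDimensional_adjoin_of_transcendental (x := x) hhtr
  obtain ⟨Wh, hWh⟩ := XSetting.exists_divisor_dx hhtr
  -- the bad values
  have hBadfin : (⋃ v ∈ (↑(T ∪ Wh.support) : Set (Place k κ)),
      {a : k | 0 < v.ord (h - algebraMap k κ a)}).Finite :=
    Set.Finite.biUnion (Finset.finite_toSet _) (fun v _ => (subsingleton_zero_value hx h v).finite)
  obtain ⟨a, ha⟩ := hBadfin.exists_notMem
  have haBad : ∀ v ∈ T ∪ Wh.support, ¬ 0 < v.ord (h - algebraMap k κ a) := by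
    intro v hv hpos
    exact ha (Set.mem_biUnion (Finset.mem_coe.mpr hv) hpos)
  have hha : h - algebraMap k κ a ≠ 0 := by
    intro h0
    apply hhtr
    rw [sub_eq_zero.mp h0]
    exact isAlgebraic_algebraMap a
  -- the member of the pencil
  set fa : κ := s0 * (h - algebraMap k κ a) with hfa
  have hfa0 : fa ≠ 0 := mul_ne_zero hs00 hha
  have hfaeq : fa = s1 - a • s0 := by
    rw [hfa, hh, Algebra.smul_def]
    field_simp
  have hfamem : fa ∈ riemannRochSpace G := by
    rw [hfaeq]
    exact Submodule.sub_mem _ hs1 (Submodule.smul_mem _ a hs0)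
  set Ea : Divisor k κ := G + divOf (K := k) fa with hEa
  have hEann : 0 ≤ Ea := add_divOf_nonneg hfa0 hfamem
  have hEaeq : ∀ v : Place k κ, Ea v = E0 v + v.ord (h - algebraMap k κ a) := by
    intro v
    rw [hEa, hE0, Finsupp.add_apply, Finsupp.add_apply, divOf_apply hfa0, divOf_apply hs00, hfa,
      v.ord_mul hs00 hha]
    ring
  -- at the points of `E0`
  have hEaE0 : ∀ v : Place k κ, 0 < E0 v → Ea v = 0 := by
    intro v hv
    have hordv : v.ord h = -E0 v := by rw [hordh, hE1B v hv]; ring
    have hsame : v.ord (h - algebraMap k κ a) = v.ord h := by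
      by_cases ha0 : a = 0
      · rw [ha0, map_zero, sub_zero]
      · have hane : algebraMap k κ a ≠ 0 := (map_ne_zero _).mpr ha0
        have hca : v.ord (algebraMap k κ a) = 0 := (isAddVal_ord v).map_const a ha0
        rw [sub_eq_add_neg]
        apply (isAddVal_ord v).map_add_of_lt hh0 (neg_ne_zero.mpr hane)
        rw [(isAddVal_ord v).map_neg hane, hca, hordv]
        omega
    rw [hEaeq, hsame, hordv]
    ring
  have hEa1 : ∀ v : Place k κ, Ea v ≤ 1 := by
    intro v
    by_cases hv : 0 < E0 v
    · rw [hEaE0 v hv]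
      exact zero_le_one
    · have hE0v : E0 v = 0 := le_antisymm (not_lt.mp hv) (hE0nn v)
      rw [hEaeq, hE0v, zero_add]
      by_contra hcon
      have hne : v.ord (h - algebraMap k κ a) ≠ 0 := by omega
      have hd := ffData_ord_diff h hhtr v (h - algebraMap k κ a) hne
      rw [map_sub, Derivation.map_algebraMap, sub_zero, ← hWh v] at hd
      have hvW : v ∈ Wh.support := Finsupp.mem_support_iff.mpr (by rw [hd]; omega)
      exact haBad v (Finset.mem_union_right _ hvW) (by omega)
  have hEaT : ∀ v ∈ T, Ea v = 0 := by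
    intro v hvT
    by_cases hv : 0 < E0 v
    · exact hEaE0 v hv
    · have hE0v : E0 v = 0 := le_antisymm (not_lt.mp hv) (hE0nn v)
      have h1 : 0 ≤ Ea v := hEann v
      have h2 := haBad v (Finset.mem_union_left _ hvT)
      rw [hEaeq, hE0v, zero_add] at h1 ⊢
      omega
  refine ⟨Ea.support, fa, hfa0, ?_, ?_⟩
  · rw [Finset.disjoint_left]
    intro v hv hvT
    exact (Finsupp.mem_support_iff.mp hv) (hEaT v hvT)
  · intro v
    rw [eq_finDiv_support hEann hEa1, hEa, Finsupp.add_apply, divOf_apply hfa0]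

end Bertini


/-! ### A function unramified at finitely many points, with distinct values -/

section Unramified

open Fermat.Agent.S24 Fermat.Agent.S20.RR Fermat.Agent.Gateway.GoodRed

attribute [local instance] XSetting.polyAlgebra

variable [IsAlgClosed k] [CharZero k] {x : κ} (hx : Transcendental k x)
  [FiniteDimensional k⟮x⟯ κ]
include hx

theorem ord_unif (v : Place k κ) : v.ord (unif v) = 1 := by
  have h1 := adicValuation_unif v
  rw [Fermat.Agent.S24.ZP.adicValuation_eq_exp_neg_ord v (unif_ne_zero v), exp_inj] at h1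
  omega

/-- A function, integral over `k[x]`, which at every point `Q` of a finite set of finite places
takes a value `val Q` with multiplicity one, the values being pairwise distinct. -/
theorem exists_unramified_function (U : Finset (Place k κ)) (hU : ∀ Q ∈ U, 0 ≤ Q.ord x) :
    ∃ (z : κ) (val : Place k κ → k), IsIntegral (Algebra.adjoin k {x}) z ∧
      Set.InjOn val (U : Set (Place k κ)) ∧
      ∀ Q ∈ U, Q.ord (z - algebraMap k κ (val Q)) = 1 := by
  classical
  have hx0 : x ≠ 0 := by
    rintro rfl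
    exact hx isAlgebraic_zero
  haveI := XSetting.isFractionRing_polyAlgebra hx
  haveI : Algebra.IsSeparable k⟮x⟯ κ := inferInstance
  -- the values
  let val : Place k κ → k := fun Q =>
    if hQ : Q ∈ U then (((U.equivFin ⟨Q, hQ⟩ : Fin U.card) : ℕ) : k) else 0
  have hval : Set.InjOn val (U : Set (Place k κ)) := by
    intro Q hQ Q' hQ' h
    have hQ1 : Q ∈ U := Finset.mem_coe.mp hQ
    have hQ2 : Q' ∈ U := Finset.mem_coe.mp hQ'
    simp only [val, dif_pos hQ1, dif_pos hQ2] at h
    have h1 := Fin.val_injective (Nat.cast_injective h)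
    have h2 := U.equivFin.injective h1
    exact congrArg Subtype.val h2
  -- approximation
  have hT : Disjoint U (StrongApprox.polesFinset k k⟮x⟯ κ) := by
    rw [Finset.disjoint_left]
    intro Q hQ hQp
    rw [StrongApprox.mem_polesFinset, XSetting.xF_eq] at hQp
    exact hQp ((place_mem_iff_ord_nonneg Q hx0).mpr (hU Q hQ))
  obtain ⟨z, hz1, hz2⟩ := StrongApprox.strongApprox_off_poles k k⟮x⟯ κ U hT
    (fun v => algebraMap k κ (val v) + unif v) (fun _ => 2)
  have hzord : ∀ Q ∈ U, Q.ord (z - algebraMap k κ (val Q)) = 1 := by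
    intro Q hQ
    rcases hz1 Q hQ with h | h
    · rw [h, add_sub_cancel_left]
      exact ord_unif hx Q
    · have hdecomp : z - algebraMap k κ (val Q) =
          unif Q + (z - (algebraMap k κ (val Q) + unif Q)) := by ring
      by_cases h0 : z - (algebraMap k κ (val Q) + unif Q) = 0
      · rw [hdecomp, h0, add_zero]
        exact ord_unif hx Q
      · rw [hdecomp, (isAddVal_ord Q).map_add_of_lt (unif_ne_zero Q) h0
          (by rw [ord_unif hx Q]; omega)]
        exact ord_unif hx Q
  refine ⟨z, val, ?_, hval, hzord⟩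
  rw [PlacesIntegral.isIntegral_iff_forall_ord_nonneg x hx]
  intro P hP
  by_cases hz0 : z = 0
  · rw [hz0, P.ord_zero]
  rw [← place_mem_iff_ord_nonneg P hz0]
  by_cases hPU : P ∈ U
  · have hne : z - algebraMap k κ (val P) ≠ 0 := by
      intro h0
      have := hzord P hPU
      rw [h0, P.ord_zero] at this
      omega
    have h1 : z - algebraMap k κ (val P) ∈ P.toValuationSubring :=
      (place_mem_iff_ord_nonneg P hne).mpr (by rw [hzord P hPU]; omega)
    have h2 : algebraMap k κ (val P) ∈ P.toValuationSubring := P.algebraMap_mem' _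
    have h3 : z = (z - algebraMap k κ (val P)) + algebraMap k κ (val P) := by ring
    rw [h3]
    exact add_mem h1 h2
  · apply hz2 P hPU
    rw [StrongApprox.mem_polesFinset, XSetting.xF_eq, not_not]
    exact (place_mem_iff_ord_nonneg P hx0).mpr hP

end Unramified

/-! ### The nice representative -/

section Main

variable [IsAlgClosed k] [CharZero k] {x : κ} (hx : Transcendental k x)
  [FiniteDimensional k⟮x⟯ κ]
include hx

/-- **(L1) Nice representatives.** -/
theorem exists_niceRep (D : Divisor k κ) (hD : Divisor.degree D = 0)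
    (S : Finset (Place k κ)) (m₀ : ℕ) :
    ∃ (Uvar Ufix U0 : Finset (Place k κ)) (f z : κ) (val : Place k κ → k),
      Disjoint Uvar Ufix ∧ Disjoint Uvar U0 ∧ Disjoint Ufix U0 ∧
      Disjoint Uvar S ∧ Disjoint Ufix S ∧ Disjoint U0 S ∧
      (∀ Q : Place k κ, Q ∈ Uvar ∨ Q ∈ Ufix ∨ Q ∈ U0 → Q.ord x = 0) ∧
      Uvar.card = genusFF k κ ∧ U0.card = Uvar.card + Ufix.card ∧ m₀ ≤ U0.card ∧
      finrank k (riemannRochSpace (finDiv Uvar)) = 1 ∧
      f ≠ 0 ∧ (∀ v : Place k κ, finDiv Uvar v + finDiv Ufix v - finDiv U0 v = D v + v.ord f) ∧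
      IsIntegral (Algebra.adjoin k {x}) z ∧
      Set.InjOn val {Q : Place k κ | Q ∈ Uvar ∨ Q ∈ Ufix ∨ Q ∈ U0} ∧
      ∀ Q : Place k κ, Q ∈ Uvar ∨ Q ∈ Ufix ∨ Q ∈ U0 →
        Q.ord (z - algebraMap k κ (val Q)) = 1 := by
  classical
  haveI := hasPrincipalDivisors_cz hx
  haveI : ∀ v : Place k κ, v.FiniteResidue := finiteResidue_cz hx
  haveI := nonempty_place_cz hx
  have hdeg1 := deg_eq_one_cz hx
  have hx0 : x ≠ 0 := by
    rintro rfl
    exact hx isAlgebraic_zero
  set S' : Finset (Place k κ) := S ∪ (divOf (K := k) x).support with hS'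
  have hS'ord : ∀ Q : Place k κ, Q ∉ S' → Q.ord x = 0 := by
    intro Q hQ
    rw [hS', Finset.mem_union, not_or, Finsupp.mem_support_iff, not_not, divOf_apply hx0] at hQ
    exact hQ.2
  obtain ⟨c, hc⟩ := exists_reduced_member hx
  set g := genusFF k κ with hg
  obtain ⟨Uvar, hvc, hvS, hv1⟩ := exists_nonspecial hx S' g le_rfl
  set m : ℕ := max m₀ (g + c.toNat) with hm
  obtain ⟨U0, h0c, h0d⟩ := exists_finset_disjoint hx (S' ∪ Uvar) m
  set G : Divisor k κ := D + finDiv U0 - finDiv Uvar with hG
  have hdegG : Divisor.degree G = (m : ℤ) - g := by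
    rw [hG, map_sub, map_add, hD, degree_finDiv hdeg1, degree_finDiv hdeg1, h0c, hvc]
    ring
  have hcG : c ≤ Divisor.degree G := by
    rw [hdegG]
    have h1 : g + c.toNat ≤ m := le_max_right _ _
    have h2 : c ≤ (c.toNat : ℤ) := Int.self_le_toNat c
    have h3 : ((g + c.toNat : ℕ) : ℤ) ≤ (m : ℤ) := by exact_mod_cast h1
    push_cast at h3
    linarith
  obtain ⟨Ufix, f, hf0, hfd, hfeq⟩ := hc G (S' ∪ Uvar ∪ U0) hcG
  -- disjointness
  rw [Finset.disjoint_union_right, Finset.disjoint_union_right] at hfd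
  obtain ⟨⟨hfS', hfv⟩, hf0'⟩ := hfd
  rw [Finset.disjoint_union_right] at h0d
  obtain ⟨h0S', h0v⟩ := h0d
  have hsub : S ⊆ S' := Finset.subset_union_left
  -- the cardinality of `Ufix`
  have hfdiv : finDiv Ufix = G + divOf (K := k) f := by
    ext v
    rw [hfeq v, Finsupp.add_apply, divOf_apply hf0]
  have hcardfix : (Ufix.card : ℤ) = (m : ℤ) - g := by
    rw [← degree_finDiv hdeg1, hfdiv, map_add, degree_divOf, add_zero, hdegG]
  have hgm : g ≤ m := le_trans (Nat.le_add_right _ _) (le_max_right _ _)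
  have hcard0 : U0.card = Uvar.card + Ufix.card := by
    rw [h0c, hvc]
    have : (m : ℤ) = (g : ℤ) + (Ufix.card : ℤ) := by linarith
    exact_mod_cast this
  -- the points are finite places
  have hall : ∀ Q ∈ Uvar ∪ Ufix ∪ U0, Q.ord x = 0 := by
    intro Q hQ
    apply hS'ord
    rw [Finset.mem_union, Finset.mem_union] at hQ
    rcases hQ with (hQ | hQ) | hQ
    · exact Finset.disjoint_left.mp hvS hQ
    · exact Finset.disjoint_left.mp hfS' hQ
    · exact Finset.disjoint_left.mp h0S' hQ
  obtain ⟨z, val, hzint, hvalinj, hzord⟩ := exists_unramified_function hx (Uvar ∪ Ufix ∪ U0)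
    (fun Q hQ => by rw [hall Q hQ])
  have hmem : ∀ Q : Place k κ, Q ∈ Uvar ∨ Q ∈ Ufix ∨ Q ∈ U0 → Q ∈ Uvar ∪ Ufix ∪ U0 := by
    intro Q hQ
    rw [Finset.mem_union, Finset.mem_union]
    tauto
  refine ⟨Uvar, Ufix, U0, f, z, val, hfv.symm, h0v.symm, hf0', ?_, ?_, ?_,
    fun Q hQ => hall Q (hmem Q hQ), hvc, hcard0, ?_,
    hv1, hf0, ?_, hzint,
    fun Q hQ Q' hQ' h => hvalinj (Finset.mem_coe.mpr (hmem Q hQ)) (Finset.mem_coe.mpr (hmem Q' hQ')) h,
    fun Q hQ => hzord Q (hmem Q hQ)⟩
  · exact Finset.disjoint_of_subset_right hsub hvS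
  · exact Finset.disjoint_of_subset_right hsub hfS'
  · exact Finset.disjoint_of_subset_right hsub h0S'
  · rw [h0c]
    exact le_max_left _ _
  · intro v
    rw [hfeq v, hG, Finsupp.sub_apply, Finsupp.add_apply]
    ring

/-- **(L1), variant with the polar part concentrated at one place `P`** (the point at infinity
of an Apery model): for every large `m` there are `Uvar`, `Ufix` with `#Uvar = g`,
`#Uvar + #Ufix = m`, `l(Uvar) = 1` and `Uvar + Ufix - m P = D + div f`. -/
theorem exists_niceRep_infty (D : Divisor k κ) (hD : Divisor.degree D = 0) (P : Place k κ)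
    (S : Finset (Place k κ)) :
    ∃ M : ℕ, ∀ m : ℕ, M ≤ m →
      ∃ (Uvar Ufix : Finset (Place k κ)) (f z : κ) (val : Place k κ → k),
        Disjoint Uvar Ufix ∧ Disjoint Uvar S ∧ Disjoint Ufix S ∧ P ∉ Uvar ∧ P ∉ Ufix ∧
        (∀ Q : Place k κ, Q ∈ Uvar ∨ Q ∈ Ufix → Q.ord x = 0) ∧
        Uvar.card = genusFF k κ ∧ Uvar.card + Ufix.card = m ∧
        finrank k (riemannRochSpace (finDiv Uvar)) = 1 ∧
        f ≠ 0 ∧
        (∀ v : Place k κ, finDiv Uvar v + finDiv Ufix v - (m : ℤ) * Finsupp.single P (1 : ℤ) v =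
          D v + v.ord f) ∧
        IsIntegral (Algebra.adjoin k {x}) z ∧
        Set.InjOn val {Q : Place k κ | Q ∈ Uvar ∨ Q ∈ Ufix} ∧
        ∀ Q : Place k κ, Q ∈ Uvar ∨ Q ∈ Ufix → Q.ord (z - algebraMap k κ (val Q)) = 1 := by
  classical
  haveI := hasPrincipalDivisors_cz hx
  haveI : ∀ v : Place k κ, v.FiniteResidue := finiteResidue_cz hx
  haveI := nonempty_place_cz hx
  have hdeg1 := deg_eq_one_cz hx
  have hx0 : x ≠ 0 := by
    rintro rfl
    exact hx isAlgebraic_zero
  set S' : Finset (Place k κ) := insert P (S ∪ (divOf (K := k) x).support) with hS'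
  have hS'ord : ∀ Q : Place k κ, Q ∉ S' → Q.ord x = 0 := by
    intro Q hQ
    rw [hS', Finset.mem_insert, not_or, Finset.mem_union, not_or, Finsupp.mem_support_iff,
      not_not, divOf_apply hx0] at hQ
    exact hQ.2.2
  have hPS' : P ∈ S' := Finset.mem_insert_self _ _
  have hsub : S ⊆ S' := fun Q hQ => Finset.mem_insert_of_mem (Finset.mem_union_left _ hQ)
  obtain ⟨c, hc⟩ := exists_reduced_member hx
  set g := genusFF k κ with hg
  obtain ⟨Uvar, hvc, hvS, hv1⟩ := exists_nonspecial hx S' g le_rfl
  refine ⟨g + c.toNat, fun m hm => ?_⟩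
  set G : Divisor k κ := D + Finsupp.single P (m : ℤ) - finDiv Uvar with hG
  have hdegG : Divisor.degree G = (m : ℤ) - g := by
    rw [hG, map_sub, map_add, hD, Divisor.degree_single, hdeg1 P, degree_finDiv hdeg1, hvc]
    push_cast
    ring
  have hcG : c ≤ Divisor.degree G := by
    rw [hdegG]
    have h2 : c ≤ (c.toNat : ℤ) := Int.self_le_toNat c
    have h3 : ((g + c.toNat : ℕ) : ℤ) ≤ (m : ℤ) := by exact_mod_cast hm
    push_cast at h3
    linarith
  obtain ⟨Ufix, f, hf0, hfd, hfeq⟩ := hc G (S' ∪ Uvar) hcG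
  rw [Finset.disjoint_union_right] at hfd
  obtain ⟨hfS', hfv⟩ := hfd
  have hfdiv : finDiv Ufix = G + divOf (K := k) f := by
    ext v
    rw [hfeq v, Finsupp.add_apply, divOf_apply hf0]
  have hcardfix : (Ufix.card : ℤ) = (m : ℤ) - g := by
    rw [← degree_finDiv hdeg1, hfdiv, map_add, degree_divOf, add_zero, hdegG]
  have hcard : Uvar.card + Ufix.card = m := by
    rw [hvc]
    have : ((g + Ufix.card : ℕ) : ℤ) = (m : ℤ) := by push_cast; linarith
    exact_mod_cast this
  have hall : ∀ Q ∈ Uvar ∪ Ufix, Q.ord x = 0 := by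
    intro Q hQ
    apply hS'ord
    rw [Finset.mem_union] at hQ
    rcases hQ with hQ | hQ
    · exact Finset.disjoint_left.mp hvS hQ
    · exact Finset.disjoint_left.mp hfS' hQ
  obtain ⟨z, val, hzint, hvalinj, hzord⟩ := exists_unramified_function hx (Uvar ∪ Ufix)
    (fun Q hQ => by rw [hall Q hQ])
  refine ⟨Uvar, Ufix, f, z, val, hfv.symm, Finset.disjoint_of_subset_right hsub hvS,
    Finset.disjoint_of_subset_right hsub hfS', fun h => Finset.disjoint_left.mp hvS h hPS',
    fun h => Finset.disjoint_left.mp hfS' h hPS', fun Q hQ => hall Q (Finset.mem_union.mpr hQ),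
    hvc, hcard, hv1, hf0, ?_, hzint,
    fun Q hQ Q' hQ' h => hvalinj (Finset.mem_coe.mpr (Finset.mem_union.mpr hQ))
      (Finset.mem_coe.mpr (Finset.mem_union.mpr hQ')) h,
    fun Q hQ => hzord Q (Finset.mem_union.mpr hQ)⟩
  intro v
  rw [hfeq v, hG, Finsupp.sub_apply, Finsupp.add_apply, Finsupp.single_apply,
    Finsupp.single_apply]
  split_ifs <;> ring

end Main

end Fermat.Agent.S27x.Lift.NiceRep
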