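import Fermat.Agent.S27x.Lift.FrameAlg
import Fermat.Agent.S27x.Lift.JacInj
import Fermat.Agent.S27x.Lift.FactorSystem
import Fermat.Agent.S27x.Spec.GaussNorm.ModelPole

/-!
# P-S27, block D7: the `A`-side packaging lemmas of the Hensel step

For an integral Apéry model `D : AperyData A F ι` with `hcard : card ι = D.W.d` and
`P := D.model.inftyPlace` (the unique pole of `D.x`):

* (a) `ord_evA_nonneg_of_ne`, `ord_nonneg_of_mem_lam`, `ord_nonneg_of_mem_BA` : the elements of
  `B_A = ⊕ A[x] f_i` are regular off `P`;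
* (b) `neg_le_ord_evA`, `neg_le_ord_of_mem_lam` : the pole bound `-N ≤ ord_P y` for `y ∈ Λ_N`;
* (c) `ne_algebraMap_of_res_notMem_range`, `ne_algebraMap_of_ord_res_neg` : an element of `D.O`
  whose residue is not a constant (e.g. has a pole) is not a constant;
* (d) `separable_rootPoly_mul`, `separable_map_mul` : the reduction of `R_fix * R_var` is separable;
* (e) `aeval_map_mul`, `rvar_pt_eq_aeval`, `rdot_pt_eq_aeval`, `coe_aeval_BA` : the `aeval`
  identities between the shapes of `FactorSystem` and of `Surj.LiftHyp`;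
* `exists_liftData` : all of the above put together = the conclusion of `Surj.LiftHyp` from a
  solution `u * u' = (R_fix(z) * R_var(z)) ^ n` with `z ∈ Λ_e`, `u ∈ Λ_{n m}`, `u' ∈ Λ_{N₂}`.
-/

set_option autoImplicit false
set_option linter.unusedSectionVars false

namespace Fermat.Agent.S27x.Lift.Package

open Polynomial AlgebraicCurve IsLocalRing
open Fermat.Agent.S27x.Spec.GaussNorm Fermat.Agent.S27x.Lift.Frame Fermat.Agent.S27x.Lift.JacInj
open Fermat.Agent.S27x.Lift.FactorSystem

/-! ### (d) separability of the reduction of `R_fix * R_var` -/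

section Separable

variable {k κ : Type*} [Field k] [Field κ] [Algebra k κ]
  {Uvar Ufix : Finset (Place k κ)} {z : κ} {val : Place k κ → k}

/-- `∏_{Q ∈ Ufix} (T - val Q) * ∏_{Q ∈ Uvar} (T - val Q)` is separable. -/
theorem separable_rootPoly_mul (H : Unram Uvar Ufix z val) :
    (rootPoly val Ufix * rootPoly val Uvar).Separable := by
  classical
  unfold rootPoly
  rw [← Finset.prod_union H.disj.symm, separable_prod_X_sub_C_iff']
  intro Q hQ Q' hQ' h
  have hQm : Q ∈ Uvar ∨ Q ∈ Ufix := (Finset.mem_union.mp hQ).symm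
  have hQ'm : Q' ∈ Uvar ∨ Q' ∈ Ufix := (Finset.mem_union.mp hQ').symm
  exact H.inj hQm hQ'm h

/-- (d) the reduction of `R_fix * R_var` is separable. -/
theorem separable_map_mul (H : Unram Uvar Ufix z val) {A : Type*} [CommRing A] {π : A →+* k}
    {Rfix Rvar : A[X]} (hfix : Rfix.map π = rootPoly val Ufix)
    (hvar : Rvar.map π = rootPoly val Uvar) : ((Rfix * Rvar).map π).Separable := by
  rw [Polynomial.map_mul, hfix, hvar]
  exact separable_rootPoly_mul H

end Separable

/-! ### (e) the shapes of `R_var(z)` in `FactorSystem` -/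

section Shapes

variable {A B : Type*} [CommRing A] [CommRing B] [Algebra A B] {I1 I2 : Type*} {g : ℕ}

/-- `R_var(z)` of `FactorSystem` at an `A`-point is `aeval z` of the monic polynomial. -/
theorem rvar_pt_eq_aeval (C : Core B I1 I2) (x : Idx I1 I2 g → A) :
    C.rvar (Data.pt x) = aeval C.z (rvarPoly fun l => x (rIdx l)) := by
  simp only [Core.rvar, Core.rdot, Data.pt, rvarPoly, map_add, map_pow, aeval_X, map_sum, map_mul,
    aeval_C]

/-- The non-leading part of `R_var(z)` at an `A`-point. -/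
theorem rdot_pt_eq_aeval (C : Core B I1 I2) (x : Idx I1 I2 g → A) :
    C.rdot (Data.pt x) =
      aeval C.z (∑ l : Fin g, Polynomial.C (x (rIdx l)) * Polynomial.X ^ (l : ℕ)) := by
  simp only [Core.rdot, Data.pt, map_pow, aeval_X, map_sum, map_mul, aeval_C]

end Shapes

variable {K : Type*} [Field K] {A : ValuationSubring K} {F : Type*} [Field F] [Algebra K F]
  {ι : Type*} [Fintype ι] [DecidableEq ι] (D : AperyData A F ι)

/-- (e) `aeval zf ((R_fix * R_var).map (A → K)) = R_fix(zf) * R_var(zf)`. -/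
theorem aeval_map_mul (zf : F) (Rfix Rvar : A[X]) :
    aeval zf ((Rfix * Rvar).map (algebraMap A K)) = aeval zf Rfix * aeval zf Rvar := by
  rw [aeval_map_algebraMap, map_mul]

/-- (e) `aeval` in the ring `B_A` and in `F`. -/
theorem coe_aeval_BA (z : BA D) (p : A[X]) : ((aeval z p : BA D) : F) = aeval (z : F) p :=
  aeval_subalgebra_coe p (BA D) z

theorem toK_zero : toK (0 : ι → A[X]) = (0 : ι → K[X]) := by
  funext i
  simp [toK]

theorem toK_ne_zero {p : ι → A[X]} (hp : p ≠ 0) : toK p ≠ (0 : ι → K[X]) := by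
  intro h
  exact hp (toK_injective (h.trans toK_zero.symm))

/-! ### (a), (b): regularity off `P` and the pole bound -/

section Orders

variable (hcard : Fintype.card ι = D.W.d)
include hcard

/-- (a) the elements of `B_A` are regular off the place at infinity. -/
theorem ord_evA_nonneg_of_ne {v : Place K F} (hv : v ≠ D.model.inftyPlace) (p : ι → A[X]) :
    0 ≤ v.ord (ev D.x D.f p) := by
  by_cases hp : p = 0
  · rw [hp, ev_zero, Place.ord_zero]
  · rw [← D.evK_toK p]
    exact D.model.ord_ev_nonneg_of_ne hcard hv (toK_ne_zero hp)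

/-- (b) the pole bound at infinity. -/
theorem neg_le_ord_evA {p : ι → A[X]} {N : ℕ} (hp : D.W.wdeg p ≤ N) :
    -(N : ℤ) ≤ D.model.inftyPlace.ord (ev D.x D.f p) := by
  by_cases hp0 : p = 0
  · rw [hp0, ev_zero, Place.ord_zero]
    omega
  · rw [← D.evK_toK p, D.model.ord_inftyPlace_ev hcard (toK_ne_zero hp0)]
    have h1 : D.W.wdeg (toK p) ≤ D.W.wdeg p := D.W.wdeg_map_le (algebraMap A K) p
    have h2 : (D.W.wdeg (toK p) : ℤ) ≤ N := by exact_mod_cast h1.trans hp
    omega

/-- (a) for `Λ_N`. -/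
theorem ord_nonneg_of_mem_lam {N : ℕ} {y : F} (hy : y ∈ lam A D.W D.x D.f N) {v : Place K F}
    (hv : v ≠ D.model.inftyPlace) : 0 ≤ v.ord y := by
  obtain ⟨p, -, rfl⟩ := (mem_lam_iff D.W D.x D.f).mp hy
  exact ord_evA_nonneg_of_ne D hcard hv p

/-- (a) for `B_A`. -/
theorem ord_nonneg_of_mem_BA {y : F} (hy : y ∈ BA D) {v : Place K F}
    (hv : v ≠ D.model.inftyPlace) : 0 ≤ v.ord y := by
  obtain ⟨p, rfl⟩ := (mem_ringB (isFrameA D)).mp hy
  exact ord_evA_nonneg_of_ne D hcard hv p

/-- (b) for `Λ_N`. -/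
theorem neg_le_ord_of_mem_lam {N : ℕ} {y : F} (hy : y ∈ lam A D.W D.x D.f N) :
    -(N : ℤ) ≤ D.model.inftyPlace.ord y := by
  obtain ⟨p, hp, rfl⟩ := (mem_lam_iff D.W D.x D.f).mp hy
  exact neg_le_ord_evA D hcard hp

end Orders

/-! ### (c) nonconstancy -/

section Nonconstant

variable {k : Type*} [Field k] [Algebra k D.κ] {π : A →+* k} (hc : D.Compat π)
include hc

/-- (c) an element of `D.O` whose residue is not a constant is not a constant. -/
theorem ne_algebraMap_of_res_notMem_range {zf : F} (hz : zf ∈ D.O)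
    (h : D.res ⟨zf, hz⟩ ∉ Set.range (algebraMap k D.κ)) (a : K) : zf ≠ algebraMap K F a := by
  intro heq
  have ha : a ∈ A := (D.algebraMap_mem_iff a).mp (heq ▸ hz)
  apply h
  refine ⟨π ⟨a, ha⟩, ?_⟩
  rw [hc ⟨a, ha⟩]
  congr 1
  exact Subtype.ext heq.symm

/-- (c) an element of `D.O` whose residue has a pole is not a constant. -/
theorem ne_algebraMap_of_ord_res_neg {zf : F} (hz : zf ∈ D.O) {w : Place k D.κ}
    (hw : w.ord (D.res ⟨zf, hz⟩) < 0) (a : K) : zf ≠ algebraMap K F a := by
  refine ne_algebraMap_of_res_notMem_range D hc hz ?_ a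
  rintro ⟨c, hc'⟩
  rw [← hc', Fermat.Agent.S24.ZP.ord_algebraMap] at hw
  exact lt_irrefl _ hw

end Nonconstant

/-! ### The conclusion of `Surj.LiftHyp` -/

section Concl

variable (hcard : Fintype.card ι = D.W.d) {k : Type*} [Field k] [Algebra k D.κ] {π : A →+* k}
  (hc : D.Compat π)
include hcard hc

/-- **The packaging**: a solution `u * u' = (R_fix(z) * R_var(z)) ^ n` of the factorisation
system in the frames `Λ_e`, `Λ_{n m}`, `Λ_{N₂}`, with the prescribed reductions, gives the
conclusion of `Surj.LiftHyp` (for `R := D.redSetup hc hπ hr hne`, where `R.res = D.res` and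
`R.π = π` by `rfl`). -/
theorem exists_liftData {n m e N₂ : ℕ} {zf u u' : F} (hz : zf ∈ lam A D.W D.x D.f e)
    (hu : u ∈ lam A D.W D.x D.f (n * m)) (hu' : u' ∈ lam A D.W D.x D.f N₂)
    {Uvar Ufix : Finset (Place k D.κ)} {zb ub : D.κ} {val : Place k D.κ → k}
    (H : Unram Uvar Ufix zb val) {Rfix Rvar : A[X]} (hfix : Rfix.map π = rootPoly val Ufix)
    (hvar : Rvar.map π = rootPoly val Uvar) (hresz : D.res ⟨zf, lam_le_O D hz⟩ = zb)
    (hresu : D.res ⟨u, lam_le_O D hu⟩ = ub) {w : Place k D.κ} (hw : w.ord zb < 0)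
    (heq : u * u' = (aeval zf Rfix * aeval zf Rvar) ^ n) :
    ∃ (zf u u' : F) (hzO : zf ∈ D.O) (huO : u ∈ D.O) (pA : A[X]),
      D.res ⟨zf, hzO⟩ = zb ∧ D.res ⟨u, huO⟩ = ub ∧
      (∀ a : K, zf ≠ algebraMap K F a) ∧
      (∀ v : Place K F, v ≠ D.model.inftyPlace → 0 ≤ v.ord zf) ∧
      (∀ v : Place K F, v ≠ D.model.inftyPlace → 0 ≤ v.ord u) ∧
      (∀ v : Place K F, v ≠ D.model.inftyPlace → 0 ≤ v.ord u') ∧
      -((n : ℤ) * m) ≤ D.model.inftyPlace.ord u ∧
      (pA.map π).Separable ∧
      u * u' = (aeval zf (pA.map (algebraMap A K))) ^ n := by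
  refine ⟨zf, u, u', lam_le_O D hz, lam_le_O D hu, Rfix * Rvar, hresz, hresu, ?_,
    fun v hv => ord_nonneg_of_mem_lam D hcard hz hv,
    fun v hv => ord_nonneg_of_mem_lam D hcard hu hv,
    fun v hv => ord_nonneg_of_mem_lam D hcard hu' hv, ?_, separable_map_mul H hfix hvar, ?_⟩
  · refine ne_algebraMap_of_ord_res_neg D hc (lam_le_O D hz) (w := w) ?_
    rw [hresz]
    exact hw
  · have := neg_le_ord_of_mem_lam D hcard hu
    push_cast at this
    exact this
  · rw [aeval_map_mul]
    exact heq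

end Concl

end Fermat.Agent.S27x.Lift.Package
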