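import Mathlib
import Fermat.Agent.S27x.Spec.AperyModel
import Fermat.Agent.S27x.Spec.GaussNorm
import Fermat.Agent.S27x.Spec.GaussNorm.ModelGenus

/-!
# P-S27 block D7: change of coordinate in a weighted model (`B_A` is free over `A[z]`)

Layer 1 (one fibre): `M : IsModel W x f i₀ P` a NORMAL weighted model over an algebraically closed
field `k` of characteristic zero (`hcard`, `hnorm`).  For `z = ev x f ζ` of weighted degree
`δ ≥ 1` and a family `γ j` (`j : Fin δ`) whose weighted degrees `n j ≡ j mod δ` are the minimal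
elements of the semigroup of weights in their classes modulo `δ`, the ring `B = {ev x f u}` is free
over `k[z]` on `g j = ev x f (γ j)`, without cancellation of weighted degrees.  Such families
exist.

Layer 2 (two fibres): for `D : GaussNorm.AperyData A F ι` with normal generic and special fibre,
`z = ev x f ζ`, `ζ : ι → A[X]` with `wdeg ζ̄ = wdeg ζ = δ ≥ 1`: there are `γ j : ι → A[X]` such that
`g j = ev x f (γ j)` is a basis of `B_A = {ev x f u | u : ι → A[X]}` over `A[z]`, of `B` over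
`K[z]`, and the reductions are a basis of `B̄` over `k[z̄]`.
-/

set_option autoImplicit false
set_option linter.unusedSectionVars false
set_option linter.style.haveILetI false

noncomputable section

open Polynomial AlgebraicCurve IntermediateField

namespace Fermat.Agent.S27x.Lift.Recoord

open Fermat.Agent.S27x.Spec Fermat.Agent.S27x.Spec.GaussNorm Fermat.Agent.S27x.Spec.AperyCore
open Fermat.Agent.S27x.Spec.AperyRR

/-! ### Layer 1: one fibre -/

section Fibre

variable {ι : Type*} [Fintype ι] {W : Weights ι} {k L : Type*} [Field k] [Field L] [Algebra k L]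
  [IsAlgClosed k] [CharZero k]
  {x : L} {f : ι → L} {i₀ : ι} {P : ι → ι → ι → k[X]} (M : IsModel W x f i₀ P)
  (hcard : Fintype.card ι = W.d)

/-- `ev x f u` as an element of the ring of functions regular off infinity. -/
def evB (u : ι → k[X]) : regularOff M.inftyPlace := ⟨ev x f u, M.ev_mem_regularOff hcard u⟩

@[simp] theorem coe_evB (u : ι → k[X]) : ((evB M hcard u : regularOff M.inftyPlace) : L) = ev x f u :=
  rfl

theorem evB_ne_zero {u : ι → k[X]} (hu : u ≠ 0) : evB M hcard u ≠ 0 := by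
  intro h
  exact M.ev_ne_zero hu (congrArg Subtype.val h)

/-- The pole order at infinity, as a `PoleOrd`. -/
def poleOrdInfty : PoleOrd k (regularOff M.inftyPlace) :=
  haveI := M.finiteDimensional
  poleOrdRR M.transcendental M.inftyPlace

theorem nu_evB {u : ι → k[X]} (hu : u ≠ 0) : (poleOrdInfty M).nu (evB M hcard u) = W.wdeg u := by
  haveI := M.finiteDimensional
  unfold poleOrdInfty
  rw [poleOrdRR_nu, coe_evB, M.poleOrd_inftyPlace_ev hcard hu]

theorem ν_evB {u : ι → k[X]} (hu : u ≠ 0) :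
    (poleOrdInfty M).ν (evB M hcard u) = ((W.wdeg u : ℕ) : WithBot ℕ) := by
  rw [(poleOrdInfty M).ν_eq_nu (evB_ne_zero M hcard hu), nu_evB M hcard hu]

end Fibre

/-- `n j` is the least element of the semigroup of weights in the class of `j` modulo `δ`. -/
structure IsAperyFamily {ι : Type*} [Fintype ι] (W : Weights ι) (δ : ℕ) (n : Fin δ → ℕ) : Prop where
  hmod : ∀ j : Fin δ, n j % δ = j
  hmem : ∀ j, n j ∈ W.semigroup
  hmin : ∀ j : Fin δ, ∀ s ∈ W.semigroup, s % δ = j → n j ≤ s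

section Fibre2

variable {ι : Type*} [Fintype ι] {W : Weights ι} {k L : Type*} [Field k] [Field L] [Algebra k L]
  [IsAlgClosed k] [CharZero k]
  {x : L} {f : ι → L} {i₀ : ι} {P : ι → ι → ι → k[X]} (M : IsModel W x f i₀ P)
  (hcard : Fintype.card ι = W.d)
  (hnorm : ∀ b : L, IsIntegral (Algebra.adjoin k {x}) b → ∃ u : ι → k[X], b = ev x f u)

include M hcard hnorm in
theorem exists_eq_evB (b : regularOff M.inftyPlace) : ∃ u : ι → k[X], b = evB M hcard u := by
  obtain ⟨u, hu⟩ := (M.mem_regularOff_inftyPlace_iff hcard hnorm).mp b.2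
  exact ⟨u, Subtype.ext hu⟩

include M hcard hnorm in
theorem nu_mem_semigroup {b : regularOff M.inftyPlace} (hb : b ≠ 0) :
    (poleOrdInfty M).nu b ∈ W.semigroup := by
  obtain ⟨u, rfl⟩ := exists_eq_evB M hcard hnorm b
  have hu : u ≠ 0 := by
    rintro rfl
    apply hb
    exact Subtype.ext (ev_zero x f)
  rw [nu_evB M hcard hu]
  exact W.wdeg_mem_semigroup hu

omit [IsAlgClosed k] [CharZero k] in
theorem ne_zero_of_wdeg_pos {R : Type*} [CommRing R] {ζ : ι → R[X]} (h : 0 < W.wdeg ζ) : ζ ≠ 0 := by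
  rintro rfl
  rw [W.wdeg_zero] at h
  exact lt_irrefl _ h

/-- The Apéry data of the coordinate `z = ev x f ζ` attached to a family `γ` with the minimal
weighted degrees. -/
def aperyOf {δ : ℕ} (hδ : 0 < δ) {ζ : ι → k[X]} (hζ : W.wdeg ζ = δ) {n : Fin δ → ℕ}
    (hn : IsAperyFamily W δ n) (γ : Fin δ → ι → k[X]) (hγ0 : ∀ j, γ j ≠ 0)
    (hγ : ∀ j, W.wdeg (γ j) = n j) :
    AperyData (poleOrdInfty M) δ (evB M hcard ζ) where
  hd := hδ
  hx := by
    rw [ν_evB M hcard (ne_zero_of_wdeg_pos (W := W) (by rw [hζ]; exact hδ)), hζ]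
  m := n
  f := fun j => evB M hcard (γ j)
  hf := fun j => by rw [ν_evB M hcard (hγ0 j), hγ j]
  hm := hn.hmod
  hmin := fun j _ hb hbj => hn.hmin j _ (nu_mem_semigroup M hcard hnorm hb) hbj

include M hcard hnorm in
/-- **Existence of Apéry families** for every coordinate of positive weighted degree. -/
theorem exists_aperyFamily {δ : ℕ} (hδ : 0 < δ) {ζ : ι → k[X]} (hζ : W.wdeg ζ = δ) :
    ∃ (n : Fin δ → ℕ) (γ : Fin δ → ι → k[X]), IsAperyFamily W δ n ∧ (∀ j, γ j ≠ 0) ∧
      ∀ j, W.wdeg (γ j) = n j := by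
  classical
  haveI := M.finiteDimensional
  have hζ0 : ζ ≠ 0 := ne_zero_of_wdeg_pos (W := W) (by rw [hζ]; exact hδ)
  obtain ⟨A0⟩ := AperyRR.nonempty_aperyData M.transcendental M.inftyPlace hδ (evB M hcard ζ)
    (by rw [coe_evB, M.poleOrd_inftyPlace_ev hcard hζ0, hζ])
  choose γ hγ using fun j => exists_eq_evB M hcard hnorm (A0.f j)
  have hγ0 : ∀ j, γ j ≠ 0 := by
    intro j h0
    apply A0.f_ne_zero j
    rw [hγ j, h0]
    exact Subtype.ext (ev_zero x f)
  have hwd : ∀ j, W.wdeg (γ j) = A0.m j := by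
    intro j
    have h1 := A0.hf j
    rw [hγ j] at h1
    have h2 := ν_evB M hcard (hγ0 j)
    unfold poleOrdInfty at h2
    rw [h2] at h1
    exact WithBot.coe_injective h1
  refine ⟨A0.m, γ, ⟨A0.hm, ?_, ?_⟩, hγ0, hwd⟩
  · intro j
    rw [← hwd j]
    exact W.wdeg_mem_semigroup (hγ0 j)
  · rintro j s ⟨a, i, rfl⟩ hs
    have hXa : (X : k[X]) ^ a ≠ 0 := pow_ne_zero _ X_ne_zero
    have hs0 : (Pi.single i ((X : k[X]) ^ a) : ι → k[X]) ≠ 0 := single_ne_zero' i hXa
    have hnu : (poleOrdInfty M).nu (evB M hcard (Pi.single i ((X : k[X]) ^ a))) =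
        W.d * a + W.m i := by
      rw [nu_evB M hcard hs0, W.wdeg_single i hXa, natDegree_X_pow]
    have := A0.hmin j (evB M hcard (Pi.single i ((X : k[X]) ^ a))) (evB_ne_zero M hcard hs0)
      (by
        unfold poleOrdInfty at hnu
        rw [hnu]
        exact hs)
    unfold poleOrdInfty at hnu
    rwa [hnu] at this

end Fibre2

/-- The weights `(δ, n)` of an Apéry family. -/
def recoordWeights {ι : Type*} [Fintype ι] {W : Weights ι} {δ : ℕ} (hδ : 0 < δ) {n : Fin δ → ℕ}
    (hn : IsAperyFamily W δ n) : Weights (Fin δ) where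
  d := δ
  d_pos := hδ
  m := n
  m_inj := by
    intro a b i j h
    have h5 := congrArg (· % δ) h
    simp only [Nat.mul_add_mod] at h5
    rw [hn.hmod i, hn.hmod j] at h5
    exact Fin.ext h5

section Fibre3

variable {ι : Type*} [Fintype ι] {W : Weights ι} {k L : Type*} [Field k] [Field L] [Algebra k L]
  [IsAlgClosed k] [CharZero k]
  {x : L} {f : ι → L} {i₀ : ι} {P : ι → ι → ι → k[X]} (M : IsModel W x f i₀ P)
  (hcard : Fintype.card ι = W.d)
  (hnorm : ∀ b : L, IsIntegral (Algebra.adjoin k {x}) b → ∃ u : ι → k[X], b = ev x f u)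
  {δ : ℕ} (hδ : 0 < δ) {ζ : ι → k[X]} (hζ : W.wdeg ζ = δ) {n : Fin δ → ℕ}
  (hn : IsAperyFamily W δ n) (γ : Fin δ → ι → k[X]) (hγ0 : ∀ j, γ j ≠ 0)
  (hγ : ∀ j, W.wdeg (γ j) = n j)

theorem coe_combo_aperyOf (q : Fin δ → k[X]) :
    (((aperyOf M hcard hnorm hδ hζ hn γ hγ0 hγ).combo q : regularOff M.inftyPlace) : L) =
      ev (ev x f ζ) (fun j => ev x f (γ j)) q :=
  AperyModel.coe_combo _ q

include M hcard hnorm hδ hζ hn hγ0 hγ

/-- Independence of the new basis over `k[z]`. -/
theorem recoord_indep (q : Fin δ → k[X])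
    (h : ev (ev x f ζ) (fun j => ev x f (γ j)) q = 0) : q = 0 := by
  rw [← coe_combo_aperyOf M hcard hnorm hδ hζ hn γ hγ0 hγ] at h
  exact (aperyOf M hcard hnorm hδ hζ hn γ hγ0 hγ).combo_eq_zero_iff.mp (Subtype.ext h)

/-- The new basis generates `B` over `k[z]`. -/
theorem recoord_surj (u : ι → k[X]) :
    ∃ q : Fin δ → k[X], ev x f u = ev (ev x f ζ) (fun j => ev x f (γ j)) q := by
  obtain ⟨q, hq⟩ := (aperyOf M hcard hnorm hδ hζ hn γ hγ0 hγ).combo_surjective (evB M hcard u)
  refine ⟨q, ?_⟩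
  rw [← coe_combo_aperyOf M hcard hnorm hδ hζ hn γ hγ0 hγ, hq]
  rfl

/-- The `k[z]`-combinations of the new basis lie in `B`. -/
theorem recoord_mem (q : Fin δ → k[X]) :
    ∃ u : ι → k[X], ev (ev x f ζ) (fun j => ev x f (γ j)) q = ev x f u := by
  obtain ⟨u, hu⟩ := exists_eq_evB M hcard hnorm
    ((aperyOf M hcard hnorm hδ hζ hn γ hγ0 hγ).combo q)
  refine ⟨u, ?_⟩
  rw [← coe_combo_aperyOf M hcard hnorm hδ hζ hn γ hγ0 hγ, hu]
  rfl

/-- **No cancellation**: the weighted degree in the old coordinates is the weighted degree in the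
new coordinates. -/
theorem recoord_wdeg {u : ι → k[X]} {q : Fin δ → k[X]} (hq : q ≠ 0)
    (h : ev x f u = ev (ev x f ζ) (fun j => ev x f (γ j)) q) :
    W.wdeg u = (recoordWeights hδ hn).wdeg q := by
  have h1 := AperyModel.wdeg_eq_nu (aperyOf M hcard hnorm hδ hζ hn γ hγ0 hγ) hq
  have hu : u ≠ 0 := by
    rintro rfl
    rw [ev_zero] at h
    exact hq (recoord_indep M hcard hnorm hδ hζ hn γ hγ0 hγ q h.symm)
  have h2 : (aperyOf M hcard hnorm hδ hζ hn γ hγ0 hγ).combo q = evB M hcard u := by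
    apply Subtype.ext
    rw [coe_combo_aperyOf M hcard hnorm hδ hζ hn γ hγ0 hγ, ← h]
    rfl
  rw [h2, nu_evB M hcard hu] at h1
  rw [← h1]
  rfl

end Fibre3

end Fermat.Agent.S27x.Lift.Recoord
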