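import Fermat.Agent.S27x.Lift.JacInj

/-!
# P-S27, block D7: the residue solution of the factorisation system

`κ / k` a function field over an algebraically closed field of characteristic zero in the
`x`-setting, `P` the only pole of `x`.  For an `n`-torsion class `[D]` (`n D = div w₀`) and every
large `m` we produce, from `NiceRep.exists_niceRep_infty`,

* `Uvar`, `Ufix`, `z`, `val` (nice representative `Uvar + Ufix - m P ∼ D`),
* `u = w₀ f ^ n` with `div u = n (Uvar + Ufix - m P)`,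
* `u' = (Rfix(z) Rvar(z)) ^ n / u`, regular off `P`,

with the exact pole orders at `P`: `-ord_P z = e' + 1`, `-ord_P u = n m`, `-ord_P u' = n m e'`,
and the structure `JacInj.ResSol`.
-/

set_option autoImplicit false
set_option linter.unusedSectionVars false
set_option linter.style.haveILetI false

noncomputable section

open AlgebraicCurve Polynomial Module IntermediateField

namespace Fermat.Agent.S27x.Lift.ResidueSol

open Fermat.Agent.S27x.Lift.NiceRep Fermat.Agent.S27x.Lift.JacInj Fermat.Agent.S24.ZP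
open Fermat.Agent.Lib.RiemannRoch

variable {k κ : Type*} [Field k] [Field κ] [Algebra k κ]

/-- Membership in `L(N P)` in terms of regularity off `P` and the pole order at `P`. -/
theorem mem_rrs_single_iff {P : Place k κ} {N : ℤ} {f : κ} :
    f ∈ riemannRochSpace (Finsupp.single P N) ↔
      (∀ w : Place k κ, w ≠ P → f ∈ w.toValuationSubring) ∧ OrdGE P f (-N) := by
  classical
  rw [mem_riemannRochSpace_iff_ordGE]
  constructor
  · intro h
    refine ⟨fun w hw => ?_, ?_⟩
    · have := h w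
      rw [Finsupp.single_apply, if_neg (Ne.symm hw), neg_zero] at this
      exact this.mem
    · have := h P
      rwa [Finsupp.single_apply, if_pos rfl] at this
  · rintro ⟨h1, h2⟩ w
    by_cases hw : w = P
    · subst hw
      rwa [Finsupp.single_apply, if_pos rfl]
    · rw [Finsupp.single_apply, if_neg (Ne.symm hw), neg_zero]
      exact OrdGE.of_mem (h1 w hw)

/-- `ord_P (z - c) = ord_P z` at a pole of `z`. -/
theorem ord_sub_const_of_neg (P : Place k κ) {z : κ} (hz : P.ord z < 0) (c : k) :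
    P.ord (z - algebraMap k κ c) = P.ord z := by
  have hz0 : z ≠ 0 := by
    rintro rfl
    rw [Place.ord_zero] at hz
    exact lt_irrefl _ hz
  rcases eq_or_ne c 0 with rfl | hc
  · rw [map_zero, sub_zero]
  have hc0 : algebraMap k κ c ≠ 0 := (map_ne_zero_iff _ (algebraMap k κ).injective).mpr hc
  rw [sub_eq_add_neg]
  exact ord_add_eq_of_lt P (neg_ne_zero.mpr hc0) (by rwa [ord_neg, ord_algebraMap]) hz0

section

variable {P : Place k κ} {Uvar Ufix : Finset (Place k κ)} {z : κ} {val : Place k κ → k}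

/-- The order at a pole of `z` of a root polynomial evaluated at `z`. -/
theorem ord_aeval_rootPoly_of_neg (hz : P.ord z < 0) (U : Finset (Place k κ)) :
    P.ord (aeval z (rootPoly val U)) = U.card * P.ord z := by
  have hne : ∀ Q ∈ U, z - algebraMap k κ (val Q) ≠ 0 := by
    intro Q _ h0
    have := ord_sub_const_of_neg P hz (val Q)
    rw [h0, Place.ord_zero] at this
    omega
  rw [aeval_rootPoly, ord_prod P U _ hne,
    Finset.sum_congr rfl fun Q _ => ord_sub_const_of_neg P hz (val Q)]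
  simp

end

section Main

variable [IsAlgClosed k] [CharZero k] {x : κ} (hx : Transcendental k x)
  [FiniteDimensional k⟮x⟯ κ]
include hx

/-- A function which is regular at all places is constant. -/
theorem exists_algebraMap_eq_of_regular {f : κ}
    (hf : ∀ w : Place k κ, f ∈ w.toValuationSubring) : ∃ a : k, algebraMap k κ a = f := by
  haveI := hasPrincipalDivisors_cz hx
  haveI : ∀ v : Place k κ, v.FiniteResidue := finiteResidue_cz hx
  haveI := nonempty_place_cz hx
  have hmem : f ∈ riemannRochSpace (0 : Divisor k κ) := by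
    rw [mem_riemannRochSpace_iff_ordGE]
    intro w
    simpa using OrdGE.of_mem (hf w)
  have hint : IsIntegral k f := (isAlgebraic_of_mem_zero hmem).isIntegral
  have hdeg : (minpoly k f).degree = 1 :=
    IsAlgClosed.degree_eq_one_of_irreducible k (minpoly.irreducible hint)
  exact minpoly.mem_range_of_degree_eq_one k f hdeg

/-- Functions integral over `k[x]` are regular off the pole of `x`. -/
theorem mem_of_isIntegral {P : Place k κ} (hP : ∀ w : Place k κ, w.ord x < 0 → w = P)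
    {f : κ} (hf : IsIntegral (Algebra.adjoin k {x}) f) (w : Place k κ) (hw : w ≠ P) :
    f ∈ w.toValuationSubring := by
  rcases eq_or_ne f 0 with rfl | hf0
  · exact zero_mem _
  have hwx : 0 ≤ w.ord x := by
    by_contra h
    exact hw (hP w (not_le.mp h))
  exact (ord_nonneg_iff w hf0).mp
    ((Fermat.Agent.Gateway.GoodRed.PlacesIntegral.isIntegral_iff_forall_ord_nonneg x hx f).mp
      hf w hwx)

/-- A function integral over `k[x]` with a simple zero of `z - c` somewhere has a pole at the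
pole of `x`. -/
theorem ord_neg_of_unif {P : Place k κ} (hP : ∀ w : Place k κ, w.ord x < 0 → w = P)
    {z : κ} (hz : IsIntegral (Algebra.adjoin k {x}) z) {Q : Place k κ} {c : k}
    (hQ : Q.ord (z - algebraMap k κ c) = 1) : P.ord z < 0 := by
  by_contra hcon
  rw [not_lt] at hcon
  have hall : ∀ w : Place k κ, z ∈ w.toValuationSubring := by
    intro w
    by_cases hw : w = P
    · subst hw
      exact (OrdGE.of_le hcon).mem
    · exact mem_of_isIntegral hx hP hz w hw
  obtain ⟨a, ha⟩ := exists_algebraMap_eq_of_regular hx hall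
  rw [← ha, ← map_sub, ord_algebraMap] at hQ
  exact zero_ne_one hQ

omit hx in
theorem isIntegral_const (c : k) : IsIntegral (Algebra.adjoin k {x}) (algebraMap k κ c) := by
  rw [IsScalarTower.algebraMap_apply k (Algebra.adjoin k {x}) κ]
  exact isIntegral_algebraMap

omit hx in
theorem isIntegral_aeval_rootPoly {z : κ} (hz : IsIntegral (Algebra.adjoin k {x}) z)
    (val : Place k κ → k) (U : Finset (Place k κ)) :
    IsIntegral (Algebra.adjoin k {x}) (aeval z (rootPoly val U)) := by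
  rw [aeval_rootPoly]
  exact IsIntegral.prod _ fun Q _ => hz.sub (isIntegral_const _)

/-- **The residue solution of the factorisation system.** -/
theorem exists_resSol {P : Place k κ} (hP : ∀ w : Place k κ, w.ord x < 0 → w = P)
    (D : Divisor k κ) (hD : Divisor.degree D = 0) {n : ℕ} (hn : 0 < n) {w₀ : κ} (hw₀ : w₀ ≠ 0)
    (hDn : ∀ v : Place k κ, (n : ℤ) * D v = v.ord w₀) (S : Finset (Place k κ)) :
    ∃ M : ℕ, ∀ m : ℕ, M ≤ m →
      ∃ (Uvar Ufix : Finset (Place k κ)) (z u u' : κ) (val : Place k κ → k) (e' : ℕ),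
        Disjoint Uvar S ∧ Disjoint Ufix S ∧
        (∀ Q : Place k κ, Q ∈ Uvar ∨ Q ∈ Ufix → Q.ord x = 0) ∧
        Uvar.card = genusFF k κ ∧ Uvar.card + Ufix.card = m ∧
        finrank k (riemannRochSpace (finDiv Uvar)) = 1 ∧
        ResSol P Uvar Ufix z val n u u' ∧
        (∃ f : κ, f ≠ 0 ∧ ∀ v : Place k κ,
          finDiv Uvar v + finDiv Ufix v - (m : ℤ) * Finsupp.single P (1 : ℤ) v = D v + v.ord f) ∧
        (∀ v : Place k κ, v.ord u =
          (n : ℤ) * (finDiv Uvar v + finDiv Ufix v - (m : ℤ) * Finsupp.single P (1 : ℤ) v)) ∧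
        IsIntegral (Algebra.adjoin k {x}) z ∧ 1 ≤ e' ∧
        P.ord z = -((e' : ℤ) + 1) ∧ P.ord u = -((n * m : ℕ) : ℤ) ∧
        P.ord u' = -((n * m * e' : ℕ) : ℤ) ∧
        (∀ w : Place k κ, w ≠ P → u ∈ w.toValuationSubring) ∧
        (∀ w : Place k κ, w ≠ P → u' ∈ w.toValuationSubring) := by
  classical
  obtain ⟨M, hM⟩ := exists_niceRep_infty hx D hD P S
  refine ⟨max M 1, fun m hm => ?_⟩
  obtain ⟨Uvar, Ufix, f, z₀, val, hdisj, hvS, hfS, hPv, hPf, hordx, hcardv, hcard, hl, hf0, hfE,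
    hzint₀, hinj, hunif₀⟩ := hM m ((le_max_left _ _).trans hm)
  have hm1 : 1 ≤ m := (le_max_right _ _).trans hm
  have hUne : ∃ Q : Place k κ, Q ∈ Uvar ∨ Q ∈ Ufix := by
    have : 0 < Uvar.card ∨ 0 < Ufix.card := by omega
    rcases this with h | h
    · obtain ⟨Q, hQ⟩ := Finset.card_pos.mp h
      exact ⟨Q, Or.inl hQ⟩
    · obtain ⟨Q, hQ⟩ := Finset.card_pos.mp h
      exact ⟨Q, Or.inr hQ⟩
  have hU₀ : Unram Uvar Ufix z₀ val := ⟨hdisj, hinj, hunif₀⟩
  -- replace `z₀` by `z = z₀ + R(z₀)² z₀`, which has a pole of order at least `3` at `P`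
  have hz₀P : P.ord z₀ < 0 := by
    obtain ⟨Q, hQ⟩ := hUne
    exact ord_neg_of_unif hx hP hzint₀ (hunif₀ Q hQ)
  have hz₀0 : z₀ ≠ 0 := by
    rintro rfl
    rw [Place.ord_zero] at hz₀P
    exact lt_irrefl _ hz₀P
  set R₀ : κ := aeval z₀ (rootPoly val (Uvar ∪ Ufix)) with hR₀
  have hsubU : ∀ Q ∈ Uvar ∪ Ufix, Q ∈ Uvar ∨ Q ∈ Ufix := fun Q hQ => Finset.mem_union.mp hQ
  have hR₀0 : R₀ ≠ 0 := hU₀.aeval_rootPoly_ne_zero hsubU
  have hcardU : (Uvar ∪ Ufix).card = m := by
    rw [Finset.card_union_of_disjoint hdisj, hcard]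
  set z : κ := z₀ + R₀ ^ 2 * z₀ with hz
  have hcorr0 : R₀ ^ 2 * z₀ ≠ 0 := mul_ne_zero (pow_ne_zero 2 hR₀0) hz₀0
  have hzint : IsIntegral (Algebra.adjoin k {x}) z :=
    hzint₀.add (((isIntegral_aeval_rootPoly hzint₀ val _).pow 2).mul hzint₀)
  have hunif : ∀ Q : Place k κ, Q ∈ Uvar ∨ Q ∈ Ufix →
      Q.ord (z - algebraMap k κ (val Q)) = 1 := by
    intro Q hQ
    have hQR : Q.ord R₀ = 1 := by
      rw [hR₀, hU₀.ord_aeval_rootPoly hsubU hQ, if_pos (Finset.mem_union.mpr hQ)]
    have hQz : 0 ≤ Q.ord z₀ := by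
      have h1 : OrdGE Q (z₀ - algebraMap k κ (val Q)) 0 :=
        OrdGE.of_le (by rw [hunif₀ Q hQ]; exact zero_le_one)
      have h2 := h1.add (OrdGE.algebraMap Q (val Q))
      rw [sub_add_cancel] at h2
      exact h2.le hz₀0
    have hcorr : 1 < Q.ord (R₀ ^ 2 * z₀) := by
      rw [Q.ord_mul (pow_ne_zero 2 hR₀0) hz₀0, ord_pow, hQR]
      push_cast
      omega
    have hsplit : z - algebraMap k κ (val Q) =
        (z₀ - algebraMap k κ (val Q)) + R₀ ^ 2 * z₀ := by rw [hz]; ring
    rw [hsplit, ord_add_eq_of_lt Q hcorr0 (by rw [hunif₀ Q hQ]; exact hcorr)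
      (hU₀.sub_ne_zero hQ), hunif₀ Q hQ]
  have hzP2 : P.ord z < -1 := by
    have hR₀P : P.ord R₀ = (m : ℤ) * P.ord z₀ := by
      rw [hR₀, ord_aeval_rootPoly_of_neg hz₀P, hcardU]
    have hcorrP : P.ord (R₀ ^ 2 * z₀) = (2 * (m : ℤ) + 1) * P.ord z₀ := by
      rw [P.ord_mul (pow_ne_zero 2 hR₀0) hz₀0, ord_pow, hR₀P]
      push_cast
      ring
    have hm1' : (1 : ℤ) ≤ m := by exact_mod_cast hm1
    have hlt : P.ord (R₀ ^ 2 * z₀) < P.ord z₀ := by
      rw [hcorrP]
      nlinarith
    have : P.ord z = P.ord (R₀ ^ 2 * z₀) := by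
      rw [hz, add_comm]
      exact ord_add_eq_of_lt P hz₀0 hlt hcorr0
    rw [this, hcorrP]
    nlinarith
  have hU : Unram Uvar Ufix z val := ⟨hdisj, hinj, hunif⟩
  set E : Divisor k κ := finDiv Uvar + finDiv Ufix - Finsupp.single P (m : ℤ) with hE
  have hEv : ∀ v : Place k κ, E v =
      finDiv Uvar v + finDiv Ufix v - (m : ℤ) * Finsupp.single P (1 : ℤ) v := by
    intro v
    rw [hE, Finsupp.sub_apply, Finsupp.add_apply, Finsupp.single_apply, Finsupp.single_apply]
    split_ifs <;> ring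
  set u : κ := w₀ * f ^ n with hu
  have hu0 : u ≠ 0 := mul_ne_zero hw₀ (pow_ne_zero n hf0)
  have hordu : ∀ v : Place k κ, v.ord u = (n : ℤ) * E v :=
    ord_mul_pow_eq hf0 hw₀ n (fun v => by rw [hEv v, hfE v]) hDn
  set Rf : κ := aeval z (rootPoly val Ufix) with hRf
  set Rv : κ := aeval z (rootPoly val Uvar) with hRv
  have hRf0 : Rf ≠ 0 := hU.aeval_rootPoly_ne_zero fun _ h => Or.inr h
  have hRv0 : Rv ≠ 0 := hU.aeval_rootPoly_ne_zero fun _ h => Or.inl h
  set u' : κ := (Rf * Rv) ^ n / u with hu'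
  have hu'0 : u' ≠ 0 := div_ne_zero (pow_ne_zero n (mul_ne_zero hRf0 hRv0)) hu0
  have hzreg : ∀ w : Place k κ, w ≠ P → z ∈ w.toValuationSubring := mem_of_isIntegral hx hP hzint
  have hnk : (n : k) ≠ 0 := Nat.cast_ne_zero.mpr hn.ne'
  have hsingle_ne : ∀ w : Place k κ, w ≠ P → Finsupp.single P (1 : ℤ) w = 0 := fun w hw => by
    rw [Finsupp.single_apply, if_neg (Ne.symm hw)]
  have hS : ResSol P Uvar Ufix z val n u u' :=
    { unram := hU
      hn := hnk
      P_notMem_var := hPv
      P_notMem_fix := hPf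
      z_reg := hzreg
      u_ne := hu0
      u'_ne := hu'0
      ord_u := fun w hw => by rw [hordu w, hEv w, hsingle_ne w hw]; ring
      prod := by rw [hu', mul_div_cancel₀ _ hu0] }
  -- the pole of `z` at `P`
  have hzP : P.ord z < 0 := by omega
  obtain ⟨e', he'⟩ : ∃ e' : ℕ, P.ord z = -((e' : ℤ) + 1) := by
    refine ⟨(-(P.ord z) - 1).toNat, ?_⟩
    rw [Int.toNat_of_nonneg (by omega)]
    ring
  have he'1 : 1 ≤ e' := by
    have : (1 : ℤ) ≤ (e' : ℤ) := by omega
    exact_mod_cast this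
  have hEP : E P = -(m : ℤ) := by
    rw [hEv P, finDiv_apply_of_notMem hPv, finDiv_apply_of_notMem hPf, Finsupp.single_apply,
      if_pos rfl]
    ring
  have huP : P.ord u = -((n * m : ℕ) : ℤ) := by
    rw [hordu P, hEP]; push_cast; ring
  have hcardZ : (Ufix.card : ℤ) + Uvar.card = m := by
    have : ((Uvar.card + Ufix.card : ℕ) : ℤ) = (m : ℤ) := by rw [hcard]
    push_cast at this
    linarith
  have hu'P : P.ord u' = -((n * m * e' : ℕ) : ℤ) := by
    rw [hu', ord_div P (pow_ne_zero n (mul_ne_zero hRf0 hRv0)) hu0, ord_pow,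
      P.ord_mul hRf0 hRv0, hRf, hRv, ord_aeval_rootPoly_of_neg hzP, ord_aeval_rootPoly_of_neg hzP,
      huP, he']
    push_cast
    have : ((Ufix.card : ℤ) * (-((e' : ℤ) + 1)) + (Uvar.card : ℤ) * (-((e' : ℤ) + 1))) =
        -((m : ℤ) * ((e' : ℤ) + 1)) := by rw [← hcardZ]; ring
    rw [this]; ring
  have hureg : ∀ w : Place k κ, w ≠ P → u ∈ w.toValuationSubring := by
    intro w hw
    refine (OrdGE.of_le (m := 0) ?_).mem
    rw [hS.ord_u w hw]
    have h1 := finDiv_nonneg Uvar w
    have h2 := finDiv_nonneg Ufix w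
    simp only [Finsupp.coe_zero, Pi.zero_apply] at h1 h2
    positivity
  have hu'reg : ∀ w : Place k κ, w ≠ P → u' ∈ w.toValuationSubring := by
    intro w hw
    by_cases hwU : w ∈ Uvar ∨ w ∈ Ufix
    · exact (OrdGE.of_le (hS.ord_u'_of_mem hwU).ge).mem
    · rw [not_or] at hwU
      have h1 : OrdGE w ((Rf * Rv) ^ n) 0 :=
        (((OrdGE.of_mem (hzreg w hw)).aeval _).mul ((OrdGE.of_mem (hzreg w hw)).aeval _)
          |>.mono (by norm_num)).pow n
      have h2 : OrdGE w u⁻¹ (-0) := OrdGE.inv (hS.ord_u_of_notMem hw hwU.1 hwU.2)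
      rw [hu', div_eq_mul_inv]
      exact ((h1.mul h2).mono (by norm_num)).mem
  exact ⟨Uvar, Ufix, z, u, u', val, e', hvS, hfS, hordx, hcardv, hcard, hl, hS, ⟨f, hf0, hfE⟩,
    fun v => by rw [hordu v, hEv v], hzint, he'1, he', huP, hu'P, hureg, hu'reg⟩

end Main

end Fermat.Agent.S27x.Lift.ResidueSol
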