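import Fermat.Agent.S27x.Lift.SolveK
import Fermat.Agent.S27x.Lift.SolveA
import Fermat.Agent.S27x.Lift.Surj
import Fermat.Agent.S27x.Spec.Model

/-!
# P-S27, block D7: the lifting hypothesis for a good model (front half of the assembly)
-/

set_option autoImplicit false
set_option linter.unusedSectionVars false
set_option linter.style.haveILetI false

noncomputable section

open AlgebraicCurve Polynomial Module IsLocalRing IntermediateField

namespace Fermat.Agent.S27x.Lift.Solve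

open Fermat.Agent.S27x.Spec.GaussNorm Fermat.Agent.S27x.Spec
open Fermat.Agent.S27x.Lift.Frame Fermat.Agent.S27x.Lift.NiceRep Fermat.Agent.S27x.Lift.JacInj
open Fermat.Agent.S27x.Lift.ResidueSol Fermat.Agent.S27x.Lift.SolveK
open Fermat.Agent.S27x.Lift.SolveA Fermat.Agent.S27x.Lift.Surj

universe u v w

variable {K : Type u} [Field K] [IsAlgClosed K] [CharZero K] {A : ValuationSubring K}
  {F : Type v} [Field F] [Algebra K F] {ι : Type*} [Fintype ι] [DecidableEq ι]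
  (D : AperyData A F ι) {k : Type w} [Field k] [IsAlgClosed k] [CharZero k] [Algebra k D.κ]
  {π : A →+* k} (hc : D.Compat π) (hπ : Function.Surjective π)

/-- The frame-level Hensel statement (`FactorSystem ∘ FrameAlg`), as a hypothesis. -/
def FrameHensel (n : ℕ) : Prop :=
  ∀ (N₁ N₂ g e : ℕ)
    (_hcard : (idx D.W N₁).card + (idx D.W N₂).card + g = (idx D.W (N₁ + N₂)).card + 1)
    (z : F) (hz : z ∈ lam A D.W D.x D.f e) (Rfix : A[X]) (_hRfix : Rfix.Monic)
    (_hdeg : n * e * (Rfix.natDegree + g) ≤ N₁ + N₂)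
    (ub ub' : D.κ) (_hub : ub ∈ lam k D.W D.xb D.fb N₁) (_hub' : ub' ∈ lam k D.W D.xb D.fb N₂)
    (Rvarb : k[X]) (_hRm : Rvarb.Monic) (_hRd : Rvarb.natDegree = g)
    (_hres : ub * ub' = (aeval (D.res ⟨z, lam_le_O D hz⟩) (Rfix.map π) *
      aeval (D.res ⟨z, lam_le_O D hz⟩) Rvarb) ^ n)
    (_hub0 : ub ≠ 0)
    (_hker : ∀ v ∈ lam k D.W D.xb D.fb N₁, ∀ v' ∈ lam k D.W D.xb D.fb N₂, ∀ dR : k[X],
      dR.degree < (g : WithBot ℕ) → (∀ c : k, v = c • ub → c = 0) →
      v * ub' + ub * v' = (n : D.κ) * (aeval (D.res ⟨z, lam_le_O D hz⟩) (Rfix.map π) *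
        aeval (D.res ⟨z, lam_le_O D hz⟩) Rvarb) ^ (n - 1) *
          (aeval (D.res ⟨z, lam_le_O D hz⟩) (Rfix.map π) *
            aeval (D.res ⟨z, lam_le_O D hz⟩) dR) →
      v = 0 ∧ v' = 0 ∧ dR = 0),
    ∃ (u : F) (hu : u ∈ lam A D.W D.x D.f N₁) (u' : F) (hu' : u' ∈ lam A D.W D.x D.f N₂)
      (Rvar : A[X]), Rvar.Monic ∧ Rvar.natDegree = g ∧ Rvar.map π = Rvarb ∧
        D.res ⟨u, lam_le_O D hu⟩ = ub ∧ D.res ⟨u', lam_le_O D hu'⟩ = ub' ∧
        u * u' = (aeval z Rfix * aeval z Rvar) ^ n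

variable (hr : ∀ x ∈ maximalIdeal A, ∀ c : A, c ≠ 0 → ∃ j : ℕ, c ∣ x ^ j)
  (hne : ∃ ϖ ∈ maximalIdeal A, ϖ ≠ 0)
  (hcard : Fintype.card ι = D.W.d)
  (tnorm : ∀ b : D.κ, IsIntegral (Algebra.adjoin k {D.xb}) b → ∃ u : ι → k[X], b = ev D.xb D.fb u)

include tnorm hcard in
/-- **The lifting hypothesis for a good model**, from the frame-level Hensel statement. -/
theorem liftHyp_of_frameHensel {n : ℕ} (hn : 0 < n) (hFH : FrameHensel D (π := π) n) :
    LiftHyp (Model.redSetup D hc hπ hr hne) D.model.inftyPlace (D.modelb hc hπ).inftyPlace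
      D.xb n := by
  classical
  set Mb := D.modelb hc hπ with hMb
  refine ⟨∅, 2 * genusFF k D.κ + 1, ?_⟩
  intro m hm Uvar Ufix zb ub ub' val e' _ _ _ hcardv hcardm hl S hordu hzint he'1 hzP huP hu'P
    hureg hu'reg
  set g := genusFF k D.κ with hg
  have hn1 : 1 ≤ n := hn
  -- the three levels
  have hN₁ : 2 * g ≤ n * m + 1 := by nlinarith
  have hN₂ : 2 * g ≤ n * m * e' + 1 := by
    have : n * m ≤ n * m * e' := Nat.le_mul_of_pos_right _ he'1
    omega
  -- memberships on the special fibre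
  have hzb_mem : zb ∈ lam k D.W D.xb D.fb (e' + 1) :=
    (SolveK.mem_lam_iff Mb hcard tnorm).mpr ⟨S.z_reg, OrdGE.of_le (by rw [hzP]; push_cast; rfl)⟩
  have hub_mem : ub ∈ lam k D.W D.xb D.fb (n * m) :=
    (SolveK.mem_lam_iff Mb hcard tnorm).mpr ⟨hureg, OrdGE.of_le (by rw [huP])⟩
  have hub'_mem : ub' ∈ lam k D.W D.xb D.fb (n * m * e') :=
    (SolveK.mem_lam_iff Mb hcard tnorm).mpr ⟨hu'reg, OrdGE.of_le (by rw [hu'P])⟩
  -- lifts
  obtain ⟨z, hz, hzres⟩ := res_lam_surjective D hc hπ hzb_mem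
  obtain ⟨Rfix, hRm, hRd, hRmap⟩ := exists_lift_rootPoly (A := A) hπ val Ufix
  have hcardid := SolveK.card_identity Mb hcard tnorm hN₁ hN₂
  have hdeg : n * (e' + 1) * (Rfix.natDegree + g) ≤ n * m + n * m * e' := by
    rw [hRd, ← hcardv, add_comm Ufix.card, hcardm]
    exact le_of_eq (by ring)
  have hres : ub * ub' = (aeval (D.res ⟨z, lam_le_O D hz⟩) (Rfix.map π) *
      aeval (D.res ⟨z, lam_le_O D hz⟩) (rootPoly val Uvar)) ^ n := by
    rw [hzres, hRmap]; exact S.prod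
  obtain ⟨u, hu, u', hu', Rvar, hRvm, -, hRvmap, hures, -, hprod⟩ :=
    hFH (n * m) (n * m * e') g (e' + 1) hcardid z hz Rfix hRm hdeg ub ub' hub_mem hub'_mem
      (rootPoly val Uvar) (monic_rootPoly val Uvar)
      (by rw [natDegree_rootPoly, hcardv]) hres S.u_ne
      (by
        intro v hv v' hv' dR hdR hnz heq
        rw [hzres, hRmap] at heq
        refine SolveK.kernel_eq_zero Mb hcard tnorm S hl (by rw [huP]) (by rw [hu'P]) hv hv'
          (by rw [hcardv]; exact hdR) heq hnz)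
  refine ⟨z, u, u', lam_le_O D hz, lam_le_O D hu, Rfix * Rvar, hzres, hures, ?_,
    fun v hv => ord_nonneg_of_mem_lam D hcard hz hv,
    fun v hv => ord_nonneg_of_mem_lam D hcard hu hv,
    fun v hv => ord_nonneg_of_mem_lam D hcard hu' hv, ?_, ?_, ?_⟩
  · refine ne_algebraMap_of_res D hc (lam_le_O D hz) fun c => ?_
    rw [hzres]
    intro h0
    rw [h0, Fermat.Agent.S24.ZP.ord_algebraMap] at hzP
    omega
  · have := neg_le_ord_of_mem_lam D hcard hu
    push_cast at this ⊢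
    exact this
  · exact separable_map_mul S.unram hRmap hRvmap
  · rw [aeval_map_K, map_mul]
    exact hprod

end Fermat.Agent.S27x.Lift.Solve
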