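import Fermat.Agent.S27x.Lift.FrameRR
import Fermat.Agent.S27x.Lift.ResidueSol

/-!
# P-S27, block D7: the special-fibre inputs of the factorisation system

For a normal weighted model `M : IsModel W x f i₀ P` over an algebraically closed field `k` of
characteristic zero (`hnorm` = (T-norm) of block D4, `hcard : card ι = W.d`), with
`Pb := M.inftyPlace`:

* `card_idx` : `#(idx W N) = N + 1 - g` for `2 g ≤ N + 1` (`g = genusFF k L`);
* `card_identity` : the factorisation system is square;
* `kernel_eq_zero` : the kernel condition of the Hensel step, in function language, from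
  `JacInj.ResSol.jac_kernel`.
-/

set_option autoImplicit false
set_option linter.unusedSectionVars false
set_option linter.style.haveILetI false

noncomputable section

open AlgebraicCurve Polynomial Module IntermediateField

namespace Fermat.Agent.S27x.Lift.SolveK

open Fermat.Agent.S27x.Spec.GaussNorm Fermat.Agent.S27x.Spec.AperyRR
open Fermat.Agent.S27x.Lift.Frame Fermat.Agent.S27x.Lift.FrameRR
open Fermat.Agent.S27x.Lift.NiceRep Fermat.Agent.S27x.Lift.JacInj
open Fermat.Agent.S27x.Lift.ResidueSol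

variable {ι : Type*} [Fintype ι] [DecidableEq ι] {W : Weights ι}
  {k L : Type*} [Field k] [Field L] [Algebra k L] [IsAlgClosed k] [CharZero k]
  {x : L} {f : ι → L} {i₀ : ι} {P : ι → ι → ι → k[X]}
  (M : IsModel W x f i₀ P) (hcard : Fintype.card ι = W.d)
  (hnorm : ∀ g : L, IsIntegral (Algebra.adjoin k {x}) g → ∃ u : ι → k[X], g = ev x f u)

include M hcard hnorm

/-- `Λ_N ⊗ k = L(N·P̄)`. -/
theorem mem_lam_iff {N : ℕ} {y : L} :
    y ∈ lam k W x f N ↔
      (∀ w : Place k L, w ≠ M.inftyPlace → y ∈ w.toValuationSubring) ∧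
        OrdGE M.inftyPlace y (-(N : ℤ)) := by
  rw [M.lam_eq_rrs hcard hnorm N, mem_rrs_single_iff]

/-- **The count.** -/
theorem card_idx {N : ℕ} (hN : 2 * genusFF k L ≤ N + 1) :
    ((idx W N).card : ℤ) = N + 1 - genusFF k L := by
  haveI := M.finiteDimensional
  rw [card_idx_eq_finrank_rrs M M.inftyPlace (M.pole_iff hcard)
    (fun _ hu => M.ord_inftyPlace_ev hcard hu) hnorm N]
  exact ellP_eq_of_le M.transcendental M.inftyPlace hN

/-- **The factorisation system is square.** -/
theorem card_identity {N₁ N₂ : ℕ} (h₁ : 2 * genusFF k L ≤ N₁ + 1)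
    (h₂ : 2 * genusFF k L ≤ N₂ + 1) :
    (idx W N₁).card + (idx W N₂).card + genusFF k L = (idx W (N₁ + N₂)).card + 1 := by
  have e₁ := card_idx M hcard hnorm h₁
  have e₂ := card_idx M hcard hnorm h₂
  have e₃ := card_idx M hcard hnorm (N := N₁ + N₂) (by omega)
  have : ((idx W N₁).card : ℤ) + (idx W N₂).card + genusFF k L =
      (idx W (N₁ + N₂)).card + 1 := by
    rw [e₁, e₂, e₃]; push_cast; ring
  exact_mod_cast this

variable {Uvar Ufix : Finset (Place k L)} {z : L} {val : Place k L → k} {n : ℕ} {u u' : L}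

/-- **The kernel condition of the Hensel step** (function language). -/
theorem kernel_eq_zero (S : ResSol M.inftyPlace Uvar Ufix z val n u u')
    (hl : finrank k (riemannRochSpace (finDiv Uvar)) = 1)
    {N₁ N₂ : ℕ} (hu : M.inftyPlace.ord u = -(N₁ : ℤ)) (hu' : M.inftyPlace.ord u' = -(N₂ : ℤ))
    {v v' : L} (hv : v ∈ lam k W x f N₁) (hv' : v' ∈ lam k W x f N₂)
    {dR : k[X]} (hdR : dR.degree < (Uvar.card : WithBot ℕ))
    (heq : v * u' + u * v' =
      (n : L) * (aeval z (rootPoly val Ufix) * aeval z (rootPoly val Uvar)) ^ (n - 1) *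
        (aeval z (rootPoly val Ufix) * aeval z dR))
    (hnz : ∀ c : k, v = c • u → c = 0) :
    v = 0 ∧ v' = 0 ∧ dR = 0 := by
  obtain ⟨hvreg, hvP⟩ := (mem_lam_iff M hcard hnorm).mp hv
  obtain ⟨hv'reg, hv'P⟩ := (mem_lam_iff M hcard hnorm).mp hv'
  have T : KerVec M.inftyPlace Uvar Ufix z val n u u' v v' dR :=
    { v_reg := hvreg
      v_P := by rw [hu]; exact hvP
      v'_reg := hv'reg
      v'_P := by rw [hu']; exact hv'P
      deg := hdR
      eq := heq }
  obtain ⟨⟨c, hc⟩, h2⟩ := S.jac_kernel T hl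
  have hv0 : v = 0 := by rw [hc, hnz c hc, zero_smul]
  obtain ⟨h3, h4⟩ := h2 hv0
  exact ⟨hv0, h4, h3⟩

end Fermat.Agent.S27x.Lift.SolveK
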