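import Fermat.Agent.S27x.Lift.Verify

/-!
# P-S27, block D7: surjectivity of the specialisation on `n`-torsion, from a lifting hypothesis

`LiftHyp` is the statement delivered by the Hensel step of D7 (residue solution + frame +
factorisation system): for every nice representative `Uvar + Ufix - m Pb` of a divisor class on the
special fibre, with function `ub` of divisor `n (Uvar + Ufix - m Pb)` and unramified coordinate
`zb`, there are lifts `zf, u ∈ O`, regular off `P`, and a cofactor `u'`, regular off `P`, with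
`u u' = p(zf)^n` for a polynomial `p ∈ A[X]` with separable reduction.

`surjOn_torsion_of_liftHyp` : under `LiftHyp`, every `n`-torsion class of the special fibre is the
specialisation of an `n`-torsion class of the generic fibre.
-/

set_option autoImplicit false
set_option linter.unusedSectionVars false
set_option linter.style.haveILetI false

noncomputable section

namespace Fermat.Agent.S27x.Lift.SurjOfLift

open AlgebraicCurve IntermediateField Module IsLocalRing Polynomial
open Fermat.Agent.Gateway.C0 Fermat.Agent.Lib.RiemannRoch Fermat.Agent.S27x.Spec.Inj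
open Fermat.Agent.S27x.Lift.NiceRep Fermat.Agent.S27x.Lift.Verify

universe u v w z

variable {K : Type u} [Field K] [IsAlgClosed K] [CharZero K] {A : ValuationSubring K}
  {F : Type v} [Field F] [Algebra K F] {O : ValuationSubring F}
  {k : Type w} {κ : Type z} [Field k] [IsAlgClosed k] [CharZero k] [Field κ] [Algebra k κ]

open Classical in
theorem finDiv_union {U V : Finset (Place k κ)} (h : Disjoint U V) :
    finDiv (U ∪ V) = finDiv U + finDiv V := by
  rw [finDiv, finDiv, finDiv, Finset.sum_union h]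

/-- **The lifting hypothesis** (output of the Hensel step of D7). -/
def LiftHyp (R : RedSetup A O k κ) (P : Place K F) (Pb : Place k κ) (xb : κ) (n : ℕ) : Prop :=
  ∃ (S : Finset (Place k κ)) (M₀ : ℕ), ∀ m : ℕ, M₀ ≤ m →
    ∀ (Uvar Ufix : Finset (Place k κ)) (zb ub : κ) (val : Place k κ → k),
      Disjoint Uvar Ufix → Disjoint Uvar S → Disjoint Ufix S → Pb ∉ Uvar → Pb ∉ Ufix →
      (∀ Q : Place k κ, Q ∈ Uvar ∨ Q ∈ Ufix → Q.ord xb = 0) →
      Uvar.card = genusFF k κ → Uvar.card + Ufix.card = m →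
      finrank k (riemannRochSpace (finDiv Uvar)) = 1 →
      IsIntegral (Algebra.adjoin k {xb}) zb →
      Set.InjOn val {Q : Place k κ | Q ∈ Uvar ∨ Q ∈ Ufix} →
      (∀ Q : Place k κ, Q ∈ Uvar ∨ Q ∈ Ufix → Q.ord (zb - algebraMap k κ (val Q)) = 1) →
      ub ≠ 0 →
      (∀ w : Place k κ, w.ord ub =
        (n : ℤ) * (finDiv Uvar w + finDiv Ufix w) - (n : ℤ) * m * Finsupp.single Pb (1 : ℤ) w) →
      ∃ (zf u u' : F) (hzO : zf ∈ O) (huO : u ∈ O) (pA : A[X]),
        R.res ⟨zf, hzO⟩ = zb ∧ R.res ⟨u, huO⟩ = ub ∧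
        (∀ a : K, zf ≠ algebraMap K F a) ∧
        (∀ v : Place K F, v ≠ P → 0 ≤ v.ord zf) ∧ (∀ v : Place K F, v ≠ P → 0 ≤ v.ord u) ∧
        (∀ v : Place K F, v ≠ P → 0 ≤ v.ord u') ∧
        -((n : ℤ) * m) ≤ P.ord u ∧
        (pA.map R.π).Separable ∧
        u * u' = (aeval zf (pA.map (algebraMap A K))) ^ n

variable (R : RedSetup A O k κ) (sp : Place K F → Place k κ)
  (hsp : SpCompat R (Finsupp.mapDomain.addMonoidHom sp))

include hsp in
/-- **(D7)**: under the lifting hypothesis, the specialisation is surjective on `n`-torsion. -/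
theorem surjOn_torsion_of_liftHyp {x : F} (hx : Transcendental K x) [FiniteDimensional K⟮x⟯ F]
    {xb : κ} (hxb : Transcendental k xb) [FiniteDimensional k⟮xb⟯ κ]
    {P : Place K F} {Pb : Place k κ} (hP : sp P = Pb)
    (spP : Pic0 K F →+ Pic0 k κ)
    (hspP : ∀ D : Divisor.degZero (K := K) (F := F),
      ∃ h : Finsupp.mapDomain sp D.1 ∈ Divisor.degZero (K := k) (F := κ),
        spP (Pic0.mk D) = Pic0.mk ⟨Finsupp.mapDomain sp D.1, h⟩)
    {n : ℕ} (hn : 0 < n) (hlift : LiftHyp R P Pb xb n) :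
    ∀ c' ∈ Pic0.torsion k κ n, ∃ c ∈ Pic0.torsion K F n, spP c = c' := by
  classical
  intro c' hc'
  haveI := hasPrincipalDivisors_cz hx
  haveI := finiteResidue_cz hx
  obtain ⟨Db, rfl⟩ := Pic0.mk_surjective c'
  rw [Pic0.mem_torsion] at hc'
  have hnD : Divisor.IsPrincipal (n • Db.1) := by
    have h1 : Pic0.mk ((n : ℤ) • Db) = 0 := hc'
    rw [Pic0.mk, QuotientAddGroup.eq_zero_iff, AddSubgroup.mem_addSubgroupOf] at h1
    have h2 : (((n : ℤ) • Db : Divisor.degZero (K := k) (F := κ)) : Divisor k κ) = n • Db.1 := by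
      rw [AddSubgroup.coe_zsmul, natCast_zsmul]
    rw [h2] at h1
    exact h1
  obtain ⟨g, hg0, hg⟩ := hnD
  obtain ⟨S, M₀, hL⟩ := hlift
  obtain ⟨M, hM⟩ := exists_niceRep_infty hxb Db.1 Db.2 Pb S
  obtain ⟨Uvar, Ufix, f, zb, val, hdisj, hvS, hfS, hPv, hPf, hord0, hcardv, hcard, hrr, hf0,
    hfeq, hzint, hvalinj, hzord⟩ := hM (max M M₀) (le_max_left _ _)
  set m := max M M₀ with hm
  have hub0 : g * f ^ n ≠ 0 := mul_ne_zero hg0 (pow_ne_zero n hf0)
  have hubord : ∀ w : Place k κ, w.ord (g * f ^ n) =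
      (n : ℤ) * (finDiv Uvar w + finDiv Ufix w) - (n : ℤ) * m * Finsupp.single Pb (1 : ℤ) w := by
    intro w
    rw [w.ord_mul hg0 (pow_ne_zero n hf0), ← zpow_natCast, w.ord_zpow, ← hg w,
      Finsupp.smul_apply, nsmul_eq_mul]
    have := hfeq w
    linear_combination (-(n : ℤ)) * this
  obtain ⟨zf, u, u', hzO, huO, pA, hresz, hresu, hzc, hzreg, hureg, hu'reg, hpole, hsep, hnorm⟩ :=
    hL m (le_max_right _ _) Uvar Ufix zb (g * f ^ n) val hdisj hvS hfS hPv hPf hord0 hcardv hcard
      hrr hzint hvalinj hzord hub0 hubord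
  have hPbU : Pb ∉ Uvar ∪ Ufix := by
    rw [Finset.mem_union, not_or]
    exact ⟨hPv, hPf⟩
  have hres : R.res ⟨u, huO⟩ ≠ 0 := by rw [hresu]; exact hub0
  have hu0 : u ≠ 0 := ne_zero_of_res_ne_zero R huO hres
  obtain ⟨D, hD1, hD2⟩ := exists_lift_divisor_of_norm R sp hsp hx hP hzO huO hzc hzreg hureg hu'reg
    hn hpole (Uvar ∪ Ufix) hPbU val
    (fun w hw => by rw [hresz]; exact hzord w (Finset.mem_union.mp hw)) hres
    (fun w => by rw [hresu, hubord w, finDiv_union hdisj, Finsupp.add_apply])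
    pA hsep (c := 1) one_ne_zero (by rw [map_one, one_mul]; exact hnorm)
  refine exists_torsion_preimage sp spP hspP hn hu0 hD1 Db ⟨f, hf0, fun w => ?_⟩
  rw [Finsupp.sub_apply, hD2, Finsupp.sub_apply, finDiv_union hdisj, Finsupp.add_apply,
    Finsupp.smul_apply, nsmul_eq_mul]
  have := hfeq w
  linear_combination this

end Fermat.Agent.S27x.Lift.SurjOfLift
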