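import Fermat.Agent.S27x.Spec.Inj
import Fermat.Agent.S27x.Lift.NiceRep
import Fermat.Agent.S24.PrincipalDiv
import Fermat.Agent.S27x.Spec.HenselRoots

/-!
# P-S27, block D7 (V): verification of a lifted `n`-torsion divisor

Abstract setting: `R : RedSetup A O k κ` a reduction of the function field `F / K` to `κ / k`,
`sp : Place K F → Place k κ` a specialisation map of places whose push-forward of divisors is
compatible with the reduction of functions (`Inj.SpCompat`, conservation of number).

* `sum_fibre_eq` : the fibre sum formula `∑_{sp v = w} ord_v f = ord_w (res f)` (Finset form);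
* `value_compat` : values reduce (maximum principle on a residue disc);
* `disc_injective` : a function whose reduction is a uniformiser at `w` is injective on the
  residue disc of `w`;
* `exists_lift_divisor` : **the verification theorem**.
-/

set_option autoImplicit false
set_option linter.unusedSectionVars false
set_option linter.style.haveILetI false

noncomputable section

namespace Fermat.Agent.S27x.Lift.Verify

open AlgebraicCurve IntermediateField Module IsLocalRing
open Fermat.Agent.Gateway.C0 Fermat.Agent.Lib.RiemannRoch Fermat.Agent.S27x.Spec.Inj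
open Fermat.Agent.S27x.Lift.NiceRep Fermat.Agent.S24

universe u v w z

/-! ### Generalities on orders -/

section Ord

variable {K : Type*} {F : Type*} [Field K] [Field F] [Algebra K F]

theorem ne_zero_of_ord_ne_zero (v : Place K F) {f : F} (h : v.ord f ≠ 0) : f ≠ 0 := by
  rintro rfl
  exact h v.ord_zero

theorem ne_zero_of_ord_pos (v : Place K F) {f : F} (h : 0 < v.ord f) : f ≠ 0 :=
  ne_zero_of_ord_ne_zero v h.ne'

/-- a function with a zero at `v` is not a nonzero constant -/
theorem ord_const_sub_const (v : Place K F) (a b : K) :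
    v.ord (algebraMap K F a - algebraMap K F b) = 0 := by
  rw [← map_sub]
  exact PDiv.ord_algebraMap v _

/-- uniqueness of the value at a place (order form) -/
theorem value_unique (v : Place K F) {f : F} {a b : K}
    (ha : 0 < v.ord (f - algebraMap K F a)) (hb : 0 < v.ord (f - algebraMap K F b)) : a = b :=
  PD.const_unique v ha hb

/-- `0 ≤ ord (f - a)` if `0 ≤ ord f` -/
theorem ord_sub_const_nonneg (v : Place K F) {f : F} (hf : 0 ≤ v.ord f) (a : K) :
    0 ≤ v.ord (f - algebraMap K F a) := by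
  by_cases h0 : f - algebraMap K F a = 0
  · rw [h0, v.ord_zero]
  by_cases hf0 : f = 0
  · rw [hf0, zero_sub] at h0 ⊢
    rw [(isAddVal_ord v).map_neg (neg_ne_zero.mp h0), PDiv.ord_algebraMap]
  by_cases ha : a = 0
  · rw [ha, map_zero, sub_zero]
    exact hf
  have haF : algebraMap K F a ≠ 0 := (map_ne_zero _).mpr ha
  have := (isAddVal_ord v).map_sub hf0 haF h0
  rw [PDiv.ord_algebraMap] at this
  exact le_trans (le_min hf le_rfl) this

end Ord

/-! ### The fibre sum formula -/

section Fibre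

variable {K : Type u} [Field K] [IsAlgClosed K] [CharZero K] {A : ValuationSubring K}
  {F : Type v} [Field F] [Algebra K F] {O : ValuationSubring F}
  {k : Type w} {κ : Type z} [Field k] [IsAlgClosed k] [Field κ] [Algebra k κ]
  (R : RedSetup A O k κ) (sp : Place K F → Place k κ)
  (hsp : SpCompat R (Finsupp.mapDomain.addMonoidHom sp))
  [HasPrincipalDivisors K F] [∀ v : Place K F, v.FiniteResidue]

theorem ne_zero_of_res_ne_zero {f : F} (hf : f ∈ O) (hres : R.res ⟨f, hf⟩ ≠ 0) : f ≠ 0 := by
  rintro rfl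
  apply hres
  have : (⟨0, hf⟩ : O) = 0 := rfl
  rw [this, map_zero]

open Classical in
include hsp in
/-- **Fibre sum formula**: for `f ∈ O` with nonzero reduction, the orders of `f` at the places
specialising to `w` add up to the order of `res f` at `w`. -/
theorem sum_fibre_eq {f : F} (hf : f ∈ O) (hres : R.res ⟨f, hf⟩ ≠ 0) (w : Place k κ) :
    ∑ v ∈ (divOf (K := K) f).support with sp v = w, v.ord f = w.ord (R.res ⟨f, hf⟩) := by
  have hf0 : f ≠ 0 := ne_zero_of_res_ne_zero R hf hres
  have h1 := hsp f hf (valuation_eq_one_of_res_ne_zero R hf hres) (divOf (K := K) f)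
    (fun v => divOf_apply hf0 v) w
  rw [← h1, Finsupp.mapDomain.addMonoidHom_apply, Finsupp.mapDomain, Finsupp.sum,
    Finsupp.finsetSum_apply, Finset.sum_filter]
  refine Finset.sum_congr rfl fun v _ => ?_
  rw [Finsupp.single_apply, divOf_apply hf0]

open Classical in
include hsp in
/-- if `f` is regular on the fibre of `w`, so is its reduction at `w` -/
theorem ord_res_nonneg {f : F} (hf : f ∈ O) (hres : R.res ⟨f, hf⟩ ≠ 0) (w : Place k κ)
    (hreg : ∀ v, sp v = w → 0 ≤ v.ord f) : 0 ≤ w.ord (R.res ⟨f, hf⟩) := by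
  rw [← sum_fibre_eq R sp hsp hf hres w]
  exact Finset.sum_nonneg fun v hv => hreg v (Finset.mem_filter.mp hv).2

open Classical in
include hsp in
/-- a term of the fibre sum is bounded by the sum, if `f` is regular on the fibre -/
theorem ord_le_ord_res {f : F} (hf : f ∈ O) (hres : R.res ⟨f, hf⟩ ≠ 0) (w : Place k κ)
    (hreg : ∀ v, sp v = w → 0 ≤ v.ord f) {Q : Place K F} (hQ : sp Q = w) :
    Q.ord f ≤ w.ord (R.res ⟨f, hf⟩) := by
  have hf0 : f ≠ 0 := ne_zero_of_res_ne_zero R hf hres
  by_cases h0 : Q.ord f = 0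
  · rw [h0]
    exact ord_res_nonneg R sp hsp hf hres w hreg
  rw [← sum_fibre_eq R sp hsp hf hres w]
  have hmem : Q ∈ (divOf (K := K) f).support.filter (fun v => sp v = w) := by
    rw [Finset.mem_filter, Finsupp.mem_support_iff, divOf_apply hf0]
    exact ⟨h0, hQ⟩
  exact Finset.single_le_sum (f := fun v => v.ord f)
    (fun v hv => hreg v (Finset.mem_filter.mp hv).2) hmem

open Classical in
include hsp in
/-- two distinct places of the fibre contribute separately -/
theorem ord_add_ord_le_ord_res {f : F} (hf : f ∈ O) (hres : R.res ⟨f, hf⟩ ≠ 0) (w : Place k κ)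
    (hreg : ∀ v, sp v = w → 0 ≤ v.ord f) {Q Q' : Place K F} (hQ : sp Q = w) (hQ' : sp Q' = w)
    (hne : Q ≠ Q') (h0 : Q.ord f ≠ 0) (h0' : Q'.ord f ≠ 0) :
    Q.ord f + Q'.ord f ≤ w.ord (R.res ⟨f, hf⟩) := by
  have hf0 : f ≠ 0 := ne_zero_of_res_ne_zero R hf hres
  rw [← sum_fibre_eq R sp hsp hf hres w]
  have hmem : Q ∈ (divOf (K := K) f).support.filter (fun v => sp v = w) := by
    rw [Finset.mem_filter, Finsupp.mem_support_iff, divOf_apply hf0]
    exact ⟨h0, hQ⟩
  have hmem' : Q' ∈ (divOf (K := K) f).support.filter (fun v => sp v = w) := by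
    rw [Finset.mem_filter, Finsupp.mem_support_iff, divOf_apply hf0]
    exact ⟨h0', hQ'⟩
  have hsub : ({Q, Q'} : Finset (Place K F)) ⊆
      (divOf (K := K) f).support.filter (fun v => sp v = w) := by
    intro v hv
    rw [Finset.mem_insert, Finset.mem_singleton] at hv
    rcases hv with rfl | rfl
    · exact hmem
    · exact hmem'
  have := Finset.sum_le_sum_of_subset_of_nonneg (f := fun v => v.ord f) hsub
    (fun v hv _ => hreg v (Finset.mem_filter.mp hv).2)
  rwa [Finset.sum_pair hne] at this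

open Classical in
include hsp in
/-- if the reduction has no zero at `w`, then `f` has no zero on the fibre of `w` -/
theorem ord_eq_zero_of_ord_res_eq_zero {f : F} (hf : f ∈ O) (hres : R.res ⟨f, hf⟩ ≠ 0)
    (w : Place k κ) (hreg : ∀ v, sp v = w → 0 ≤ v.ord f) (hw : w.ord (R.res ⟨f, hf⟩) = 0)
    {Q : Place K F} (hQ : sp Q = w) : Q.ord f = 0 :=
  le_antisymm (hw ▸ ord_le_ord_res R sp hsp hf hres w hreg hQ) (hreg Q hQ)

/-! ### Values reduce; residue discs -/

include R in
theorem sub_const_mem {f : F} (hf : f ∈ O) (a : A) : f - algebraMap K F (a : K) ∈ O :=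
  sub_mem hf (R.algebraMap_mem a)

theorem res_sub_const {f : F} (hf : f ∈ O) (a : A) :
    R.res ⟨f - algebraMap K F (a : K), sub_const_mem R hf a⟩ =
      R.res ⟨f, hf⟩ - algebraMap k κ (R.π a) := by
  have e : (⟨f - algebraMap K F (a : K), sub_const_mem R hf a⟩ : O) =
      ⟨f, hf⟩ - ⟨algebraMap K F (a : K), R.algebraMap_mem a⟩ := rfl
  rw [e, map_sub, R.res_algebraMap]

omit [HasPrincipalDivisors K F] [∀ v : Place K F, v.FiniteResidue] in
theorem ord_const_mul_nonneg (v : Place K F) {f : F} (hf : 0 ≤ v.ord f) (c : K) :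
    0 ≤ v.ord (algebraMap K F c * f) := by
  by_cases hc : c = 0
  · rw [hc, map_zero, zero_mul, v.ord_zero]
  by_cases hf0 : f = 0
  · rw [hf0, mul_zero, v.ord_zero]
  rw [v.ord_mul ((map_ne_zero _).mpr hc) hf0, PDiv.ord_algebraMap, zero_add]
  exact hf

open Classical in
include hsp in
/-- **Values reduce** (maximum principle on the residue disc of `w`): if `f ∈ O` is regular on the
fibre of `w` and takes the value `a` at a place `Q` of the fibre, then `a ∈ A` and `res f` takes
the value `π a` at `w`. -/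
theorem value_compat {f : F} (hf : f ∈ O) (w : Place k κ) (hreg : ∀ v, sp v = w → 0 ≤ v.ord f)
    {Q : Place K F} (hQ : sp Q = w) {a : K} (ha : 0 < Q.ord (f - algebraMap K F a)) :
    ∃ haA : a ∈ A, R.res ⟨f, hf⟩ = algebraMap k κ (R.π ⟨a, haA⟩) ∨
      0 < w.ord (R.res ⟨f, hf⟩ - algebraMap k κ (R.π ⟨a, haA⟩)) := by
  have hfa0 : f - algebraMap K F a ≠ 0 := ne_zero_of_ord_pos Q ha
  have haA : a ∈ A := by
    by_contra hna
    have ha0 : a ≠ 0 := by
      rintro rfl
      exact hna A.zero_mem
    have hinv : a⁻¹ ∈ A := (A.mem_or_inv_mem a).resolve_left hna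
    set b : A := ⟨a⁻¹, hinv⟩ with hb
    have hbm : b ∈ maximalIdeal A := by
      rw [mem_maximalIdeal, mem_nonunits_iff]
      intro hu
      obtain ⟨c, hc⟩ := hu.exists_right_inv
      have hc' : a⁻¹ * (c : K) = 1 := congrArg Subtype.val hc
      have : (c : K) = a :=
        calc (c : K) = a * (a⁻¹ * (c : K)) := by rw [← mul_assoc, mul_inv_cancel₀ ha0, one_mul]
          _ = a := by rw [hc', mul_one]
      exact hna (this ▸ c.2)
    have hπb : R.π b = 0 := (R.π_eq_zero_iff b).mpr hbm
    have hgO : algebraMap K F a⁻¹ * f - 1 ∈ O :=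
      sub_mem (O.mul_mem _ _ (R.algebraMap_mem b) hf) O.one_mem
    have hres : R.res ⟨algebraMap K F a⁻¹ * f - 1, hgO⟩ = -1 := by
      have e : (⟨algebraMap K F a⁻¹ * f - 1, hgO⟩ : O) =
          ⟨algebraMap K F (b : K), R.algebraMap_mem b⟩ * ⟨f, hf⟩ - 1 := rfl
      rw [e, map_sub, map_mul, R.res_algebraMap, hπb, map_zero, zero_mul, map_one, zero_sub]
    have hres0 : R.res ⟨algebraMap K F a⁻¹ * f - 1, hgO⟩ ≠ 0 := by
      rw [hres]
      exact neg_ne_zero.mpr one_ne_zero
    have hreg' : ∀ v, sp v = w → 0 ≤ v.ord (algebraMap K F a⁻¹ * f - 1) := by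
      intro v hv
      have h1 := ord_sub_const_nonneg v (ord_const_mul_nonneg v (hreg v hv) a⁻¹) 1
      rwa [map_one] at h1
    have hle := ord_le_ord_res R sp hsp hgO hres0 w hreg' hQ
    rw [hres, (isAddVal_ord w).map_neg one_ne_zero, (isAddVal_ord w).map_one] at hle
    have hg : algebraMap K F a⁻¹ * f - 1 = algebraMap K F a⁻¹ * (f - algebraMap K F a) := by
      rw [mul_sub, ← map_mul, inv_mul_cancel₀ ha0, map_one]
    rw [hg, Q.ord_mul ((map_ne_zero _).mpr (inv_ne_zero ha0)) hfa0, PDiv.ord_algebraMap,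
      zero_add] at hle
    omega
  refine ⟨haA, ?_⟩
  by_cases h0 : R.res ⟨f, hf⟩ = algebraMap k κ (R.π ⟨a, haA⟩)
  · exact Or.inl h0
  right
  have hres := res_sub_const R hf ⟨a, haA⟩
  have hres0 : R.res ⟨f - algebraMap K F a, sub_const_mem R hf ⟨a, haA⟩⟩ ≠ 0 := by
    rw [hres]
    exact sub_ne_zero.mpr h0
  have hle := ord_le_ord_res R sp hsp (sub_const_mem R hf ⟨a, haA⟩) hres0 w
    (fun v hv => ord_sub_const_nonneg v (hreg v hv) a) hQ
  rw [hres] at hle
  exact lt_of_lt_of_le ha hle

open Classical in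
include hsp in
/-- **Residue discs**: if `res z - π ρ` is a uniformiser at `w` and `z` is regular on the fibre of
`w`, then at most one place of the fibre has `z = ρ`. -/
theorem disc_injective {f : F} (hf : f ∈ O) (w : Place k κ) (hreg : ∀ v, sp v = w → 0 ≤ v.ord f)
    (ρ : A) (hw : w.ord (R.res ⟨f, hf⟩ - algebraMap k κ (R.π ρ)) = 1)
    {Q Q' : Place K F} (hQ : sp Q = w) (hQ' : sp Q' = w)
    (h : 0 < Q.ord (f - algebraMap K F (ρ : K)))
    (h' : 0 < Q'.ord (f - algebraMap K F (ρ : K))) : Q = Q' := by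
  by_contra hne
  have hres := res_sub_const R hf ρ
  have hres0 : R.res ⟨f - algebraMap K F (ρ : K), sub_const_mem R hf ρ⟩ ≠ 0 := by
    rw [hres]
    intro h0
    rw [h0, w.ord_zero] at hw
    exact zero_ne_one hw
  have hle := ord_add_ord_le_ord_res R sp hsp (sub_const_mem R hf ρ) hres0 w
    (fun v hv => ord_sub_const_nonneg v (hreg v hv) (ρ : K)) hQ hQ' hne h.ne' h'.ne'
  rw [hres, hw] at hle
  omega

end Fibre

/-! ### From a norm identity to the roots hypothesis -/

section Norm

open Polynomial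

/-- **Cayley-Hamilton**: every element of a finite free algebra divides its norm. -/
theorem exists_mul_eq_algebraMap_norm {R₀ S : Type*} [CommRing R₀] [CommRing S] [Algebra R₀ S]
    [Module.Free R₀ S] [Module.Finite R₀ S] (b : S) :
    ∃ b' : S, b * b' = algebraMap R₀ S (Algebra.norm R₀ b) := by
  set f : S →ₗ[R₀] S := Algebra.lmul R₀ S b with hf
  set p := f.charpoly with hp
  have h1 : aeval b p = 0 := by
    have h := LinearMap.aeval_self_charpoly f
    have h2 : aeval f p = Algebra.lmul R₀ S (aeval b p) := by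
      rw [hf, Polynomial.aeval_algHom_apply]
    rw [h2] at h
    have h3 := congrArg (fun g : S →ₗ[R₀] S => g 1) h
    simpa using h3
  have h2 : b * aeval b p.divX + algebraMap R₀ S (p.coeff 0) = 0 := by
    have := congrArg (aeval b) (Polynomial.X_mul_divX_add p)
    rw [map_add, map_mul, aeval_X, aeval_C, h1] at this
    exact this
  refine ⟨(-1) ^ (Module.finrank R₀ S + 1) * aeval b p.divX, ?_⟩
  rw [Algebra.norm_apply, LinearMap.det_eq_sign_charpoly_coeff, map_mul, map_pow, map_neg,
    map_one]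
  have h3 : algebraMap R₀ S (p.coeff 0) = -(b * aeval b p.divX) := by
    rw [← add_eq_zero_iff_eq_neg']
    exact h2
  rw [← hf, ← hp, h3, pow_succ]
  ring

variable {K : Type*} {F : Type*} [Field K] [Field F] [Algebra K F]

/-- polynomials in a function regular at `v` are regular at `v` -/
theorem aeval_mem_valuationSubring (v : Place K F) {zf : F} (hz : zf ∈ v.toValuationSubring)
    (q : K[X]) : aeval zf q ∈ v.toValuationSubring := by
  rw [Polynomial.aeval_eq_sum_range]
  refine sum_mem fun i _ => ?_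
  rw [Algebra.smul_def]
  exact v.toValuationSubring.mul_mem _ _ (v.algebraMap_mem' _) (pow_mem hz i)

theorem ord_aeval_nonneg (v : Place K F) {zf : F} (hz : 0 ≤ v.ord zf) (q : K[X]) :
    0 ≤ v.ord (aeval zf q) := by
  by_cases h0 : aeval zf q = 0
  · rw [h0, v.ord_zero]
  rw [← place_mem_iff_ord_nonneg v h0]
  apply aeval_mem_valuationSubring
  by_cases hz0 : zf = 0
  · rw [hz0]
    exact v.toValuationSubring.zero_mem
  exact (place_mem_iff_ord_nonneg v hz0).mpr hz

/-- if `p(zf)` vanishes at `v` and `zf` takes the value `a` at `v`, then `p(a) = 0` -/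
theorem isRoot_of_ord_aeval_pos (v : Place K F) {zf : F} {a : K}
    (ha : 0 < v.ord (zf - algebraMap K F a)) (p : K[X])
    (hp : aeval zf p = 0 ∨ 0 < v.ord (aeval zf p)) : p.IsRoot a := by
  have hza0 : zf - algebraMap K F a ≠ 0 := ne_zero_of_ord_pos v ha
  have hz : 0 ≤ v.ord zf := by
    have h1 := ord_sub_const_nonneg v ha.le (-a)
    rwa [map_neg, sub_neg_eq_add, sub_add_cancel] at h1
  -- `p = (X - a) q + p(a)`
  have hdecomp : aeval zf p = algebraMap K F (p.eval a) +
      (zf - algebraMap K F a) * aeval zf (p /ₘ (X - C a)) := by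
    have h1 := Polynomial.modByMonic_add_div p (X - C a)
    rw [Polynomial.modByMonic_X_sub_C_eq_C_eval] at h1
    have h2 := congrArg (aeval zf) h1
    rw [map_add, map_mul, map_sub, aeval_X, aeval_C, aeval_C] at h2
    exact h2.symm
  by_contra hroot
  have hpa : p.eval a ≠ 0 := hroot
  have hc0 : algebraMap K F (p.eval a) ≠ 0 := (_root_.map_ne_zero _).mpr hpa
  have hc : v.ord (algebraMap K F (p.eval a)) = 0 := PDiv.ord_algebraMap v _
  by_cases hq0 : aeval zf (p /ₘ (X - C a)) = 0
  · rw [hq0, mul_zero, add_zero] at hdecomp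
    rcases hp with hp | hp
    · exact hc0 (hdecomp ▸ hp)
    · rw [hdecomp, hc] at hp
      exact lt_irrefl _ hp
  have hprod0 : (zf - algebraMap K F a) * aeval zf (p /ₘ (X - C a)) ≠ 0 := mul_ne_zero hza0 hq0
  have hprod : 0 < v.ord ((zf - algebraMap K F a) * aeval zf (p /ₘ (X - C a))) := by
    rw [v.ord_mul hza0 hq0]
    have := ord_aeval_nonneg v hz (p /ₘ (X - C a))
    omega
  have hsum := (isAddVal_ord v).map_add_of_lt hc0 hprod0 (by rw [hc]; exact hprod)
  rw [← hdecomp, hc] at hsum
  rcases hp with hp | hp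
  · have hneg : algebraMap K F (p.eval a) =
        -((zf - algebraMap K F a) * aeval zf (p /ₘ (X - C a))) := by
      rw [eq_neg_iff_add_eq_zero, ← hdecomp, hp]
    have h1 : v.ord (algebraMap K F (p.eval a)) =
        v.ord ((zf - algebraMap K F a) * aeval zf (p /ₘ (X - C a))) := by
      rw [hneg, (isAddVal_ord v).map_neg hprod0]
    rw [hc] at h1
    omega
  · omega

/-- at a zero of `u`, where `u u' = c p(zf)^n`, the function `zf` takes a root of `p` as value -/
theorem exists_root_of_mul_eq [IsAlgClosed K] [CharZero K] {x : F} (hx : Transcendental K x)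
    [FiniteDimensional K⟮x⟯ F] (v : Place K F) {zf u u' : F}
    (hzc : ∀ a : K, zf ≠ algebraMap K F a) (hz : 0 ≤ v.ord zf) (hu' : 0 ≤ v.ord u')
    (hu : 0 < v.ord u) {c : K} (hc : c ≠ 0) {p : K[X]} {n : ℕ}
    (h : u * u' = algebraMap K F c * (aeval zf p) ^ n) :
    ∃ a : K, p.IsRoot a ∧ 0 < v.ord (zf - algebraMap K F a) := by
  have hu0 : u ≠ 0 := ne_zero_of_ord_pos v hu
  have hz0 : zf ≠ 0 := by
    intro h0
    exact hzc 0 (by rw [h0, map_zero])
  have hzmem : zf ∈ v.toValuationSubring := (place_mem_iff_ord_nonneg v hz0).mpr hz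
  obtain ⟨a, ha⟩ := PD.exists_const_sub_ord_pos hx v hzmem
  have ha' : 0 < v.ord (zf - algebraMap K F a) := ha.resolve_left (hzc a)
  refine ⟨a, ?_, ha'⟩
  apply isRoot_of_ord_aeval_pos v ha'
  by_cases hW : aeval zf p = 0
  · exact Or.inl hW
  right
  have hcF : algebraMap K F c ≠ 0 := (_root_.map_ne_zero _).mpr hc
  have hWn : (aeval zf p) ^ n ≠ 0 := pow_ne_zero _ hW
  have hu'0 : u' ≠ 0 := by
    intro h0
    rw [h0, mul_zero] at h
    exact mul_ne_zero hcF hWn h.symm
  have h1 := congrArg v.ord h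
  rw [v.ord_mul hu0 hu'0, v.ord_mul hcF hWn, PDiv.ord_algebraMap, zero_add, ← zpow_natCast,
    v.ord_zpow] at h1
  by_contra hle
  have hle' : v.ord (aeval zf p) ≤ 0 := not_lt.mp hle
  have : (n : ℤ) * v.ord (aeval zf p) ≤ 0 :=
    mul_nonpos_of_nonneg_of_nonpos (Int.natCast_nonneg n) hle'
  omega

end Norm

/-! ### The verification theorem -/

section Main

variable {K : Type u} [Field K] [IsAlgClosed K] [CharZero K] {A : ValuationSubring K}
  {F : Type v} [Field F] [Algebra K F] {O : ValuationSubring F}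
  {k : Type w} {κ : Type z} [Field k] [IsAlgClosed k] [Field κ] [Algebra k κ]
  (R : RedSetup A O k κ) (sp : Place K F → Place k κ)
  (hsp : SpCompat R (Finsupp.mapDomain.addMonoidHom sp))
  [HasPrincipalDivisors K F] [∀ v : Place K F, v.FiniteResidue]

open Classical in
include hsp in
/-- **Verification theorem.**  Let `P` be a place over `Pb`, let `u, zf ∈ O` be regular
off `P`, `u` with a pole of order at most `n m` at `P`, let the reduction of `u` have divisor
`n (∑_{w ∈ U} w - m Pb)`, let `res zf - val w` be a uniformiser at each `w ∈ U`, and suppose that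
at every zero of `u` the function `zf` takes a value in a set `Z` whose integral elements inject
into the residue field.  Then `div u = n D` for a divisor `D` specialising to
`∑_{w ∈ U} w - m Pb`. -/
theorem exists_lift_divisor
    {P : Place K F} {Pb : Place k κ} (hP : sp P = Pb)
    {zf u : F} (hzO : zf ∈ O) (huO : u ∈ O)
    (hzreg : ∀ v, v ≠ P → 0 ≤ v.ord zf) (hureg : ∀ v, v ≠ P → 0 ≤ v.ord u)
    {n m : ℕ} (hn : 0 < n) (hpole : -((n : ℤ) * m) ≤ P.ord u)
    (U : Finset (Place k κ)) (hPbU : Pb ∉ U) (val : Place k κ → k)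
    (hval : ∀ w ∈ U, w.ord (R.res ⟨zf, hzO⟩ - algebraMap k κ (val w)) = 1)
    (hres : R.res ⟨u, huO⟩ ≠ 0)
    (hdivb : ∀ w, w.ord (R.res ⟨u, huO⟩) =
      (n : ℤ) * finDiv U w - (n : ℤ) * m * Finsupp.single Pb (1 : ℤ) w)
    (Z : Set K) (hZ : ∀ a b : A, (a : K) ∈ Z → (b : K) ∈ Z → R.π a = R.π b → a = b)
    (hroots : ∀ v, v ≠ P → 0 < v.ord u → ∃ a ∈ Z, 0 < v.ord (zf - algebraMap K F a)) :
    ∃ D : Divisor K F, (∀ v, (n : ℤ) * D v = v.ord u) ∧
      Finsupp.mapDomain sp D = finDiv U - m • Finsupp.single Pb (1 : ℤ) := by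
  have hu0 : u ≠ 0 := ne_zero_of_res_ne_zero R huO hres
  have hnZ : (0 : ℤ) < n := by exact_mod_cast hn
  have hneP : ∀ v, sp v ≠ Pb → v ≠ P := fun v hv h => hv (h ▸ hP)
  have hureg' : ∀ w, w ≠ Pb → ∀ v, sp v = w → 0 ≤ v.ord u :=
    fun w hw v hv => hureg v (hneP v (hv ▸ hw))
  have hzreg' : ∀ w, w ≠ Pb → ∀ v, sp v = w → 0 ≤ v.ord zf :=
    fun w hw v hv => hzreg v (hneP v (hv ▸ hw))
  -- (1) the fibre over `Pb`
  have hfibP : P.ord u = -((n : ℤ) * m) ∧ ∀ v, v ≠ P → sp v = Pb → v.ord u = 0 := by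
    have hs := sum_fibre_eq R sp hsp huO hres Pb
    rw [hdivb, finDiv_apply_of_notMem hPbU, Finsupp.single_eq_same] at hs
    set T := (divOf (K := K) u).support.filter (fun v => sp v = Pb) with hT
    have hnn : ∀ v ∈ T.erase P, 0 ≤ v.ord u := fun v hv => hureg v (Finset.ne_of_mem_erase hv)
    have hsplit : P.ord u + ∑ v ∈ T.erase P, v.ord u = ∑ v ∈ T, v.ord u := by
      by_cases hPT : P ∈ T
      · exact Finset.add_sum_erase T (fun v => v.ord u) hPT
      · rw [Finset.erase_eq_of_notMem hPT]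
        have : P.ord u = 0 := by
          by_contra h0
          apply hPT
          rw [hT, Finset.mem_filter, Finsupp.mem_support_iff, divOf_apply hu0]
          exact ⟨h0, hP⟩
        rw [this, zero_add]
    have hge := Finset.sum_nonneg hnn
    have h1 : P.ord u = -((n : ℤ) * m) := by
      rw [hs] at hsplit
      have h2 : (n : ℤ) * 0 - (n : ℤ) * m * 1 = -((n : ℤ) * m) := by ring
      rw [h2] at hsplit
      omega
    refine ⟨h1, fun v hv hvPb => ?_⟩
    by_contra h0
    have hvT : v ∈ T.erase P := by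
      rw [Finset.mem_erase, hT, Finset.mem_filter, Finsupp.mem_support_iff, divOf_apply hu0]
      exact ⟨hv, h0, hvPb⟩
    have hzero : ∑ v ∈ T.erase P, v.ord u = 0 := by
      rw [hs] at hsplit
      have h2 : (n : ℤ) * 0 - (n : ℤ) * m * 1 = -((n : ℤ) * m) := by ring
      rw [h2] at hsplit
      omega
    exact h0 ((Finset.sum_eq_zero_iff_of_nonneg hnn).mp hzero v hvT)
  have hordP := hfibP.1
  -- (2) places over `w ∉ U`
  have hord0 : ∀ v, v ≠ P → sp v ∉ U → v.ord u = 0 := by
    intro v hv hvU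
    by_cases hw : sp v = Pb
    · exact hfibP.2 v hv hw
    refine ord_eq_zero_of_ord_res_eq_zero R sp hsp huO hres (sp v) (hureg' _ hw) ?_ rfl
    rw [hdivb, finDiv_apply_of_notMem hvU, Finsupp.single_eq_of_ne hw, mul_zero, mul_zero,
      sub_zero]
  -- (3) uniqueness of the zero of `u` over `w ∈ U`
  have huniq : ∀ v v', v ≠ P → v' ≠ P → sp v = sp v' → 0 < v.ord u → 0 < v'.ord u → v = v' := by
    intro v v' hv hv' hvv' h h'
    have hwU : sp v ∈ U := by
      by_contra hn'
      rw [hord0 v hv hn'] at h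
      exact lt_irrefl _ h
    obtain ⟨a, haZ, ha⟩ := hroots v hv h
    obtain ⟨a', haZ', ha'⟩ := hroots v' hv' h'
    have hw : sp v ≠ Pb := fun h => hPbU (h ▸ hwU)
    have key : ∀ (v₁ : Place K F) (a₁ : K), sp v₁ = sp v →
        0 < v₁.ord (zf - algebraMap K F a₁) →
        ∃ haA : a₁ ∈ A, R.π ⟨a₁, haA⟩ = val (sp v) := by
      intro v₁ a₁ hv₁ h₁
      obtain ⟨haA, hc⟩ := value_compat R sp hsp hzO (sp v) (hzreg' _ hw) hv₁ h₁
      refine ⟨haA, ?_⟩
      have h1 := hval (sp v) hwU
      rcases hc with hc | hc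
      · exfalso
        rw [hc, ord_const_sub_const] at h1
        exact zero_ne_one h1
      · exact value_unique (sp v) hc (by rw [h1]; exact one_pos)
    obtain ⟨haA, e1⟩ := key v a rfl ha
    obtain ⟨haA', e2⟩ := key v' a' hvv'.symm ha'
    have haa : (⟨a, haA⟩ : A) = ⟨a', haA'⟩ := hZ ⟨a, haA⟩ ⟨a', haA'⟩ haZ haZ' (e1.trans e2.symm)
    have haa' : a = a' := congrArg Subtype.val haa
    subst haa'
    exact disc_injective R sp hsp hzO (sp v) (hzreg' _ hw) ⟨a, haA⟩
      (by rw [e1]; exact hval _ hwU) rfl hvv'.symm ha ha'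
  -- (4) existence of the zero over `w ∈ U`
  have hex : ∀ w ∈ U, ∃ v, sp v = w ∧ v.ord u = n := by
    intro w hwU
    have hw : w ≠ Pb := fun h => hPbU (h ▸ hwU)
    have hs := sum_fibre_eq R sp hsp huO hres w
    rw [hdivb, finDiv_apply_of_mem hwU, Finsupp.single_eq_of_ne hw, mul_one, mul_zero,
      sub_zero] at hs
    have hpos : ∃ v ∈ (divOf (K := K) u).support.filter (fun v => sp v = w), 0 < v.ord u := by
      by_contra hno
      have hno' : ∀ v ∈ (divOf (K := K) u).support.filter (fun v => sp v = w), v.ord u ≤ 0 :=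
        fun v hv => not_lt.mp fun h => hno ⟨v, hv, h⟩
      have := Finset.sum_nonpos hno'
      rw [hs] at this
      omega
    obtain ⟨v0, hv0, hv0pos⟩ := hpos
    have hv0w : sp v0 = w := (Finset.mem_filter.mp hv0).2
    refine ⟨v0, hv0w, ?_⟩
    rw [← hs]
    symm
    apply Finset.sum_eq_single_of_mem v0 hv0
    intro v hv hne
    have hvw := (Finset.mem_filter.mp hv).2
    have hvP : v ≠ P := hneP v (hvw ▸ hw)
    have hnn := hureg v hvP
    by_contra h0
    have hpos : 0 < v.ord u := lt_of_le_of_ne hnn (Ne.symm h0)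
    exact hne (huniq v v0 hvP (hneP v0 (hv0w ▸ hw)) (hvw.trans hv0w.symm) hpos hv0pos)
  haveI : Nonempty (Place K F) := ⟨P⟩
  choose! Qf hQf1 hQf2 using hex
  have hQfP : ∀ w ∈ U, Qf w ≠ P := by
    intro w hwU h
    have := hQf1 w hwU
    rw [h, hP] at this
    exact hPbU (this ▸ hwU)
  -- (5) the divisor
  refine ⟨∑ w ∈ U, Finsupp.single (Qf w) (1 : ℤ) - m • Finsupp.single P (1 : ℤ), ?_, ?_⟩
  · intro v
    rw [Finsupp.sub_apply, Finsupp.finsetSum_apply, Finsupp.smul_apply]
    by_cases hvP : v = P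
    · rw [hvP, Finsupp.single_eq_same, hordP, Finset.sum_eq_zero]
      · simp
      · intro w hwU
        exact Finsupp.single_eq_of_ne (hQfP w hwU).symm
    · rw [Finsupp.single_eq_of_ne hvP, smul_zero, sub_zero]
      by_cases hvU : sp v ∈ U
      · by_cases hvQ : Qf (sp v) = v
        · rw [Finset.sum_eq_single_of_mem (sp v) hvU, hvQ, Finsupp.single_eq_same, mul_one,
            ← hQf2 (sp v) hvU, hvQ]
          intro w hwU hne
          apply Finsupp.single_eq_of_ne
          intro h
          apply hne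
          rw [h, hQf1 w hwU]
        · rw [Finset.sum_eq_zero, mul_zero]
          · symm
            by_contra h0
            have hpos : 0 < v.ord u := lt_of_le_of_ne (hureg v hvP) (Ne.symm h0)
            have hpos' : 0 < (Qf (sp v)).ord u := by rw [hQf2 _ hvU]; exact hnZ
            exact hvQ (huniq v _ hvP (hQfP _ hvU) (hQf1 _ hvU).symm hpos hpos').symm
          · intro w hwU
            apply Finsupp.single_eq_of_ne
            intro h
            apply hvQ
            rw [h, hQf1 w hwU]
      · rw [Finset.sum_eq_zero, mul_zero, hord0 v hvP hvU]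
        intro w hwU
        apply Finsupp.single_eq_of_ne
        intro h
        apply hvU
        rw [h, hQf1 w hwU]
        exact hwU
  · show Finsupp.mapDomain.addMonoidHom sp _ = _
    rw [map_sub, map_sum, map_nsmul]
    simp only [Finsupp.mapDomain.addMonoidHom_apply, Finsupp.mapDomain_single]
    rw [hP, finDiv]
    congr 1
    exact Finset.sum_congr rfl fun w hwU => by rw [hQf1 w hwU]

end Main

/-! ### The verification theorem, norm form -/

section NormForm

open Polynomial

variable {K : Type u} [Field K] [IsAlgClosed K] [CharZero K] {A : ValuationSubring K}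
  {F : Type v} [Field F] [Algebra K F] {O : ValuationSubring F}
  {k : Type w} {κ : Type z} [Field k] [IsAlgClosed k] [Field κ] [Algebra k κ]
  (R : RedSetup A O k κ) (sp : Place K F → Place k κ)
  (hsp : SpCompat R (Finsupp.mapDomain.addMonoidHom sp))

/-- the reduction `π` is injective on the roots in `A` of a polynomial with separable reduction -/
theorem eq_of_isRoot_of_π_eq (pA : A[X]) (hsep : (pA.map R.π).Separable) {a b : A}
    (ha : pA.IsRoot a) (hb : pA.IsRoot b) (hπ : R.π a = R.π b) : a = b := by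
  have hroot : (pA.map R.π).eval₂ (RingHom.id k) (R.π a) = 0 := by
    rw [Polynomial.eval₂_id, Polynomial.eval_map, Polynomial.eval₂_at_apply, ha.eq_zero, map_zero]
  have hder := hsep.eval₂_derivative_ne_zero (RingHom.id k) hroot
  rw [Polynomial.eval₂_id, Polynomial.derivative_map, Polynomial.eval_map,
    Polynomial.eval₂_at_apply] at hder
  have hunit : IsUnit (pA.derivative.eval a) := by
    by_contra hnu
    exact hder ((R.π_eq_zero_iff _).mpr ((mem_maximalIdeal _).mpr hnu))
  refine Fermat.Agent.S27x.Spec.eq_of_isRoot_of_sub_mem hunit ha hb ?_ ?_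
  · rw [sub_self]
    exact (maximalIdeal A).zero_mem
  · rw [← R.π_eq_zero_iff, map_sub, hπ, sub_self]

include hsp in
/-- **Verification theorem, norm form.**  As `exists_lift_divisor`, the hypothesis on the zeros of
`u` being replaced by an identity `u u' = c p(zf)^n` with `u'` regular off `P` and `p ∈ A[X]` with
separable reduction (in practice `u u'` is the norm of `u` to `K(zf)`, by Cayley-Hamilton). -/
theorem exists_lift_divisor_of_norm {x : F} (hx : Transcendental K x) [FiniteDimensional K⟮x⟯ F]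
    {P : Place K F} {Pb : Place k κ} (hP : sp P = Pb)
    {zf u u' : F} (hzO : zf ∈ O) (huO : u ∈ O) (hzc : ∀ a : K, zf ≠ algebraMap K F a)
    (hzreg : ∀ v, v ≠ P → 0 ≤ v.ord zf) (hureg : ∀ v, v ≠ P → 0 ≤ v.ord u)
    (hu'reg : ∀ v, v ≠ P → 0 ≤ v.ord u')
    {n m : ℕ} (hn : 0 < n) (hpole : -((n : ℤ) * m) ≤ P.ord u)
    (U : Finset (Place k κ)) (hPbU : Pb ∉ U) (val : Place k κ → k)
    (hval : ∀ w ∈ U, w.ord (R.res ⟨zf, hzO⟩ - algebraMap k κ (val w)) = 1)
    (hres : R.res ⟨u, huO⟩ ≠ 0)
    (hdivb : ∀ w, w.ord (R.res ⟨u, huO⟩) =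
      (n : ℤ) * finDiv U w - (n : ℤ) * m * Finsupp.single Pb (1 : ℤ) w)
    (pA : A[X]) (hsep : (pA.map R.π).Separable) {c : K} (hc : c ≠ 0)
    (hnorm : u * u' = algebraMap K F c * (aeval zf (pA.map (algebraMap A K))) ^ n) :
    ∃ D : Divisor K F, (∀ v, (n : ℤ) * D v = v.ord u) ∧
      Finsupp.mapDomain sp D = finDiv U - m • Finsupp.single Pb (1 : ℤ) := by
  haveI := hasPrincipalDivisors_cz hx
  haveI := finiteResidue_cz hx
  refine exists_lift_divisor R sp hsp hP hzO huO hzreg hureg hn hpole U hPbU val hval hres hdivb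
    {a : K | (pA.map (algebraMap A K)).IsRoot a} ?_ ?_
  · intro a b ha hb hπ
    have hinj : Function.Injective (algebraMap A K) := Subtype.val_injective
    have ha' : pA.IsRoot a := by
      have h1 : (pA.map (algebraMap A K)).eval (algebraMap A K a) = 0 := ha
      rw [Polynomial.eval_map, Polynomial.eval₂_at_apply] at h1
      exact hinj (h1.trans (map_zero _).symm)
    have hb' : pA.IsRoot b := by
      have h1 : (pA.map (algebraMap A K)).eval (algebraMap A K b) = 0 := hb
      rw [Polynomial.eval_map, Polynomial.eval₂_at_apply] at h1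
      exact hinj (h1.trans (map_zero _).symm)
    exact eq_of_isRoot_of_π_eq R pA hsep ha' hb' hπ
  · intro v hv hpos
    obtain ⟨a, ha, ha'⟩ := exists_root_of_mul_eq hx v hzc (hzreg v hv) (hu'reg v hv) hpos hc hnorm
    exact ⟨a, ha, ha'⟩

end NormForm

/-! ### Class form -/

section ClassForm

variable {K : Type u} [Field K] {F : Type v} [Field F] [Algebra K F]
  {k : Type w} {κ : Type z} [Field k] [Field κ] [Algebra k κ]
  [HasPrincipalDivisors K F] [∀ v : Place K F, v.FiniteResidue]

/-- a divisor `D` with `n D = div u` has degree zero -/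
theorem degree_eq_zero_of_mul_eq_ord {n : ℕ} (hn : 0 < n) {D : Divisor K F} {u : F} (hu : u ≠ 0)
    (hD : ∀ v, (n : ℤ) * D v = v.ord u) : Divisor.degree D = 0 := by
  have h1 : n • D = divOf (K := K) u := by
    ext v
    rw [Finsupp.smul_apply, nsmul_eq_mul, hD v, divOf_apply hu]
  have h2 : Divisor.degree (n • D) = 0 := by rw [h1, degree_divOf]
  rw [map_nsmul, nsmul_eq_mul] at h2
  have hn0 : (n : ℤ) ≠ 0 := by exact_mod_cast hn.ne'
  exact (mul_eq_zero.mp h2).resolve_left hn0

/-- **Surjectivity on `n`-torsion, class form**: a divisor `D` with `n D = div u` whose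
specialisation is linearly equivalent to `Db` gives an `n`-torsion class specialising to the
class of `Db`. -/
theorem exists_torsion_preimage (sp : Place K F → Place k κ) (spP : Pic0 K F →+ Pic0 k κ)
    (hspP : ∀ D : Divisor.degZero (K := K) (F := F),
      ∃ h : Finsupp.mapDomain sp D.1 ∈ Divisor.degZero (K := k) (F := κ),
        spP (Pic0.mk D) = Pic0.mk ⟨Finsupp.mapDomain sp D.1, h⟩)
    {n : ℕ} (hn : 0 < n) {D : Divisor K F} {u : F} (hu : u ≠ 0)
    (hD : ∀ v, (n : ℤ) * D v = v.ord u)
    (Db : Divisor.degZero (K := k) (F := κ))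
    (hDb : Divisor.IsPrincipal (Finsupp.mapDomain sp D - Db.1)) :
    ∃ c ∈ Pic0.torsion K F n, spP c = Pic0.mk Db := by
  have hdeg : D ∈ Divisor.degZero (K := K) (F := F) := by
    rw [Divisor.mem_degZero]
    exact degree_eq_zero_of_mul_eq_ord hn hu hD
  refine ⟨Pic0.mk ⟨D, hdeg⟩, ?_, ?_⟩
  · rw [Pic0.mem_torsion]
    have h1 : (n : ℤ) • Pic0.mk (⟨D, hdeg⟩ : Divisor.degZero (K := K) (F := F)) =
        Pic0.mk ((n : ℤ) • ⟨D, hdeg⟩) := rfl
    rw [h1, Pic0.mk, QuotientAddGroup.eq_zero_iff, AddSubgroup.mem_addSubgroupOf]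
    have h2 : ((((n : ℤ) • (⟨D, hdeg⟩ : Divisor.degZero (K := K) (F := F)) :
        Divisor.degZero (K := K) (F := F))) : Divisor K F) = n • D := by
      rw [AddSubgroup.coe_zsmul, natCast_zsmul]
    rw [h2]
    refine ⟨u, hu, fun v => ?_⟩
    rw [Finsupp.smul_apply, nsmul_eq_mul, hD v]
  · obtain ⟨h, hh⟩ := hspP ⟨D, hdeg⟩
    rw [hh, Pic0.mk, Pic0.mk, QuotientAddGroup.eq, AddSubgroup.mem_addSubgroupOf]
    have h3 : ((-(⟨Finsupp.mapDomain sp D, h⟩ : Divisor.degZero (K := k) (F := κ)) + Db :
        Divisor.degZero (K := k) (F := κ)) : Divisor k κ) =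
        -(Finsupp.mapDomain sp D - Db.1) := by
      rw [AddSubgroup.coe_add, AddSubgroup.coe_neg]
      abel
    rw [h3]
    exact (Divisor.principal (K := k) (F := κ)).neg_mem hDb

end ClassForm

end Fermat.Agent.S27x.Lift.Verify
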